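import Mathlib

/-!
# The matrix `gcd (e,m)²` on the divisors of `N` is injective
-/

set_option autoImplicit false

namespace Fermat.Agent.Igusa

/-- For `g ∣ N`, exactly `g` residues `a` modulo `N` satisfy `N ∣ g a`. -/
theorem card_killed {N g : ℕ} [NeZero N] (hg : g ∣ N) :
    ((Finset.range N).filter fun a => N ∣ g * a).card = g := by
  have hN := NeZero.pos N
  have hg0 : 0 < g := Nat.pos_of_dvd_of_pos hg hN
  obtain ⟨r, rfl⟩ := hg
  have hr : 0 < r := Nat.pos_of_mul_pos_left hN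
  have : ((Finset.range (g * r)).filter fun a => g * r ∣ g * a) =
      (Finset.range g).image fun t => r * t := by
    ext a
    simp only [Finset.mem_filter, Finset.mem_range, Finset.mem_image,
      Nat.mul_dvd_mul_iff_left hg0]
    constructor
    · rintro ⟨ha, t, rfl⟩
      exact ⟨t, by by_contra h; push Not at h; nlinarith, rfl⟩
    · rintro ⟨t, ht, rfl⟩
      exact ⟨by nlinarith, dvd_mul_right _ _⟩
  rw [this, Finset.card_image_of_injective _ (mul_right_injective₀ hr.ne'), Finset.card_range]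

/-- `gcd (e, m)²` counts the pairs modulo `N` killed by both `e` and `m`. -/
theorem gcd_sq_eq_card {N e m : ℕ} [NeZero N] (he : e ∣ N) :
    (Nat.gcd e m) ^ 2 = ((Finset.range N ×ˢ Finset.range N).filter fun x =>
      (N ∣ e * x.1 ∧ N ∣ e * x.2) ∧ (N ∣ m * x.1 ∧ N ∣ m * x.2)).card := by
  have hg : Nat.gcd e m ∣ N := (Nat.gcd_dvd_left e m).trans he
  have hiff : ∀ a : ℕ, N ∣ Nat.gcd e m * a ↔ N ∣ e * a ∧ N ∣ m * a := fun a => by
    rw [← Nat.gcd_mul_right, Nat.dvd_gcd_iff]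
  have : ((Finset.range N ×ˢ Finset.range N).filter fun x =>
      (N ∣ e * x.1 ∧ N ∣ e * x.2) ∧ (N ∣ m * x.1 ∧ N ∣ m * x.2)) =
      ((Finset.range N).filter fun a => N ∣ Nat.gcd e m * a) ×ˢ
        ((Finset.range N).filter fun a => N ∣ Nat.gcd e m * a) := by
    ext ⟨a, b⟩
    simp only [Finset.mem_filter, Finset.mem_product, hiff]
    tauto
  rw [this, Finset.card_product, card_killed hg, sq]

/-- The matrix `gcd (e, m)²` indexed by the divisors of `N` has trivial kernel. -/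
theorem eq_zero_of_gcd_sq {N : ℕ} [NeZero N] (v : ℕ → ℤ)
    (h : ∀ m ∈ N.divisors, ∑ e ∈ N.divisors, v e * ((Nat.gcd e m : ℤ)) ^ 2 = 0) :
    ∀ e ∈ N.divisors, v e = 0 := by
  classical
  let X := Finset.range N ×ˢ Finset.range N
  let w : ℕ → ℕ × ℕ → ℤ := fun e x => if N ∣ e * x.1 ∧ N ∣ e * x.2 then v e else 0
  have hsq : ∑ x ∈ X, (∑ e ∈ N.divisors, w e x) ^ 2 = 0 := by
    simp only [sq, Finset.mul_sum, Finset.sum_mul]
    rw [Finset.sum_comm]
    refine Finset.sum_eq_zero fun m hm => ?_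
    rw [Finset.sum_comm]
    calc ∑ e ∈ N.divisors, ∑ x ∈ X, w e x * w m x
        = ∑ e ∈ N.divisors, v m * (v e * ((Nat.gcd e m : ℤ)) ^ 2) := by
          refine Finset.sum_congr rfl fun e he => ?_
          rw [← Nat.cast_pow, gcd_sq_eq_card (N := N) (Nat.dvd_of_mem_divisors he),
            Finset.natCast_card_filter, Finset.mul_sum, Finset.mul_sum]
          refine Finset.sum_congr rfl fun x _ => ?_
          by_cases h1 : N ∣ e * x.1 ∧ N ∣ e * x.2 <;> by_cases h2 : N ∣ m * x.1 ∧ N ∣ m * x.2 <;>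
            simp [w, h1, h2, mul_comm]
      _ = 0 := by rw [← Finset.mul_sum, h m hm, mul_zero]
  have hzero : ∀ t ∈ N.divisors, ∑ e ∈ N.divisors.filter (t ∣ ·), v e = 0 := by
    intro t ht
    obtain ⟨r, hr⟩ := Nat.dvd_of_mem_divisors ht
    have hN := NeZero.pos N
    have hx := (Finset.sum_eq_zero_iff_of_nonneg fun x _ => sq_nonneg _).mp hsq (r % N, 0)
      (by simp [X, Nat.mod_lt _ hN, hN])
    rw [sq_eq_zero_iff] at hx
    rw [Finset.sum_filter]
    refine (Finset.sum_congr rfl fun e _ => ?_).trans hx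
    have : (N ∣ e * (r % N)) ↔ t ∣ e := by
      rw [Nat.dvd_iff_mod_eq_zero, Nat.mul_mod, Nat.mod_mod, ← Nat.mul_mod,
        ← Nat.dvd_iff_mod_eq_zero, hr]
      exact Nat.mul_dvd_mul_iff_right (Nat.pos_of_mul_pos_left (hr ▸ hN))
    simp only [w, mul_zero, dvd_zero, and_true, this]
  intro e he
  by_contra hne
  obtain ⟨e₀, he₀, hmax⟩ := (N.divisors.filter fun e => v e ≠ 0).exists_max_image id
    ⟨e, Finset.mem_filter.mpr ⟨he, hne⟩⟩
  obtain ⟨he₁, he₂⟩ := Finset.mem_filter.mp he₀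
  apply he₂
  rw [← hzero e₀ he₁]
  refine (Finset.sum_eq_single_of_mem e₀ (Finset.mem_filter.mpr ⟨he₁, dvd_rfl⟩) ?_).symm
  intro b hb hne'
  obtain ⟨hb₁, hb₂⟩ := Finset.mem_filter.mp hb
  by_contra hvb
  have h1 := hmax b (Finset.mem_filter.mpr ⟨hb₁, hvb⟩)
  have h2 := Nat.le_of_dvd (Nat.pos_of_mem_divisors hb₁) hb₂
  exact hne' (le_antisymm h1 h2)

end Fermat.Agent.Igusa
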