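import Fermat.Agent.Igusa.Families
import Fermat.Agent.Igusa.GcdMatrix

/-!
# Irreducibility and separability of the level `N` modular equation in characteristic prime to `N`

Let `k` be a field with a ring map `π : ℤ[ζ_N] → k` keeping `ζ_N` primitive. The reductions
`Gk π i` of the conjugates of `j(Nτ)` are distinct, and no polynomial over `k(j)` of degree less
than their number kills the one at `cst0`: the reductions of the units `Δ(mτ)/Δ(τ)` have constant
norm, so their orders sum to zero over every Galois stable set of conjugates, and the matrix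
`gcd (e,m)²` is injective.
-/

set_option autoImplicit false

noncomputable section

open scoped MatrixGroups
open Polynomial

namespace Fermat.Agent.Igusa

section Order

variable {k : Type*} [Field k]

theorem order_eq_of_coeff {s : LaurentSeries k} {n : ℤ} (h1 : s.coeff n ≠ 0)
    (h2 : ∀ m < n, s.coeff m = 0) : s.order = n := by
  refine le_antisymm (HahnSeries.order_le_of_coeff_ne_zero h1) ?_
  by_contra h
  exact HahnSeries.coeff_order_eq_zero.not.mpr
    (HahnSeries.ne_zero_of_coeff_ne_zero h1) (h2 _ (not_le.mp h))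

theorem order_twist (c : kˣ) (s : LaurentSeries k) : (twist c s).order = s.order := by
  rcases eq_or_ne s 0 with rfl | hs
  · simp
  refine order_eq_of_coeff ?_ fun m hm => ?_
  · rw [twist_coeff]
    exact mul_ne_zero (Units.ne_zero _) (HahnSeries.coeff_order_eq_zero.not.mpr hs)
  · simp [HahnSeries.coeff_eq_zero_of_lt_order hm]

theorem order_qExpand (e : ℕ) [NeZero e] (s : LaurentSeries k) :
    (ModularCurve.qExpand k e s).order = e * s.order := by
  rcases eq_or_ne s 0 with rfl | hs
  · simp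
  have he : (0 : ℤ) < e := by exact_mod_cast NeZero.pos e
  refine order_eq_of_coeff ?_ fun m hm => ?_
  · rw [ModularCurve.qExpand_coeff_mul]
    exact HahnSeries.coeff_order_eq_zero.not.mpr hs
  · by_cases hd : (e : ℤ) ∣ m
    · obtain ⟨r, rfl⟩ := hd
      rw [ModularCurve.qExpand_coeff_mul]
      exact HahnSeries.coeff_eq_zero_of_lt_order (lt_of_mul_lt_mul_left hm he.le)
    · exact ModularCurve.qExpand_coeff_of_not_dvd e _ hd

theorem order_single_mul_ofPowerSeries (n : ℤ) {p : PowerSeries k}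
    (hp : PowerSeries.constantCoeff p ≠ 0) :
    (HahnSeries.single n (1 : k) * HahnSeries.ofPowerSeries ℤ k p).order = n := by
  refine order_eq_of_coeff ?_ fun m hm => ?_
  · rw [HahnSeries.coeff_single_mul, one_mul, sub_self,
      show (0 : ℤ) = ((0 : ℕ) : ℤ) from rfl, HahnSeries.ofPowerSeries_apply_coeff,
      PowerSeries.coeff_zero_eq_constantCoeff]
    exact hp
  · rw [HahnSeries.coeff_single_mul, one_mul,
      ModularCurve.ofPowerSeries_coeff_of_neg _ (by omega)]

theorem constantCoeff_map_intCast {p : PowerSeries ℤ} (h : PowerSeries.constantCoeff p = 1) :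
    PowerSeries.constantCoeff (p.map (Int.castRingHom k)) ≠ 0 := by
  rw [← PowerSeries.coeff_zero_eq_constantCoeff_apply, PowerSeries.coeff_map,
    PowerSeries.coeff_zero_eq_constantCoeff_apply, h, map_one]
  exact one_ne_zero

theorem order_deltaR : (deltaR k).order = 1 :=
  order_single_mul_ofPowerSeries 1
    (constantCoeff_map_intCast ModularCurve.constantCoeff_dedekindEtaUnit)

theorem order_deltaInvR : (deltaInvR k).order = -1 :=
  order_single_mul_ofPowerSeries (-1)
    (constantCoeff_map_intCast ModularCurve.constantCoeff_dedekindEtaUnitInv)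

theorem order_jqModC : (ModularCurve.jqModC k).order = -1 :=
  order_single_mul_ofPowerSeries (-1) (constantCoeff_map_intCast ModularCurve.constantCoeff_jNum)

theorem jqModC_ne_zero' : ModularCurve.jqModC k ≠ 0 :=
  ModularCurve.jqModC_ne_zero_of_nontrivial k

theorem order_prod {ι : Type*} (s : Finset ι) (f : ι → LaurentSeries k) (hf : ∀ i ∈ s, f i ≠ 0) :
    (∏ i ∈ s, f i).order = ∑ i ∈ s, (f i).order := by
  classical
  induction s using Finset.induction with
  | empty => simp
  | insert a s ha ih =>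
    rw [Finset.prod_insert ha, Finset.sum_insert ha,
      HahnSeries.order_mul (hf a (Finset.mem_insert_self a s))
        (Finset.prod_ne_zero_iff.mpr fun i hi => hf i (Finset.mem_insert_of_mem hi)),
      ih fun i hi => hf i (Finset.mem_insert_of_mem hi)]

theorem coeff_evJ_natDegree (N : ℕ) [NeZero N] (p : k[X]) :
    (evJ k N p).coeff (-((N : ℤ) * p.natDegree)) = p.leadingCoeff := by
  have hN : (0 : ℤ) < N := by exact_mod_cast NeZero.pos N
  rw [evJ, Polynomial.coe_eval₂RingHom, Polynomial.eval₂_eq_sum_range, HahnSeries.coeff_sum,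
    Finset.sum_eq_single_of_mem p.natDegree (Finset.self_mem_range_succ _)]
  · rw [HahnSeries.C_apply, HahnSeries.coeff_single_mul, sub_zero, coeff_jW_pow_self, mul_one]
    rfl
  · intro b hb hne
    rw [Finset.mem_range] at hb
    have hlt : (b : ℤ) < p.natDegree := by omega
    rw [HahnSeries.C_apply, HahnSeries.coeff_single_mul, sub_zero,
      coeff_jW_pow_of_lt N b (by nlinarith), mul_zero]

theorem evJ_injective (N : ℕ) [NeZero N] : Function.Injective (evJ k N) := by
  refine (injective_iff_map_eq_zero _).mpr fun p hp => ?_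
  rw [← Polynomial.leadingCoeff_eq_zero, ← coeff_evJ_natDegree N p, hp, HahnSeries.coeff_zero]

end Order

variable {N : ℕ} [NeZero N] {k : Type*} [Field k]

/-- Reduction of the series component. -/
def red (π : Rz N →+* k) : AQ N →+* LaurentSeries k := (ModularCurve.coeffMap π).comp serHom

theorem natCast_ne_zero_of_primitive (π : Rz N →+* k) (hπ : IsPrimitiveRoot (π (zetaR N)) N) :
    (N : k) ≠ 0 := hπ.neZero'.out

theorem natCast_ne_zero_of_dvd (π : Rz N →+* k) (hπ : IsPrimitiveRoot (π (zetaR N)) N) {e : ℕ}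
    (he : e ∣ N) : (e : k) ≠ 0 := by
  intro h
  obtain ⟨r, hr⟩ := he
  exact natCast_ne_zero_of_primitive π hπ (by rw [hr, Nat.cast_mul, h, zero_mul])

/-- Reduced conjugates of `j(mτ)`. -/
def Gk (π : Rz N →+* k) {m : ℕ} [NeZero m] (hm : m ∣ N) (i : Cst N) : LaurentSeries k :=
  red π (jFam hm i)

theorem Gk_eq (π : Rz N →+* k) {m : ℕ} [NeZero m] (hm : m ∣ N) (i : Cst N) :
    haveI := neZero_expo hm (repg i)
    Gk π hm i = ModularCurve.qExpand k (expo N m (repg i))
      (twist (Units.map (π : Rz N →* k) (tw N m (repg i))) (ModularCurve.jqModC k)) := by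
  show ModularCurve.coeffMap π (conjSer hm (repg i) (ModularCurve.jqModC (Rz N))) = _
  rw [conjSer, ModularCurve.coeffMap_qExpand, coeffMap_twist, ModularCurve.coeffMap_jqModC]

theorem order_Gk (π : Rz N →+* k) {m : ℕ} [NeZero m] (hm : m ∣ N) (i : Cst N) :
    (Gk π hm i).order = -(expo N m (repg i) : ℤ) := by
  rw [Gk_eq, order_qExpand, order_twist, order_jqModC]
  ring

theorem expo_self (g : SL(2, ℤ)) : expo N N g = cls N g * cls N g := by
  rw [expo, cod, Nat.div_div_self (cls_dvd N g) (NeZero.ne N)]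

omit [NeZero N] in
theorem mul_expo {m : ℕ} [NeZero m] (hm : m ∣ N) (g : SL(2, ℤ)) :
    m * expo N m g = cls m g ^ 2 * N := by
  conv_lhs => arg 1; rw [← cls_mul_cod m g]
  rw [expo, sq, mul_mul_mul_comm, Nat.mul_div_cancel' (cod_dvd hm g)]

omit [NeZero N] in
theorem cls_eq_gcd {m : ℕ} (hm : m ∣ N) (g : SL(2, ℤ)) : cls m g = Nat.gcd (cls N g) m := by
  simp only [cls, Int.gcd_def, Int.natAbs_natCast]
  rw [Nat.gcd_comm (Nat.gcd N _) m, ← Nat.gcd_assoc, Nat.gcd_eq_left hm]

theorem Gk_injective (π : Rz N →+* k) (hπ : IsPrimitiveRoot (π (zetaR N)) N) :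
    Function.Injective (Gk π (dvd_refl N)) := by
  intro i j hij
  have he : cls N (repg i) = cls N (repg j) := by
    have h := congrArg HahnSeries.order hij
    rw [order_Gk, order_Gk, neg_inj, Nat.cast_inj, expo_self, expo_self, ← sq, ← sq] at h
    exact Nat.pow_left_injective two_ne_zero h
  have hd : cod N (repg i) = cod N (repg j) := by rw [cod, cod, he]
  set e := cls N (repg i) with he_def
  have hcoeff : ∀ a : Cst N, cls N (repg a) = e →
      (Gk π (dvd_refl N) a).coeff (-((e * e : ℕ) : ℤ)) =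
        π (zetaR N) ^ (-(hermB N (repg a) * e)) := by
    intro a ha
    rw [Gk_eq, show (-((e * e : ℕ) : ℤ)) = (expo N N (repg a) : ℤ) * (-1) by
        rw [expo_self, ha]; ring,
      ModularCurve.qExpand_coeff_mul, twist_coeff, ModularCurve.coeff_jqModC_neg_one, mul_one, tw,
      map_zpow, ← zpow_mul, Units.val_zpow_eq_zpow_val, cod,
      Nat.div_div_self (cls_dvd N _) (NeZero.ne N), ha, Units.coe_map, mul_neg_one]
    rfl
  have hz := hcoeff i rfl
  rw [hij, hcoeff j he.symm] at hz
  have hne : π (zetaR N) ≠ 0 := hπ.ne_zero (NeZero.ne N)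
  have hdvd : (N : ℤ) ∣ (hermB N (repg j) - hermB N (repg i)) * e := by
    have h1 : π (zetaR N) ^ (-(hermB N (repg i) * e) - -(hermB N (repg j) * e)) = 1 := by
      rw [zpow_sub₀ hne, hz, div_self (zpow_ne_zero _ hne)]
    have := (hπ.zpow_eq_one_iff_dvd _).mp h1
    rwa [show (hermB N (repg j) - hermB N (repg i)) * e =
      -(hermB N (repg i) * e) - -(hermB N (repg j) * e) by ring]
  have hN : (N : ℤ) = (cod N (repg i) : ℤ) * e := by
    rw [mul_comm]; exact_mod_cast (cls_mul_cod N (repg i)).symm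
  rw [hN] at hdvd
  obtain ⟨t, ht⟩ := Int.dvd_of_mul_dvd_mul_right (by exact_mod_cast NeZero.ne e) hdvd
  obtain ⟨-, -, hc, hdd⟩ := hermite_spec N (repg i)
  obtain ⟨-, -, hc', hdd'⟩ := hermite_spec N (repg j)
  rw [← he] at hc'
  rw [← hd] at hdd'
  rw [← QuotientGroup.out_eq' j, ← QuotientGroup.out_eq' i, eq_comm, QuotientGroup.eq,
    show (Quotient.out j)⁻¹ * Quotient.out i = repg j * (repg i)⁻¹ by simp [repg],
    CongruenceSubgroup.Gamma0_mem, ZMod.intCast_zmod_eq_zero_iff_dvd]
  refine ⟨hermG N (repg j) 1 0 * hermG N (repg i) 1 1 - hermG N (repg j) 1 0 *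
    hermG N (repg i) 1 0 * t - hermG N (repg j) 1 1 * hermG N (repg i) 1 0, ?_⟩
  rw [Matrix.SpecialLinearGroup.coe_mul, Matrix.SpecialLinearGroup.coe_inv,
    Matrix.adjugate_fin_two, Matrix.mul_apply, Fin.sum_univ_two]
  simp only [Matrix.of_apply, Matrix.cons_val', Matrix.cons_val_zero, Matrix.cons_val_one,
    Matrix.cons_val_fin_one]
  rw [hc, hdd, hc', hdd', hN]
  linear_combination (-(hermG N (repg i) 1 0 * e * hermG N (repg j) 1 0)) * ht

/-- The distinguished coset. -/
def cst0 : Cst N := ((1 : SL(2, ℤ)) : Cst N)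

omit [NeZero N] in
theorem repg_cst0_mem : repg (cst0 : Cst N) ∈ CongruenceSubgroup.Gamma0 N := by
  obtain ⟨h, hh⟩ := QuotientGroup.mk_out_eq_mul (CongruenceSubgroup.Gamma0 N) (1 : SL(2, ℤ))
  rw [repg, cst0, hh, one_mul]
  exact inv_mem h.2

omit [NeZero N] in
theorem eq_cst0_of_cls {i : Cst N} (h : cls N (repg i) = N) : i = cst0 := by
  rw [← QuotientGroup.out_eq' i, cst0, QuotientGroup.eq, mul_one,
    CongruenceSubgroup.Gamma0_mem, ZMod.intCast_zmod_eq_zero_iff_dvd]
  have h1 : ((cls N (repg i) : ℕ) : ℤ) ∣ repg i 1 0 := Int.gcd_dvd_right _ _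
  rwa [h] at h1

theorem Gk_cst0 (π : Rz N →+* k) {m : ℕ} [NeZero m] (hm : m ∣ N) :
    Gk π hm (cst0 : Cst N) = ModularCurve.qExpand k (m * N) (ModularCurve.jqModC k) := by
  have := neZero_expo hm (repg (cst0 : Cst N))
  have h1 := cls_of_mem hm (repg_cst0_mem (N := N))
  have h2 : cod m (repg (cst0 : Cst N)) = 1 := by rw [cod, h1, Nat.div_self (NeZero.pos m)]
  have htw : tw N m (repg (cst0 : Cst N)) = 1 := by
    have hu : zetaU N ^ N = 1 := Units.ext (zetaR_pow_self N)
    rw [tw, h2, Nat.div_one, mul_comm, zpow_mul, zpow_natCast, hu, one_zpow]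
  rw [Gk_eq, htw, map_one, twist_one_apply]
  exact ModularCurve.qExpand_congr (by rw [expo, h1, h2, Nat.div_one]) _

/-- `k(j)`. -/
abbrev Kj (k : Type*) [Field k] : Type _ := FractionRing (Polynomial k)

variable (k N) in
/-- The embedding of `k(j)`. -/
def phiJ : Kj k →+* LaurentSeries k := IsFractionRing.lift (evJ_injective (k := k) N)

theorem phiJ_algebraMap (p : k[X]) : phiJ N k (algebraMap k[X] (Kj k) p) = evJ k N p :=
  IsFractionRing.lift_algebraMap _ p

theorem evJ_map (π : Rz N →+* k) (p : Polynomial (Rz N)) :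
    evJ k N (p.map π) = ModularCurve.coeffMap π (evJ (Rz N) N p) := by
  simp only [evJ, Polynomial.coe_eval₂RingHom, Polynomial.eval₂_map, Polynomial.hom_eval₂,
    coeffMap_jW]
  congr 1
  ext a : 1
  simp [HahnSeries.C_apply]

theorem map_phiJ_map (π : Rz N →+* k) (P : Polynomial (Polynomial (Rz N))) :
    ((P.map (Polynomial.mapRingHom π)).map (algebraMap k[X] (Kj k))).map (phiJ N k) =
      (P.map (evJ (Rz N) N)).map (ModularCurve.coeffMap π) := by
  rw [Polynomial.map_map, Polynomial.map_map, Polynomial.map_map]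
  congr 1
  refine RingHom.ext fun p => ?_
  simp [phiJ_algebraMap, evJ_map]

theorem exists_charPoly_red (π : Rz N →+* k) (x : Cst N → AQ N) (hx : Equivariant x) :
    ∃ P : Polynomial (k[X]), P.Monic ∧ P.natDegree = Fintype.card (Cst N) ∧
      (P.map (algebraMap k[X] (Kj k))).map (phiJ N k) = ∏ i, (X - C (red π (x i))) := by
  obtain ⟨P, hm, hd, hP⟩ := exists_charPoly x hx
  refine ⟨P.map (Polynomial.mapRingHom π), hm.map _, by rw [hm.natDegree_map, hd], ?_⟩
  rw [map_phiJ_map, hP, Polynomial.map_prod]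
  simp [red]

/-- Every equivariant family is a single polynomial in `Gk` over `k(j)`. -/
theorem exists_eval_eq (π : Rz N →+* k) (hπ : IsPrimitiveRoot (π (zetaR N)) N)
    (x : Cst N → AQ N) (hx : Equivariant x) :
    ∃ H : (Kj k)[X], ∀ i, H.eval₂ (phiJ N k) (Gk π (dvd_refl N) i) = red π (x i) := by
  classical
  obtain ⟨P, -, -, hP⟩ := exists_charPoly_red π (jFam (N := N) dvd_rfl) (equivariant_jFam _)
  obtain ⟨Q, hQ⟩ := exists_interp (jFam (N := N) dvd_rfl) x (equivariant_jFam _) hx
  set Φ := P.map (algebraMap k[X] (Kj k))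
  set Q' := (Q.map (Polynomial.mapRingHom π)).map (algebraMap k[X] (Kj k))
  have hsep : Φ.Separable := by
    rw [← Polynomial.separable_map (phiJ N k), hP]
    exact Polynomial.separable_prod_X_sub_C_iff.mpr (Gk_injective π hπ)
  obtain ⟨a, b, hab⟩ := hsep
  refine ⟨b * Q', fun i => ?_⟩
  have hroot : Φ.eval₂ (phiJ N k) (Gk π (dvd_refl N) i) = 0 := by
    rw [← Polynomial.eval_map, hP, Polynomial.eval_prod]
    exact Finset.prod_eq_zero (Finset.mem_univ i) (by simp [Gk])
  have hder : Φ.derivative.eval₂ (phiJ N k) (Gk π (dvd_refl N) i) =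
      ∏ i' ∈ Finset.univ.erase i, (Gk π (dvd_refl N) i - Gk π (dvd_refl N) i') := by
    rw [← Polynomial.eval_map, ← Polynomial.derivative_map, hP, Polynomial.derivative_prod_finset,
      Polynomial.eval_finsetSum, Finset.sum_eq_single i]
    · simp [Polynomial.eval_prod, Gk]
    · intro j _ hj
      rw [Polynomial.eval_mul, Polynomial.eval_prod,
        Finset.prod_eq_zero (Finset.mem_erase.mpr ⟨hj.symm, Finset.mem_univ _⟩) (by simp [Gk]),
        zero_mul]
    · simp
  have hQ' : Q'.eval₂ (phiJ N k) (Gk π (dvd_refl N) i) = red π (x i) *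
      ∏ i' ∈ Finset.univ.erase i, (Gk π (dvd_refl N) i - Gk π (dvd_refl N) i') := by
    rw [← Polynomial.eval_map, map_phiJ_map, hQ, Polynomial.map_sum, Polynomial.eval_finsetSum,
      Finset.sum_eq_single i]
    · simp [Polynomial.eval_prod, Polynomial.map_prod, Gk, red]
    · intro j _ hj
      rw [Polynomial.map_mul, Polynomial.eval_mul, Polynomial.map_prod, Polynomial.eval_prod,
        Finset.prod_eq_zero (Finset.mem_erase.mpr ⟨hj.symm, Finset.mem_univ _⟩) (by simp [Gk, red]),
        mul_zero]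
    · simp
  have h1 := congrArg (Polynomial.eval₂ (phiJ N k) (Gk π (dvd_refl N) i)) hab
  rw [Polynomial.eval₂_add, Polynomial.eval₂_mul, hroot, mul_zero, zero_add,
    Polynomial.eval₂_mul, hder, Polynomial.eval₂_one] at h1
  rw [Polynomial.eval₂_mul, hQ']
  linear_combination red π (x i) * h1

/-- Products over a `k(j)`-rational set of conjugates lie in `k(j)`. -/
theorem exists_prod_eq (π : Rz N →+* k) (hπ : IsPrimitiveRoot (π (zetaR N)) N)
    (x : Cst N → AQ N) (hx : Equivariant x) {O : Finset (Cst N)} {P : (Kj k)[X]} (hPm : P.Monic)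
    (hP : P.map (phiJ N k) = ∏ i ∈ O, (X - C (Gk π (dvd_refl N) i))) :
    ∃ z : Kj k, phiJ N k z = ∏ i ∈ O, red π (x i) := by
  obtain ⟨H, hH⟩ := exists_eval_eq π hπ x hx
  refine ⟨resultant P H, ?_⟩
  rw [← Polynomial.resultant_map_map, ← hPm.natDegree_map (phiJ N k),
    Polynomial.resultant_eq_prod_eval _ _ _ Polynomial.natDegree_map_le
      (hP ▸ Polynomial.Splits.prod fun i _ => Polynomial.Splits.X_sub_C _),
    (hPm.map _).leadingCoeff, one_pow, one_mul, hP,
    show ∏ i ∈ O, (X - C (Gk π (dvd_refl N) i)) =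
      ((O.val.map (Gk π (dvd_refl N))).map fun a => X - C a).prod by rw [Multiset.map_map]; rfl,
    Polynomial.roots_multiset_prod_X_sub_C, Multiset.map_map]
  exact Finset.prod_congr rfl fun i _ => by rw [Function.comp_apply, Polynomial.eval_map, hH]

theorem isIntegral_red (π : Rz N →+* k) (x : Cst N → AQ N) (hx : Equivariant x) (i : Cst N) :
    (evJ k N).IsIntegralElem (red π (x i)) := by
  obtain ⟨P, hm, -, hP⟩ := exists_charPoly_red π x hx
  refine ⟨P, hm, ?_⟩
  rw [Polynomial.map_map, show (phiJ N k).comp (algebraMap k[X] (Kj k)) = evJ k N from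
    RingHom.ext phiJ_algebraMap] at hP
  rw [← Polynomial.eval_map, hP, Polynomial.eval_prod]
  exact Finset.prod_eq_zero (Finset.mem_univ i) (by simp)

theorem exists_polynomial_of_isIntegral {z : Kj k}
    (hz : (evJ k N).IsIntegralElem (phiJ N k z)) : ∃ p : k[X], algebraMap _ _ p = z := by
  obtain ⟨P, hm, hP⟩ := hz
  refine IsIntegrallyClosed.isIntegral_iff.mp ⟨P, hm, (phiJ N k).injective ?_⟩
  rw [map_zero, Polynomial.hom_eval₂, show (phiJ N k).comp (algebraMap k[X] (Kj k)) = evJ k N from
    RingHom.ext phiJ_algebraMap]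
  exact hP

theorem isIntegralElem_prod {A B : Type*} [CommRing A] [CommRing B] (f : A →+* B) {ι : Type*}
    (s : Finset ι) (g : ι → B) (h : ∀ i ∈ s, f.IsIntegralElem (g i)) :
    f.IsIntegralElem (∏ i ∈ s, g i) := by
  classical
  induction s using Finset.induction with
  | empty => simpa using f.isIntegralElem_one
  | insert a s ha ih =>
    rw [Finset.prod_insert ha]
    exact RingHom.IsIntegralElem.mul f (h a (Finset.mem_insert_self a s))
      (ih fun i hi => h i (Finset.mem_insert_of_mem hi))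

theorem red_uFam_mul_wFam (π : Rz N →+* k) {m : ℕ} [NeZero m] (hm : m ∣ N) (i : Cst N) :
    red π (uFam hm i) * red π (wFam hm i) = HahnSeries.C ((m : k) ^ 12) := by
  have := neZero_expo hm (repg i)
  have hser : serHom (uFam hm i) * serHom (wFam hm i) = HahnSeries.C ((m : Rz N) ^ 12) := by
    simp only [uFam, wFam, serHom_mk, conjSer]
    have h1 : ((m : ℕ) : Rz N) ^ 12 =
        (cls m (repg i) : Rz N) ^ 12 * (cod m (repg i) : Rz N) ^ 12 := by
      rw [← mul_pow, ← Nat.cast_mul, cls_mul_cod]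
    have h2 := deltaR_mul_deltaInvR (Rz N)
    have h3 := congrArg (fun s => ModularCurve.qExpand (Rz N) (expo N m (repg i))
      (twist (tw N m (repg i)) s)) h2
    have h4 := congrArg (ModularCurve.qExpand (Rz N) N) h2
    simp only [map_mul, map_one] at h3 h4
    rw [h1, map_mul]
    linear_combination (HahnSeries.C ((cls m (repg i) : Rz N) ^ 12) *
      HahnSeries.C ((cod m (repg i) : Rz N) ^ 12)) * h3 +
      (HahnSeries.C ((cls m (repg i) : Rz N) ^ 12) * HahnSeries.C ((cod m (repg i) : Rz N) ^ 12) *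
      ModularCurve.qExpand (Rz N) (expo N m (repg i)) (twist (tw N m (repg i)) (deltaR (Rz N))) *
      ModularCurve.qExpand (Rz N) (expo N m (repg i))
        (twist (tw N m (repg i)) (deltaInvR (Rz N)))) *
        h4
  rw [red, RingHom.comp_apply, RingHom.comp_apply, ← map_mul, hser, HahnSeries.C_apply,
    ModularCurve.coeffMap_single, map_pow, map_natCast]
  rfl

theorem order_red_uFam (π : Rz N →+* k) (hπ : IsPrimitiveRoot (π (zetaR N)) N) {m : ℕ} [NeZero m]
    (hm : m ∣ N) (i : Cst N) :
    (red π (uFam hm i)).order = (expo N m (repg i) : ℤ) - N := by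
  have := neZero_expo hm (repg i)
  have hc : (cls m (repg i) : k) ^ 12 ≠ 0 :=
    pow_ne_zero _ (natCast_ne_zero_of_dvd π hπ ((cls_dvd m _).trans hm))
  have hd' : deltaInvR k ≠ 0 := right_ne_zero_of_mul_eq_one (deltaR_mul_deltaInvR k)
  have h1 : (twist (Units.map (π : Rz N →* k) (tw N m (repg i)))) (deltaR k) ≠ 0 := by
    intro h0
    have := congrArg HahnSeries.order h0
    rw [order_twist, order_deltaR] at this
    simp at this
  simp only [red, RingHom.comp_apply, uFam, serHom_mk, conjSer, map_mul,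
    ModularCurve.coeffMap_qExpand, coeffMap_twist, coeffMap_deltaR, coeffMap_deltaInvR,
    map_pow, map_natCast]
  have hcast : (cls m (repg i) : LaurentSeries k) ^ 12 =
      HahnSeries.single (0 : ℤ) ((cls m (repg i) : k) ^ 12) := by
    rw [← HahnSeries.C_apply, map_pow, map_natCast]
  rw [hcast]
  have hC : HahnSeries.single (0 : ℤ) ((cls m (repg i) : k) ^ 12) ≠ 0 :=
    HahnSeries.single_ne_zero hc
  have hA := (map_ne_zero_iff _ (ModularCurve.qExpand_injective (expo N m (repg i)))).mpr h1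
  have hB := (map_ne_zero_iff _ (ModularCurve.qExpand_injective (R := k) N)).mpr hd'
  rw [HahnSeries.order_mul (mul_ne_zero hC hA) hB, HahnSeries.order_mul hC hA,
    HahnSeries.order_single hc, order_qExpand, order_qExpand, order_twist, order_deltaR,
    order_deltaInvR]
  ring

/-- The sum rule over a rational set of conjugates. -/
theorem sum_gcd_sq (π : Rz N →+* k) (hπ : IsPrimitiveRoot (π (zetaR N)) N)
    {O : Finset (Cst N)} {P : (Kj k)[X]} (hPm : P.Monic)
    (hP : P.map (phiJ N k) = ∏ i ∈ O, (X - C (Gk π (dvd_refl N) i))) {m : ℕ} (hm : m ∈ N.divisors) :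
    ∑ i ∈ O, ((Nat.gcd (cls N (repg i)) m : ℤ)) ^ 2 = O.card * m := by
  have hmN := Nat.dvd_of_mem_divisors hm
  have : NeZero m := ⟨(Nat.pos_of_mem_divisors hm).ne'⟩
  obtain ⟨z, hz⟩ := exists_prod_eq π hπ _ (equivariant_uFam hmN) hPm hP
  obtain ⟨z', hz'⟩ := exists_prod_eq π hπ _ (equivariant_wFam hmN) hPm hP
  obtain ⟨p, hp⟩ := exists_polynomial_of_isIntegral (N := N) (z := z) (hz ▸
    isIntegralElem_prod _ _ _ fun i _ => isIntegral_red π _ (equivariant_uFam hmN) i)
  obtain ⟨p', hp'⟩ := exists_polynomial_of_isIntegral (N := N) (z := z') (hz' ▸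
    isIntegralElem_prod _ _ _ fun i _ => isIntegral_red π _ (equivariant_wFam hmN) i)
  have hm0 : (m : k) ≠ 0 := natCast_ne_zero_of_dvd π hπ hmN
  have hpp : p * p' = Polynomial.C (((m : k) ^ 12) ^ O.card) := by
    refine evJ_injective N ?_
    rw [map_mul, ← phiJ_algebraMap, ← phiJ_algebraMap, hp, hp', hz, hz', ← Finset.prod_mul_distrib,
      Finset.prod_congr rfl fun i _ => red_uFam_mul_wFam π hmN i, Finset.prod_const, ← map_pow,
      evJ, Polynomial.coe_eval₂RingHom, Polynomial.eval₂_C]
  have hunit : IsUnit p := isUnit_of_mul_isUnit_left (y := p')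
    (hpp ▸ Polynomial.isUnit_C.mpr (pow_ne_zero _ (pow_ne_zero _ hm0)).isUnit)
  obtain ⟨c, hc, rfl⟩ := Polynomial.isUnit_iff.mp hunit
  have hne : ∀ i ∈ O, red π (uFam hmN i) ≠ 0 := fun i _ h0 => by
    have := red_uFam_mul_wFam π hmN i
    rw [h0, zero_mul, eq_comm, map_eq_zero] at this
    exact pow_ne_zero _ hm0 this
  have hord : (∏ i ∈ O, red π (uFam hmN i)).order = 0 := by
    rw [← hz, ← hp, phiJ_algebraMap, evJ, Polynomial.coe_eval₂RingHom, Polynomial.eval₂_C,
      HahnSeries.C_apply, HahnSeries.order_single hc.ne_zero]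
  rw [order_prod O _ hne, Finset.sum_congr rfl fun i _ => order_red_uFam π hπ hmN i,
    Finset.sum_sub_distrib, Finset.sum_const, nsmul_eq_mul, sub_eq_zero] at hord
  refine mul_right_cancel₀ (b := (N : ℤ)) (by exact_mod_cast NeZero.ne N) ?_
  rw [Finset.sum_mul, Finset.sum_congr rfl fun i _ => show
    ((Nat.gcd (cls N (repg i)) m : ℤ)) ^ 2 * N = m * expo N m (repg i) by
      rw [← cls_eq_gcd hmN]; exact_mod_cast (mul_expo hmN (repg i)).symm,
    ← Finset.mul_sum, hord]
  ring

/-- The number of conjugates of each class in a rational set is proportional to the total. -/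
theorem rational_set_eq_univ (π : Rz N →+* k) (hπ : IsPrimitiveRoot (π (zetaR N)) N)
    {O : Finset (Cst N)} {P : (Kj k)[X]} (hPm : P.Monic)
    (hP : P.map (phiJ N k) = ∏ i ∈ O, (X - C (Gk π (dvd_refl N) i))) (h0 : cst0 ∈ O) :
    O = Finset.univ := by
  classical
  obtain ⟨P₁, hP₁m, -, hP₁⟩ := exists_charPoly_red π (jFam (N := N) dvd_rfl) (equivariant_jFam _)
  have hfib : ∀ (S : Finset (Cst N)) (m : ℕ),
      ∑ e ∈ N.divisors, ((S.filter fun i => cls N (repg i) = e).card : ℤ) *
        ((Nat.gcd e m : ℤ)) ^ 2 = ∑ i ∈ S, ((Nat.gcd (cls N (repg i)) m : ℤ)) ^ 2 := by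
    intro S m
    rw [← Finset.sum_fiberwise_of_maps_to (g := fun i => cls N (repg i)) (t := N.divisors)
      fun i _ => Nat.mem_divisors.mpr ⟨cls_dvd N _, NeZero.ne N⟩]
    refine Finset.sum_congr rfl fun e _ => ?_
    rw [Finset.sum_congr rfl (g := fun _ => ((Nat.gcd e m : ℤ)) ^ 2) fun i hi => by
      rw [(Finset.mem_filter.mp hi).2]]
    rw [Finset.sum_const, nsmul_eq_mul]
  have hv := eq_zero_of_gcd_sq (N := N) (fun e =>
      ((O.filter fun i => cls N (repg i) = e).card : ℤ) * Fintype.card (Cst N) -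
        O.card * ((Finset.univ.filter fun i : Cst N => cls N (repg i) = e).card : ℤ))
    (fun m hm => by
      simp only [sub_mul, Finset.sum_sub_distrib, mul_right_comm _ (Fintype.card (Cst N) : ℤ),
        ← Finset.sum_mul, mul_assoc (O.card : ℤ), ← Finset.mul_sum]
      rw [hfib, hfib, sum_gcd_sq π hπ hPm hP hm,
        sum_gcd_sq π hπ (hP₁m.map _) (O := Finset.univ) hP₁ hm, Finset.card_univ]
      ring) N (Nat.mem_divisors.mpr ⟨dvd_rfl, NeZero.ne N⟩)
  have hsingle : ∀ S : Finset (Cst N), cst0 ∈ S →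
      (S.filter fun i => cls N (repg i) = N).card = 1 := fun S hS =>
    Finset.card_eq_one.mpr ⟨cst0, Finset.eq_singleton_iff_unique_mem.mpr
      ⟨Finset.mem_filter.mpr ⟨hS, cls_of_mem dvd_rfl repg_cst0_mem⟩,
        fun i hi => eq_cst0_of_cls (Finset.mem_filter.mp hi).2⟩⟩
  rw [hsingle O h0, hsingle _ (Finset.mem_univ _), Nat.cast_one, one_mul, mul_one, sub_eq_zero,
    Nat.cast_inj] at hv
  exact Finset.eq_univ_of_card O hv.symm

/-- A polynomial over `k(j)` killing the reduced `j(Nτ)` has degree at least the index. -/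
theorem card_le_natDegree (π : Rz N →+* k) (hπ : IsPrimitiveRoot (π (zetaR N)) N) {Q : (Kj k)[X]}
    (hQ0 : Q ≠ 0) (hQ : Q.eval₂ (phiJ N k) (Gk π (dvd_refl N) cst0) = 0) :
    Fintype.card (Cst N) ≤ Q.natDegree := by
  classical
  obtain ⟨P₁, hP₁m, -, hP₁⟩ := exists_charPoly_red π (jFam (N := N) dvd_rfl) (equivariant_jFam _)
  let : Algebra (Kj k) (LaurentSeries k) := (phiJ N k).toAlgebra
  set θ := Gk π (dvd_refl N) (cst0 : Cst N) with hθ
  have hint : IsIntegral (Kj k) θ := by
    refine ⟨P₁.map (algebraMap k[X] (Kj k)), hP₁m.map _, ?_⟩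
    rw [RingHom.algebraMap_toAlgebra, ← Polynomial.eval_map, hP₁, Polynomial.eval_prod]
    exact Finset.prod_eq_zero (Finset.mem_univ cst0) (by simp [hθ, Gk])
  set P0 := minpoly (Kj k) θ
  have hdvd : P0.map (phiJ N k) ∣ ∏ i, (X - C (Gk π (dvd_refl N) i)) := by
    have h1 : P0 ∣ P₁.map (algebraMap k[X] (Kj k)) := minpoly.dvd _ _ (by
      rw [Polynomial.aeval_def, RingHom.algebraMap_toAlgebra, ← Polynomial.eval_map, hP₁,
        Polynomial.eval_prod]
      exact Finset.prod_eq_zero (Finset.mem_univ cst0) (by simp [hθ, Gk]))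
    have h2 := Polynomial.map_dvd (phiJ N k) h1
    rw [hP₁] at h2
    exact h2
  have hmon : (P0.map (phiJ N k)).Monic := (minpoly.monic hint).map _
  have hsplit : (P0.map (phiJ N k)).Splits :=
    (Polynomial.Splits.prod fun i _ => Polynomial.Splits.X_sub_C _).of_dvd
      (Polynomial.monic_prod_of_monic _ _ fun i _ => Polynomial.monic_X_sub_C _).ne_zero hdvd
  set O := Finset.univ.filter fun i => (P0.map (phiJ N k)).IsRoot (Gk π (dvd_refl N) i)
  have hroots : (P0.map (phiJ N k)).roots = O.val.map (Gk π (dvd_refl N)) := by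
    have hsep : (P0.map (phiJ N k)).Separable :=
      (Polynomial.separable_prod_X_sub_C_iff.mpr (Gk_injective π hπ)).of_dvd hdvd
    refine Multiset.Nodup.ext (Polynomial.nodup_roots hsep)
      (O.nodup.map (Gk_injective π hπ)) |>.mpr fun a => ?_
    rw [Multiset.mem_map]
    constructor
    · intro ha
      have hr := Polynomial.isRoot_of_mem_roots ha
      have := Polynomial.eval_eq_zero_of_dvd_of_eval_eq_zero hdvd hr
      rw [Polynomial.eval_prod, Finset.prod_eq_zero_iff] at this
      obtain ⟨i, -, hi⟩ := this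
      rw [Polynomial.eval_sub, Polynomial.eval_X, Polynomial.eval_C, sub_eq_zero] at hi
      exact ⟨i, Finset.mem_filter.mpr ⟨Finset.mem_univ i, hi ▸ hr⟩, hi.symm⟩
    · rintro ⟨i, hi, rfl⟩
      exact (Polynomial.mem_roots hmon.ne_zero).mpr (Finset.mem_filter.mp hi).2
  have hP : P0.map (phiJ N k) = ∏ i ∈ O, (X - C (Gk π (dvd_refl N) i)) := by
    rw [hsplit.eq_prod_roots_of_monic hmon, hroots, Multiset.map_map]
    rfl
  have h0 : cst0 ∈ O := Finset.mem_filter.mpr ⟨Finset.mem_univ _, by
    rw [Polynomial.IsRoot.def, Polynomial.eval_map]; exact minpoly.aeval (Kj k) θ⟩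
  have hO := rational_set_eq_univ π hπ (minpoly.monic hint) hP h0
  have hdeg : P0.natDegree = Fintype.card (Cst N) := by
    have := congrArg Polynomial.natDegree hP
    rwa [(minpoly.monic hint).natDegree_map, Polynomial.natDegree_finsetProd_X_sub_C_eq_card, hO,
      Finset.card_univ] at this
  rw [← hdeg]
  exact Polynomial.natDegree_le_of_dvd (minpoly.dvd _ _ hQ) hQ0

/-- The powers of the reduced `j(Nτ)` below the index are independent over `k[j]`. -/
theorem pow_independent (π : Rz N →+* k) (hπ : IsPrimitiveRoot (π (zetaR N)) N)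
    (a : Fin (Fintype.card (Cst N)) → k[X])
    (ha : ∑ l, evJ k N (a l) * Gk π (dvd_refl N) cst0 ^ (l : ℕ) = 0) : a = 0 := by
  by_contra hne
  set Q : (Kj k)[X] := ∑ l, C (algebraMap k[X] (Kj k) (a l)) * X ^ (l : ℕ) with hQdef
  have hQ0 : Q ≠ 0 := by
    intro h
    refine hne (funext fun l => IsFractionRing.injective k[X] (Kj k) ?_)
    have h1 := congrArg (fun q : (Kj k)[X] => q.coeff l) h
    simpa [hQdef, Polynomial.finsetSum_coeff, Polynomial.coeff_X_pow, Fin.val_eq_val] using h1
  have hQ : Q.eval₂ (phiJ N k) (Gk π (dvd_refl N) cst0) = 0 := by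
    rw [hQdef, Polynomial.eval₂_finsetSum, ← ha]
    simp [phiJ_algebraMap]
  have hlt : Q.natDegree < Fintype.card (Cst N) := by
    have hn : 0 < Fintype.card (Cst N) := Fintype.card_pos_iff.mpr ⟨cst0⟩
    refine lt_of_le_of_lt (Polynomial.natDegree_sum_le_of_forall_le _ _
      (n := Fintype.card (Cst N) - 1) fun l _ => ?_) (by omega)
    refine (Polynomial.natDegree_C_mul_X_pow_le _ _).trans ?_
    omega
  exact absurd (card_le_natDegree π hπ hQ0 hQ) (not_le.mpr hlt)

end Fermat.Agent.Igusa
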