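import Fermat.Agent.Igusa.QLevel
import Fermat.Agent.Cosets.Count

/-!
# Degree and separability of the level `N` function field in characteristic prime to `N`

`finrank_fullC_eq_dedekindPsi`: the field is finite of degree `ψ(N)` over `k(j)`;
`isSeparable_fullC`: it is separable.
-/

set_option autoImplicit false

noncomputable section

open scoped MatrixGroups
open Polynomial ModularCurve IntermediateField

namespace Fermat.Agent.Igusa

variable (k : Type*) [Field k] (N : ℕ) [NeZero N]

/-- `j` in `modularFunctionFieldFullC k N`. -/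
def jC : modularFunctionFieldFullC k N := ⟨jqModC k, jqModC_mem_full k N⟩

/-- `j(Nτ)` in `modularFunctionFieldFullC k N`. -/
def jNC : modularFunctionFieldFullC k N :=
  ⟨jqNModC k N, modularFunctionFieldC_le_full k N (jqNModC_mem k N)⟩

/-- The inclusion followed by `q ↦ q^N`. -/
def inclN : modularFunctionFieldFullC k N →+* LaurentSeries k :=
  (ModularCurve.qExpand k N).comp (SubringClass.subtype (modularFunctionFieldFullC k N))

theorem inclN_injective : Function.Injective (inclN k N) := (inclN k N).injective

/-- A shortcut for the constants. -/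
abbrev algFullC : Algebra k (modularFunctionFieldFullC k N) := inferInstance

attribute [local instance] algFullC

/-- The base field `k(j)` inside the function field. -/
abbrev baseC : IntermediateField k (modularFunctionFieldFullC k N) := k⟮jC k N⟯

/-- `j` in the base field. -/
def jBase : baseC k N := ⟨jC k N, mem_adjoin_simple_self k (jC k N)⟩

/-- A shortcut for the constants of the base field. -/
abbrev algBaseC : Algebra k (baseC k N) := inferInstance

/-- A shortcut for the base field. -/
abbrev fieldBaseC : Field (baseC k N) := inferInstance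

attribute [local instance] algBaseC fieldBaseC

/-- `k(X) → k(j)` on polynomials. -/
def toBasePoly : k[X] →+* baseC k N := eval₂RingHom (algebraMap k (baseC k N)) (jBase k N)

theorem inclN_toBasePoly (p : k[X]) :
    inclN k N (toBasePoly k N p : modularFunctionFieldFullC k N) = evJ k N p := by
  have h : (inclN k N).comp ((algebraMap (baseC k N) (modularFunctionFieldFullC k N)).comp
      (toBasePoly k N)) = evJ k N := by
    refine Polynomial.ringHom_ext (fun c => ?_) ?_
    · simp only [RingHom.comp_apply, toBasePoly, evJ, coe_eval₂RingHom, eval₂_C]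
      show ModularCurve.qExpand k N (algebraMap k (LaurentSeries k) c) = _
      rw [algebraMap_laurentSeries_eq_single, ← HahnSeries.C_apply, qExpand_C]
    · simp only [RingHom.comp_apply, toBasePoly, evJ, coe_eval₂RingHom, eval₂_X]
      rfl
  exact RingHom.congr_fun h p

theorem toBasePoly_injective : Function.Injective (toBasePoly k N) := fun p q h =>
  evJ_injective N (by rw [← inclN_toBasePoly, ← inclN_toBasePoly, h])

/-- `k(X) ≅ k(j)`. -/
def toBase : Kj k →+* baseC k N := IsFractionRing.lift (toBasePoly_injective k N)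

theorem inclN_toBase :
    ((inclN k N).comp (algebraMap (baseC k N) (modularFunctionFieldFullC k N))).comp (toBase k N) =
      phiJ N k := by
  refine IsLocalization.ringHom_ext (nonZeroDivisors k[X]) (RingHom.ext fun p => ?_)
  simp only [RingHom.comp_apply, toBase, phiJ_algebraMap, IsFractionRing.lift_algebraMap]
  exact inclN_toBasePoly k N p

theorem toBase_surjective : Function.Surjective (toBase k N) := by
  rintro ⟨x, hx⟩
  suffices ∃ y, (toBase k N y : modularFunctionFieldFullC k N) = x from
    this.imp fun y hy => Subtype.ext hy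
  induction hx using IntermediateField.adjoin_induction with
  | mem x hx =>
    rcases hx with rfl
    exact ⟨algebraMap k[X] _ X, by simp [toBase, toBasePoly, jBase]⟩
  | algebraMap c => exact ⟨algebraMap k[X] _ (Polynomial.C c), by simp [toBase, toBasePoly]⟩
  | add x y _ _ hx hy =>
    obtain ⟨a, rfl⟩ := hx; obtain ⟨b, rfl⟩ := hy
    exact ⟨a + b, by simp⟩
  | inv x _ hx => obtain ⟨a, rfl⟩ := hx; exact ⟨a⁻¹, by simp⟩
  | mul x y _ _ hx hy =>
    obtain ⟨a, rfl⟩ := hx; obtain ⟨b, rfl⟩ := hy
    exact ⟨a * b, by simp⟩

variable {k}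

theorem inclN_jNC (π : Rz N →+* k) : inclN k N (jNC k N) = Gk π (dvd_refl N) cst0 := by
  rw [Gk_cst0]
  exact qExpand_jqNModC N k

theorem inclN_aeval (π : Rz N →+* k) (H : (Kj k)[X]) :
    inclN k N (aeval (jNC k N) (H.map (toBase k N))) =
      H.eval₂ (phiJ N k) (Gk π (dvd_refl N) cst0) := by
  rw [aeval_def, Polynomial.eval₂_map, Polynomial.hom_eval₂, ← RingHom.comp_assoc,
    inclN_toBase, inclN_jNC N π]

variable [IsAlgClosed k] (hN : (N : k) ≠ 0)

include hN

theorem exists_pi : ∃ π : Rz N →+* k, IsPrimitiveRoot (π (zetaR N)) N := by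
  have : NeZero (N : k) := ⟨hN⟩
  obtain ⟨y, hy⟩ := HasEnoughRootsOfUnity.exists_primitiveRoot k N
  obtain ⟨π, hπ⟩ := exists_hom_of_primitiveRoot N hy
  exact ⟨π, hπ ▸ hy⟩

/-- The function field is generated by `j(Nτ)` over `k(j)`. -/
theorem adjoin_jNC_eq_top : (baseC k N)⟮jNC k N⟯ = ⊤ := by
  obtain ⟨π, hπ⟩ := exists_pi N hN
  refine eq_top_iff.mpr fun x _ => ?_
  obtain ⟨x, hx⟩ := x
  let T : Subfield (LaurentSeries k) :=
    ((baseC k N)⟮jNC k N⟯).toSubfield.map
      (SubringClass.subtype (modularFunctionFieldFullC k N))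
  have hT : (modularFunctionFieldFullC k N).toSubfield ≤ T := by
    rw [modularFunctionFieldFullC, IntermediateField.adjoin_toSubfield, Subfield.closure_le]
    rintro y (⟨c, rfl⟩ | ⟨d, hd0, hd, rfl⟩)
    · exact ⟨algebraMap k _ c,
        IntermediateField.algebraMap_mem _ (algebraMap k (baseC k N) c), rfl⟩
    · have := hd0
      obtain ⟨H, hH⟩ := exists_eval_eq π hπ _ (equivariant_jFam hd)
      refine ⟨aeval (jNC k N) (H.map (toBase k N)), IntermediateField.algebra_adjoin_le_adjoin _ _
        (Polynomial.aeval_mem_adjoin_singleton (baseC k N) (jNC k N)), ?_⟩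
      refine ModularCurve.qExpand_injective (R := k) N ?_
      show inclN k N _ = _
      rw [inclN_aeval N π, hH, ← Gk, Gk_cst0, qExpand_qExpand]
      exact qExpand_congr (mul_comm d N) _
  obtain ⟨y, hy, hyx⟩ := hT hx
  rwa [show y = ⟨x, hx⟩ from Subtype.ext hyx] at hy

/-- `j(Nτ)` is a root of a separable monic polynomial of degree `[SL₂(ℤ) : Γ₀(N)]` over
`k(j)`. -/
theorem exists_separable_root : ∃ P : (baseC k N)[X], P.Monic ∧ P.Separable ∧
    P.natDegree = idx N ∧ aeval (jNC k N) P = 0 := by
  obtain ⟨π, hπ⟩ := exists_pi N hN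
  obtain ⟨P, hPm, hPd, hP⟩ := exists_charPoly_red π (jFam (N := N) dvd_rfl) (equivariant_jFam _)
  refine ⟨(P.map (algebraMap k[X] (Kj k))).map (toBase k N), (hPm.map _).map _,
    (Polynomial.separable_map (toBase k N)).mpr ?_, ?_, inclN_injective k N ?_⟩
  · rw [← Polynomial.separable_map (phiJ N k), hP]
    exact Polynomial.separable_prod_X_sub_C_iff.mpr (Gk_injective π hπ)
  · rw [(hPm.map _).natDegree_map, hPm.natDegree_map, hPd]
  · rw [inclN_aeval N π, map_zero, ← Polynomial.eval_map, hP, Polynomial.eval_prod]
    exact Finset.prod_eq_zero (Finset.mem_univ cst0) (by simp [Gk])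

theorem isIntegral_jNC : IsIntegral (baseC k N) (jNC k N) := by
  obtain ⟨P, hm, -, -, hP⟩ := exists_separable_root (k := k) N hN
  exact ⟨P, hm, hP⟩

/-- The function field is finite over `k(j)`. -/
theorem finiteDimensional_fullC :
    FiniteDimensional (baseC k N) (modularFunctionFieldFullC k N) := by
  have h := IntermediateField.adjoin.finiteDimensional (isIntegral_jNC (k := k) N hN)
  rw [adjoin_jNC_eq_top (k := k) N hN] at h
  exact IntermediateField.topEquiv.toLinearEquiv.finiteDimensional

/-- The degree over `k(j)` is the index of `Γ₀(N)`. -/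
theorem finrank_fullC :
    Module.finrank (baseC k N) (modularFunctionFieldFullC k N) = idx N := by
  obtain ⟨π, hπ⟩ := exists_pi N hN
  obtain ⟨P, hm, -, hd, hP⟩ := exists_separable_root (k := k) N hN
  rw [← IntermediateField.finrank_top', ← adjoin_jNC_eq_top N hN,
    IntermediateField.adjoin.finrank (isIntegral_jNC (k := k) N hN)]
  refine le_antisymm (hd ▸ Polynomial.natDegree_le_of_dvd (minpoly.dvd _ _ hP) hm.ne_zero) ?_
  obtain ⟨H, hH⟩ := Polynomial.map_surjective _ (toBase_surjective k N)
    (minpoly (baseC k N) (jNC k N))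
  rw [← hH, Polynomial.natDegree_map]
  refine card_le_natDegree π hπ ?_ ?_
  · intro h0
    rw [h0, Polynomial.map_zero] at hH
    exact minpoly.ne_zero (isIntegral_jNC (k := k) N hN) hH.symm
  · rw [← inclN_aeval N π, hH, minpoly.aeval, map_zero]

/-- The degree over `k(j)` is `ψ(N)`. -/
theorem finrank_fullC_eq_dedekindPsi :
    Module.finrank (baseC k N) (modularFunctionFieldFullC k N) = dedekindPsi N := by
  rw [finrank_fullC N hN, ← Cosets.card_coset N, Nat.card_eq_fintype_card]

/-- The function field is separable over `k(j)`. -/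
theorem isSeparable_fullC :
    Algebra.IsSeparable (baseC k N) (modularFunctionFieldFullC k N) := by
  obtain ⟨P, -, hs, -, hP⟩ := exists_separable_root (k := k) N hN
  have h : IsSeparable (baseC k N) (jNC k N) := hs.of_dvd (minpoly.dvd _ _ hP)
  have h2 := (IntermediateField.isSeparable_adjoin_simple_iff_isSeparable (baseC k N) _).mpr h
  rw [adjoin_jNC_eq_top (k := k) N hN] at h2
  exact AlgEquiv.Algebra.isSeparable IntermediateField.topEquiv

end Fermat.Agent.Igusa
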