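import Fermat.Agent.Igusa.QSeries
import Fermat.Agent.LevelOne.DeltaExpansion

/-!
# Expansions of `j`, `Δ`, `Δ⁻¹`, and level-one invariant functions as polynomials in `j`

The main result is `exists_aeval_jW`.
-/

set_option autoImplicit false

noncomputable section

open Complex UpperHalfPlane
open scoped UpperHalfPlane Manifold MatrixGroups ModularForm

namespace Fermat.Agent.Igusa

local notation "qP" => Function.Periodic.qParam
local notation "Δf" => ModularForm.discriminant

theorem hasExp_ofPowerSeries {h : ℕ} {f : ℍ → ℂ} {p : PowerSeries ℂ}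
    (hf : MDifferentiable 𝓘(ℂ) 𝓘(ℂ) f)
    (hs : ∀ τ : ℍ, HasSum (fun n : ℕ => p.coeff n * qP (h : ℝ) τ ^ n) (f τ)) :
    HasExp h f (HahnSeries.ofPowerSeries ℤ ℂ p) := by
  refine ⟨hf, fun τ => ((Nat.cast_injective (R := ℤ)).hasSum_iff fun n hn => ?_).mp ?_⟩
  · rw [ModularCurve.ofPowerSeries_coeff_of_neg, zero_mul]
    by_contra hn'
    exact hn ⟨n.toNat, by simp; omega⟩
  · refine (hs τ).congr_fun fun n => ?_
    simp [HahnSeries.ofPowerSeries_apply_coeff]

theorem hasExp_modularForm {F : Type*} [FunLike F ℍ ℂ] {k : ℤ} [ModularFormClass F 𝒮ℒ k] (f : F)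
    {p : PowerSeries ℂ} (hp : qExpansion 1 f = p) :
    HasExp 1 f (HahnSeries.ofPowerSeries ℤ ℂ p) := by
  refine hasExp_ofPowerSeries (ModularFormClass.holo f) fun τ => ?_
  subst hp
  simpa using ModularForm.hasSum_qExpansion (f := f) (h := (1 : ℝ)) one_pos
    one_mem_strictPeriods_SL τ

/-- `q · ∏ (1 - qⁿ)²⁴` over any ring. -/
def deltaR (R : Type*) [CommRing R] : LaurentSeries R :=
  HahnSeries.single (1 : ℤ) 1 *
    HahnSeries.ofPowerSeries ℤ R (ModularCurve.dedekindEtaUnit.map (Int.castRingHom R))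

/-- `q⁻¹ · ∏ (1 - qⁿ)⁻²⁴` over any ring. -/
def deltaInvR (R : Type*) [CommRing R] : LaurentSeries R :=
  HahnSeries.single (-1 : ℤ) 1 *
    HahnSeries.ofPowerSeries ℤ R (ModularCurve.dedekindEtaUnitInv.map (Int.castRingHom R))

theorem deltaR_mul_deltaInvR (R : Type*) [CommRing R] : deltaR R * deltaInvR R = 1 := by
  rw [deltaR, deltaInvR, mul_mul_mul_comm, HahnSeries.single_mul_single, ← map_mul, ← map_mul,
    ModularCurve.dedekindEtaUnit_mul_inv, map_one, map_one]
  simp

theorem map_intCast_map {R S : Type*} [CommRing R] [CommRing S] (φ : R →+* S)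
    (p : PowerSeries ℤ) :
    (p.map (Int.castRingHom R)).map φ = p.map (Int.castRingHom S) := by
  ext n; simp

@[simp]
theorem coeffMap_deltaR {R S : Type*} [CommRing R] [CommRing S] (φ : R →+* S) :
    ModularCurve.coeffMap φ (deltaR R) = deltaR S := by
  rw [deltaR, deltaR, map_mul, ModularCurve.coeffMap_single, map_one,
    ModularCurve.coeffMap_ofPowerSeries, map_intCast_map]

@[simp]
theorem coeffMap_deltaInvR {R S : Type*} [CommRing R] [CommRing S] (φ : R →+* S) :
    ModularCurve.coeffMap φ (deltaInvR R) = deltaInvR S := by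
  rw [deltaInvR, deltaInvR, map_mul, ModularCurve.coeffMap_single, map_one,
    ModularCurve.coeffMap_ofPowerSeries, map_intCast_map]

theorem hasExp_delta : HasExp 1 Δf (deltaR ℂ) := by
  have h := hasExp_modularForm CuspForm.discriminant
    (p := (PowerSeries.X * ModularCurve.dedekindEtaUnit).map (Int.castRingHom ℂ))
    (by rw [CuspForm.coe_discriminant]; exact LevelOne.qExpansion_discriminant)
  rw [CuspForm.coe_discriminant, map_mul, map_mul, PowerSeries.map_X,
    HahnSeries.ofPowerSeries_X] at h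
  exact h

theorem hasExp_deltaInv : HasExp 1 (fun τ => (Δf τ)⁻¹) (deltaInvR ℂ) := by
  set G : ℍ → ℂ := fun τ => qP 1 (τ : ℂ) * (Δf τ)⁻¹ with hG
  have hq : MDifferentiable 𝓘(ℂ) 𝓘(ℂ) fun τ : ℍ => qP (1 : ℝ) (τ : ℂ) := by
    rw [UpperHalfPlane.mdifferentiable_iff]
    exact ((Function.Periodic.differentiable_qParam (h := 1)).differentiableOn).congr fun z hz => by
      simp [UpperHalfPlane.ofComplex_apply_of_im_pos hz]
  have hΔd : MDifferentiable 𝓘(ℂ) 𝓘(ℂ) Δf := hasExp_delta.1
  have hinv : MDifferentiable 𝓘(ℂ) 𝓘(ℂ) fun τ : ℍ => (Δf τ)⁻¹ := by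
    rw [UpperHalfPlane.mdifferentiable_iff] at hΔd ⊢
    exact hΔd.inv fun z _ => ModularForm.discriminant_ne_zero _
  have hGd : MDifferentiable 𝓘(ℂ) 𝓘(ℂ) G := hq.mul hinv
  have hper : Function.Periodic (G ∘ ofComplex) ((1 : ℝ) : ℂ) := by
    intro z
    rcases le_or_gt z.im 0 with hz | hz
    · simp only [Function.comp_apply]
      rw [ofComplex_apply_of_im_nonpos (by simpa using hz), ofComplex_apply_of_im_nonpos hz]
    · have hΔ := SlashInvariantFormClass.periodic_comp_ofComplex (h := (1 : ℝ))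
        CuspForm.discriminant one_mem_strictPeriods_SL z
      simp only [Function.comp_apply, CuspForm.coe_discriminant] at hΔ
      simp only [Function.comp_apply, hG, hΔ]
      rw [ofComplex_apply_of_im_pos hz,
        ofComplex_apply_of_im_pos (show 0 < (z + ((1 : ℝ) : ℂ)).im by simpa using hz)]
      simp [Function.Periodic.qParam, mul_add, Complex.exp_add]
  have hbdd : IsBoundedAtImInfty G := by
    have h1 := ModularForm.tendsto_atImInfty_tprod_one_sub_eta_q_pow.inv₀ one_ne_zero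
    rw [inv_one] at h1
    refine (h1.congr fun τ => ?_).isBigO_one ℝ
    simp only [hG, ModularForm.discriminant_eq_q_prod, mul_inv, ← mul_assoc,
      mul_inv_cancel₀ (Function.Periodic.qParam_ne_zero (τ : ℂ)), one_mul]
  have hG' := hasExp_ofPowerSeries (h := 1) (p := qExpansion 1 G) hGd fun τ => by
    simpa using UpperHalfPlane.hasSum_qExpansion one_pos hper hGd hbdd τ
  -- the function `q` has expansion `single 1 1`
  have hq' : HasExp 1 (fun τ : ℍ => qP 1 (τ : ℂ)) (HahnSeries.single (1 : ℤ) 1) :=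
    ⟨hq, fun τ => by
      have := hasSum_single (f := fun n : ℤ => (HahnSeries.single (1 : ℤ) (1 : ℂ)).coeff n *
        qP ((1 : ℕ) : ℝ) τ ^ n) 1 fun n hn => by rw [HahnSeries.coeff_single_of_ne hn, zero_mul]
      simpa using this⟩
  have hprod : HasExp 1 (fun τ : ℍ => qP 1 (τ : ℂ))
      (deltaR ℂ * HahnSeries.ofPowerSeries ℤ ℂ (qExpansion 1 G)) := by
    convert hasExp_delta.mul hG' using 1
    funext τ
    simp [hG, mul_comm (Δf τ), mul_assoc,
      inv_mul_cancel₀ (ModularForm.discriminant_ne_zero τ)]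
  have heq := hprod.unique hq'
  have hs : HahnSeries.ofPowerSeries ℤ ℂ (qExpansion 1 G)
      = HahnSeries.single (1 : ℤ) 1 * deltaInvR ℂ := by
    linear_combination deltaInvR ℂ * heq
      - HahnSeries.ofPowerSeries ℤ ℂ (qExpansion 1 G) * deltaR_mul_deltaInvR ℂ
  refine ⟨hinv, fun τ => ?_⟩
  have hq0 : qP 1 (τ : ℂ) ≠ 0 := Function.Periodic.qParam_ne_zero _
  have h2 := (hG'.2 τ).mul_left (qP 1 (τ : ℂ))⁻¹
  rw [hs] at h2
  simp only [hG, ← mul_assoc, inv_mul_cancel₀ hq0, one_mul] at h2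
  rw [← (Equiv.addRight (1 : ℤ)).hasSum_iff] at h2
  refine h2.congr_fun fun n => ?_
  simp only [Function.comp_apply, Equiv.coe_addRight, HahnSeries.coeff_single_mul, one_mul,
    Nat.cast_one, zpow_add₀ hq0, zpow_one, add_sub_cancel_right]
  field_simp

theorem hasExp_E₄ : HasExp 1 (⇑ModularForm.E₄)
    (HahnSeries.ofPowerSeries ℤ ℂ (ModularCurve.eisenstein4.map (Int.castRingHom ℂ))) := by
  refine hasExp_modularForm ModularForm.E₄ ?_
  ext n
  rw [EisensteinSeries.E_qExpansion_coeff _ ⟨2, rfl⟩, PowerSeries.coeff_map,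
    ModularCurve.eisenstein4, PowerSeries.coeff_mk]
  split_ifs with hn
  · simp
  · rw [show bernoulli 4 = -1 / 30 by decide +kernel]
    simp only [ArithmeticFunction.sigma_apply]
    push_cast
    norm_num

/-- The modular invariant `j`. -/
def jFun (τ : ℍ) : ℂ := ModularForm.E₄ τ ^ 3 * (Δf τ)⁻¹

/-- The expansion of `j`. -/
theorem hasExp_jFun : HasExp 1 jFun (ModularCurve.jqModC ℂ) := by
  have h := ((hasExp_E₄.mul hasExp_E₄).mul hasExp_E₄).mul hasExp_deltaInv
  convert h using 1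
  · funext τ; simp only [jFun, Pi.mul_apply]; ring
  · rw [ModularCurve.jqModC, deltaInvR, ModularCurve.jNum, map_mul, map_mul, map_pow, map_pow]
    ring

theorem discriminant_smul (γ : SL(2, ℤ)) (τ : ℍ) :
    Δf (γ • τ) = denom γ τ ^ 12 * Δf τ := by
  have := SlashInvariantForm.slash_action_eqn'' (k := 12) CuspForm.discriminant
    (MonoidHom.mem_range.mpr ⟨γ, rfl⟩ : (γ : GL (Fin 2) ℝ) ∈ 𝒮ℒ) τ
  exact_mod_cast this

theorem jFun_smul (γ : SL(2, ℤ)) (τ : ℍ) : jFun (γ • τ) = jFun τ := by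
  have h4 : ModularForm.E₄ (γ • τ) = denom γ τ ^ 4 * ModularForm.E₄ τ := by
    exact_mod_cast SlashInvariantForm.slash_action_eqn'' (k := 4) ModularForm.E₄
      (MonoidHom.mem_range.mpr ⟨γ, rfl⟩ : (γ : GL (Fin 2) ℝ) ∈ 𝒮ℒ) τ
  rw [jFun, jFun, h4, discriminant_smul]
  field_simp

section LevelOne

/-- The variable `j(Nτ)`-normalised series of `j` in `q^(1/N)`. -/
def jW (R : Type*) [CommRing R] (N : ℕ) [NeZero N] : LaurentSeries R :=
  ModularCurve.qExpand R N (ModularCurve.jqModC R)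

@[simp]
theorem coeffMap_jW {R S : Type*} [CommRing R] [CommRing S] (φ : R →+* S) (N : ℕ) [NeZero N] :
    ModularCurve.coeffMap φ (jW R N) = jW S N := by
  rw [jW, jW, ModularCurve.coeffMap_qExpand, ModularCurve.coeffMap_jqModC]

theorem coeff_jW_pow_of_lt {R : Type*} [CommRing R] (N : ℕ) [NeZero N] (M : ℕ) {n : ℤ}
    (hn : n < -((N : ℤ) * M)) : (jW R N ^ M).coeff n = 0 := by
  rw [jW, ← map_pow]
  by_cases hd : (N : ℤ) ∣ n
  · obtain ⟨m, rfl⟩ := hd
    rw [ModularCurve.qExpand_coeff_mul]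
    refine ModularCurve.coeff_jqModC_pow_of_lt R ?_
    nlinarith
  · exact ModularCurve.qExpand_coeff_of_not_dvd N _ hd

theorem coeff_jW_pow_self {R : Type*} [CommRing R] (N : ℕ) [NeZero N] (M : ℕ) :
    (jW R N ^ M).coeff (-((N : ℤ) * M)) = 1 := by
  rw [jW, ← map_pow, ← mul_neg, ModularCurve.qExpand_coeff_mul]
  exact ModularCurve.coeff_jqModC_pow_self R M

theorem hasExp_jW (N : ℕ) [NeZero N] : HasExp N jFun (jW ℂ N) := by
  have h := hasExp_jFun.comp_affine 1 0 1 (H := N) N 1 fun τ => by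
    simp only [Function.Periodic.qParam, Units.val_one, ← Complex.exp_nat_mul, coe_affine,
      Nat.cast_one, one_mul, Int.cast_zero, add_zero, div_one]
    congr 1
    have : (N : ℂ) ≠ 0 := NeZero.ne _
    push_cast
    field_simp
  have hid : affine 1 0 1 = id := by
    funext τ; exact UpperHalfPlane.ext (by simp)
  rw [hid, Function.comp_id, twist_one_apply] at h
  exact h

/-- A holomorphic `SL₂(ℤ)`-invariant function bounded at infinity is constant. -/
theorem eq_const_of_invariant_bounded {f : ℍ → ℂ} (hd : MDifferentiable 𝓘(ℂ) 𝓘(ℂ) f)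
    (hb : IsBoundedAtImInfty f) (hinv : ∀ (γ : SL(2, ℤ)) τ, f (γ • τ) = f τ) :
    ∃ c, f = fun _ => c := by
  have hslash : ∀ γ : SL(2, ℤ), f ∣[(0 : ℤ)] γ = f := fun γ => by
    funext τ; rw [ModularForm.SL_slash_apply, hinv]; simp
  let F : ModularForm 𝒮ℒ 0 :=
    { toFun := f
      slash_action_eq' := fun g hg => by
        obtain ⟨γ, rfl⟩ := hg
        exact hslash γ
      holo' := hd
      bdd_at_cusps' := fun hc => by
        rw [Subgroup.IsArithmetic.isCusp_iff_isCusp_SL2Z] at hc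
        rw [OnePoint.isBoundedAt_iff_forall_SL2Z hc]
        intro γ _
        rw [hslash]
        exact hb }
  obtain ⟨c, hc⟩ := ModularFormClass.levelOne_weight_zero_const F
  exact ⟨c, hc⟩

/-- An `SL₂(ℤ)`-invariant function with an expansion over `R` is a polynomial in `j` over `R`. -/
theorem exists_aeval_jW {R : Type*} [CommRing R] (ι : R →+* ℂ) (hι : Function.Injective ι)
    (N : ℕ) [NeZero N] {f : ℍ → ℂ} {s : LaurentSeries R} (hfs : (f, s) ∈ QSR N ι)
    (hinv : ∀ (γ : SL(2, ℤ)) τ, f (γ • τ) = f τ) :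
    ∃ P : Polynomial R, P.eval₂ HahnSeries.C (jW R N) = s := by
  classical
  -- the support consists of multiples of `N`
  have hsupp : ∀ g : ℍ → ℂ, ∀ t : LaurentSeries R, (g, t) ∈ QSR N ι →
      (∀ (γ : SL(2, ℤ)) τ, g (γ • τ) = g τ) → ∀ n : ℤ, ¬ (N : ℤ) ∣ n → t.coeff n = 0 := by
    intro g t hgt hg n hn
    set ζ : ℂˣ := Units.mk0 (Complex.exp (2 * Real.pi * Complex.I / N)) (Complex.exp_ne_zero _)
    have h1 := (mem_QSR.mp hgt).comp_affine 1 1 1 (H := N) 1 ζ fun τ => by
      simp only [Function.Periodic.qParam, coe_affine, Nat.cast_one, one_mul, Int.cast_one,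
        div_one, pow_one, ζ, Units.val_mk0, ← Complex.exp_add]
      congr 1
      push_cast
      ring
    have hT : affine 1 1 1 = fun τ => ModularGroup.T • τ := by
      funext τ
      refine UpperHalfPlane.ext ?_
      rw [coe_affine, UpperHalfPlane.modular_T_smul]
      simp [add_comm]
    have h2 : g ∘ affine 1 1 1 = g := by rw [hT]; funext τ; exact hg _ τ
    rw [h2] at h1
    have h3 := congrArg (fun u : LaurentSeries ℂ => u.coeff n) (h1.unique (mem_QSR.mp hgt))
    simp only [ModularCurve.qExpand_one_apply, twist_coeff, ModularCurve.coeffMap_coeff] at h3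
    have hprim : IsPrimitiveRoot (ζ : ℂ) N := Complex.isPrimitiveRoot_exp N (NeZero.ne N)
    have hne : ((ζ ^ n : ℂˣ) : ℂ) ≠ 1 := by
      rw [Units.val_zpow_eq_zpow_val, Ne, hprim.zpow_eq_one_iff_dvd]
      exact hn
    refine hι ?_
    rw [map_zero]
    by_contra h0
    exact hne (mul_right_cancel₀ h0 (h3.trans (one_mul _).symm))
  suffices H : ∀ M : ℕ, ∀ g : ℍ → ℂ, ∀ t : LaurentSeries R, (g, t) ∈ QSR N ι →
      (∀ (γ : SL(2, ℤ)) τ, g (γ • τ) = g τ) → (∀ n : ℤ, n < -((N : ℤ) * M) → t.coeff n = 0) →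
      ∃ P : Polynomial R, P.eval₂ HahnSeries.C (jW R N) = t by
    refine H (-s.order).toNat f s hfs hinv fun n hn => ?_
    rcases eq_or_ne s 0 with rfl | hs0
    · rfl
    refine HahnSeries.coeff_eq_zero_of_lt_order ?_
    have h1 : ((-s.order).toNat : ℤ) ≥ -s.order := Int.self_le_toNat _
    have h2 : (1 : ℤ) ≤ N := by exact_mod_cast NeZero.pos N
    nlinarith [Int.natCast_nonneg (-s.order).toNat]
  intro M
  induction M with
  | zero =>
    intro g t hgt hg hlow
    have hb : IsBoundedAtImInfty g := (mem_QSR.mp hgt).isBoundedAtImInfty fun n hn => by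
      rw [ModularCurve.coeffMap_coeff, hlow n (by simpa using hn), map_zero]
    obtain ⟨c, rfl⟩ := eq_const_of_invariant_bounded (mem_QSR.mp hgt).1 hb hg
    have h1 := (mem_QSR.mp hgt).unique (hasExp_const N c)
    refine ⟨Polynomial.C (t.coeff 0), ?_⟩
    rw [Polynomial.eval₂_C]
    ext n
    refine hι ?_
    have h2 : ∀ m, ι (t.coeff m) = (HahnSeries.single (0 : ℤ) c).coeff m := fun m => by
      rw [← h1, ModularCurve.coeffMap_coeff]
    rcases eq_or_ne n 0 with rfl | hn
    · simp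
    · rw [h2 n, HahnSeries.C_apply, HahnSeries.coeff_single_of_ne hn,
        HahnSeries.coeff_single_of_ne hn, map_zero]
  | succ M ih =>
    intro g t hgt hg hlow
    set a := t.coeff (-((N : ℤ) * (M + 1 : ℕ)))
    have hmem : (g - (fun _ => ι a) * jFun ^ (M + 1),
        t - HahnSeries.C a * jW R N ^ (M + 1)) ∈ QSR N ι := by
      have hC : ((fun _ => ι a : ℍ → ℂ), HahnSeries.C a) ∈ QSR N ι := by
        rw [mem_QSR, HahnSeries.C_apply, ModularCurve.coeffMap_single]
        exact hasExp_const N _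
      have hj : (jFun, jW R N) ∈ QSR N ι := by
        rw [mem_QSR, coeffMap_jW]; exact hasExp_jW N
      exact sub_mem hgt (mul_mem hC (pow_mem hj (M + 1)))
    have hinv' : ∀ (γ : SL(2, ℤ)) (τ : ℍ),
        (g - (fun _ : ℍ => ι a) * jFun ^ (M + 1) : ℍ → ℂ) (γ • τ)
        = (g - (fun _ : ℍ => ι a) * jFun ^ (M + 1) : ℍ → ℂ) τ := fun γ τ => by
      simp only [Pi.sub_apply, Pi.mul_apply, Pi.pow_apply, hg, jFun_smul]
    obtain ⟨P, hP⟩ := ih _ _ hmem hinv' fun n hn => by
      rcases lt_trichotomy n (-((N : ℤ) * (M + 1 : ℕ))) with h | h | h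
      · rw [HahnSeries.coeff_sub, hlow n h, HahnSeries.C_apply, HahnSeries.coeff_single_mul,
          sub_zero, coeff_jW_pow_of_lt N _ h, mul_zero, sub_zero]
      · rw [h, HahnSeries.coeff_sub, HahnSeries.C_apply, HahnSeries.coeff_single_mul, sub_zero,
          coeff_jW_pow_self, mul_one, sub_self]
      · refine hsupp _ _ hmem hinv' n fun hd => ?_
        obtain ⟨m, rfl⟩ := hd
        push_cast at h hn
        have h1 : m < -(M : ℤ) := by nlinarith
        have h2 : -((M : ℤ) + 1) < m := by nlinarith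
        omega
    refine ⟨P + Polynomial.C a * Polynomial.X ^ (M + 1), ?_⟩
    rw [Polynomial.eval₂_add, hP, Polynomial.eval₂_mul, Polynomial.eval₂_C,
      Polynomial.eval₂_X_pow]
    abel

end LevelOne

end Fermat.Agent.Igusa
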