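import Fermat.Agent.Igusa.Base

/-!
# Conjugates of `j(mτ)` and of the units `Δ(mτ)/Δ(τ)` over the cosets of `Γ₀(N)`

Each conjugate has an expansion over `ℤ[ζ_N]` in `q^(1/N)`, and symmetric expressions in an
equivariant family are polynomials in `j` (`exists_charPoly`, `exists_interp`).
-/

set_option autoImplicit false

noncomputable section

open Complex UpperHalfPlane
open scoped UpperHalfPlane Manifold MatrixGroups

namespace Fermat.Agent.Igusa

local notation "qP" => Function.Periodic.qParam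
local notation "Δf" => ModularForm.discriminant

/-- `exp (2πi/N)`. -/
def zetaC (N : ℕ) : ℂ := Complex.exp (2 * Real.pi * Complex.I / N)

/-- The coefficient ring `ℤ[exp (2πi/N)]`. -/
abbrev Rz (N : ℕ) : Type := ↥(Algebra.adjoin ℤ ({zetaC N} : Set ℂ))

/-- The embedding of `Rz N` in `ℂ`. -/
abbrev iotaR (N : ℕ) : Rz N →+* ℂ := (Algebra.adjoin ℤ ({zetaC N} : Set ℂ)).val.toRingHom

theorem iotaR_injective (N : ℕ) : Function.Injective (iotaR N) := Subtype.val_injective

variable (N : ℕ) [NeZero N]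

theorem zetaC_isPrimitiveRoot : IsPrimitiveRoot (zetaC N) N :=
  Complex.isPrimitiveRoot_exp N (NeZero.ne N)

/-- `exp (2πi/N)` as an element of `Rz N`. -/
def zetaR : Rz N := ⟨zetaC N, Algebra.self_mem_adjoin_singleton ℤ _⟩

theorem zetaR_pow_self : zetaR N ^ N = 1 :=
  Subtype.ext (by simpa [zetaR] using (zetaC_isPrimitiveRoot N).pow_eq_one)

/-- `exp (2πi/N)` as a unit of `Rz N`. -/
def zetaU : (Rz N)ˣ := Units.ofPowEqOne _ N (zetaR_pow_self N) (NeZero.ne N)

theorem iotaR_zetaU_zpow (n : ℤ) :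
    iotaR N ((zetaU N ^ n : (Rz N)ˣ) : Rz N) = Complex.exp (2 * Real.pi * Complex.I * n / N) := by
  have h : iotaR N ((zetaU N ^ n : (Rz N)ˣ) : Rz N) = zetaC N ^ n := by
    rw [← MonoidHom.coe_coe, ← Units.coe_map, map_zpow, Units.val_zpow_eq_zpow_val]
    rfl
  rw [h, zetaC, ← Complex.exp_int_mul]
  congr 1
  ring

/-- The cosets of `Γ₀(N)`. -/
abbrev Cst : Type := SL(2, ℤ) ⧸ CongruenceSubgroup.Gamma0 N

instance instFintypeCst : Fintype (Cst N) := Fintype.ofFinite _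

variable {N}

/-- A representative with `f ∘ repg i` the conjugate of `f` attached to `i`. -/
def repg (i : Cst N) : SL(2, ℤ) := (Quotient.out i)⁻¹

/-- The cusp class `gcd (m, c)`. -/
def cls (m : ℕ) (g : SL(2, ℤ)) : ℕ := Int.gcd m (g 1 0)

theorem cls_pos (m : ℕ) [NeZero m] (g : SL(2, ℤ)) : 0 < cls m g :=
  Int.gcd_pos_of_ne_zero_left _ (by exact_mod_cast NeZero.ne m)

theorem cls_dvd (m : ℕ) (g : SL(2, ℤ)) : cls m g ∣ m := by
  simpa [cls] using Int.natAbs_dvd_natAbs.mpr (Int.gcd_dvd_left (m : ℤ) (g 1 0))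

instance neZero_cls (m : ℕ) [NeZero m] (g : SL(2, ℤ)) : NeZero (cls m g) :=
  ⟨(cls_pos m g).ne'⟩

/-- The complementary divisor. -/
def cod (m : ℕ) (g : SL(2, ℤ)) : ℕ := m / cls m g

theorem cls_mul_cod (m : ℕ) (g : SL(2, ℤ)) : cls m g * cod m g = m :=
  Nat.mul_div_cancel' (cls_dvd m g)

instance neZero_cod (m : ℕ) [NeZero m] (g : SL(2, ℤ)) : NeZero (cod m g) :=
  ⟨fun h => NeZero.ne m (by rw [← cls_mul_cod m g, h, mul_zero])⟩

theorem exists_hermite (m : ℕ) [NeZero m] (g : SL(2, ℤ)) :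
    ∃ γ : SL(2, ℤ), ∃ b : ℤ,
      (m : ℤ) * g 0 0 = γ 0 0 * cls m g ∧ (m : ℤ) * g 0 1 = γ 0 0 * b + γ 0 1 * cod m g ∧
        g 1 0 = γ 1 0 * cls m g ∧ g 1 1 = γ 1 0 * b + γ 1 1 * cod m g := by
  set e : ℤ := (cls m g : ℤ)
  set e' : ℤ := (cod m g : ℤ)
  have hm : e * e' = m := by simp only [e, e']; exact_mod_cast cls_mul_cod m g
  obtain ⟨c', hc'⟩ : e ∣ g 1 0 := Int.gcd_dvd_right _ _
  have hdet : g 0 0 * g 1 1 - g 0 1 * g 1 0 = 1 := by
    rw [← Matrix.det_fin_two]; exact g.det_coe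
  have h1 : IsCoprime e' c' := by
    rw [Int.isCoprime_iff_gcd_eq_one]
    have h := Int.gcd_mul_left e e' c'
    rw [hm, ← hc'] at h
    have he2 : e.natAbs = cls m g := Int.natAbs_natCast _
    rw [show Int.gcd m (g 1 0) = cls m g from rfl, he2] at h
    exact mul_left_cancel₀ (NeZero.ne (cls m g)) (h.symm.trans (mul_one _).symm)
  have h2 : IsCoprime (g 0 0) c' :=
    ⟨g 1 1, -(g 0 1 * e), by rw [hc'] at hdet; linear_combination hdet⟩
  obtain ⟨s, t, hst⟩ := h1.mul_left h2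
  refine ⟨⟨!![e' * g 0 0, -t; c', s], by rw [Matrix.det_fin_two_of]; linear_combination hst⟩,
    s * (m * g 0 1) + t * g 1 1, ?_, ?_, ?_, ?_⟩ <;>
    simp only [Matrix.of_apply, Matrix.cons_val', Matrix.cons_val_zero, Matrix.cons_val_one,
      Matrix.cons_val_fin_one, Matrix.empty_val']
  · linear_combination (-(g 0 0)) * hm
  · linear_combination (-((m : ℤ) * g 0 1)) * hst - t * c' * g 0 1 * hm -
      t * e' * hdet - t * e' * g 0 1 * hc'
  · linear_combination hc'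
  · linear_combination (-(g 1 1)) * hst + s * e' * hdet + s * c' * g 0 1 * hm +
      s * e' * g 0 1 * hc'

/-- The upper right entry of the Hermite form of `diag(m,1) g`. -/
def hermB (m : ℕ) [NeZero m] (g : SL(2, ℤ)) : ℤ := (exists_hermite m g).choose_spec.choose

/-- The unimodular part of the Hermite form of `diag(m,1) g`. -/
def hermG (m : ℕ) [NeZero m] (g : SL(2, ℤ)) : SL(2, ℤ) := (exists_hermite m g).choose

theorem hermite_spec (m : ℕ) [NeZero m] (g : SL(2, ℤ)) :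
    (m : ℤ) * g 0 0 = hermG m g 0 0 * cls m g ∧
      (m : ℤ) * g 0 1 = hermG m g 0 0 * hermB m g + hermG m g 0 1 * cod m g ∧
        g 1 0 = hermG m g 1 0 * cls m g ∧
          g 1 1 = hermG m g 1 0 * hermB m g + hermG m g 1 1 * cod m g :=
  (exists_hermite m g).choose_spec.choose_spec

theorem denom_int_apply (g : SL(2, ℤ)) (z : ℂ) :
    denom (g : GL (Fin 2) ℝ) z = (g 1 0 : ℂ) * z + (g 1 1 : ℂ) := by
  simp [denom]

theorem denom_hermite (m : ℕ) [NeZero m] (g : SL(2, ℤ)) (τ : ℍ) :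
    denom (hermG m g : GL (Fin 2) ℝ) (affine (cls m g) (hermB m g) (cod m g) τ : ℂ) * (cod m g) =
      denom (g : GL (Fin 2) ℝ) τ := by
  obtain ⟨-, -, h3, h4⟩ := hermite_spec m g
  have hd : (cod m g : ℂ) ≠ 0 := NeZero.ne _
  rw [denom_int_apply, denom_int_apply, coe_affine, h3, h4]
  push_cast
  field_simp
  ring

theorem affine_smul (m : ℕ) [NeZero m] (g : SL(2, ℤ)) (τ : ℍ) :
    affine m 0 1 (g • τ) = hermG m g • affine (cls m g) (hermB m g) (cod m g) τ := by
  obtain ⟨h1, h2, h3, h4⟩ := hermite_spec m g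
  have hden := denom_hermite m g τ
  have hd : (cod m g : ℂ) ≠ 0 := NeZero.ne _
  have hn1 := denom_ne_zero (hermG m g : GL (Fin 2) ℝ)
    (affine (cls m g) (hermB m g) (cod m g) τ)
  have hn2 := denom_ne_zero (g : GL (Fin 2) ℝ) τ
  refine UpperHalfPlane.ext ?_
  rw [coe_affine, coe_specialLinearGroup_apply, coe_specialLinearGroup_apply]
  rw [denom_int_apply] at hn1 hn2
  simp only [denom_int_apply] at hden
  simp only [algebraMap_int_eq, eq_intCast, Complex.ofReal_intCast, Nat.cast_one, Int.cast_zero,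
    add_zero, div_one]
  have h1' : (m : ℂ) * (g 0 0 : ℂ) = (hermG m g 0 0 : ℂ) * (cls m g : ℕ) := by exact_mod_cast h1
  have h2' : (m : ℂ) * (g 0 1 : ℂ) =
      (hermG m g 0 0 : ℂ) * (hermB m g : ℂ) + (hermG m g 0 1 : ℂ) * (cod m g : ℕ) := by
    exact_mod_cast h2
  rw [coe_affine] at hden hn1 ⊢
  set Z : ℂ := ((cls m g : ℂ) * τ + hermB m g) / cod m g with hZ
  have hZ' : Z * cod m g = (cls m g : ℂ) * τ + hermB m g := div_mul_cancel₀ _ hd
  rw [mul_div_assoc', div_eq_div_iff hn2 hn1, ← hden]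
  linear_combination ((hermG m g 1 0 : ℂ) * Z + hermG m g 1 1) * ((τ : ℂ) * h1' + h2') -
    ((hermG m g 1 0 : ℂ) * Z + hermG m g 1 1) * (hermG m g 0 0 : ℂ) * hZ'

/-- `k` with `q_1 ((eτ+b)/e') = const · q_N τ ^ k`. -/
def expo (N m : ℕ) (g : SL(2, ℤ)) : ℕ := cls m g * (N / cod m g)

theorem cod_dvd {N m : ℕ} (hm : m ∣ N) (g : SL(2, ℤ)) : cod m g ∣ N :=
  (Dvd.intro_left _ (cls_mul_cod m g)).trans hm

theorem neZero_expo {N : ℕ} [NeZero N] {m : ℕ} [NeZero m] (hm : m ∣ N) (g : SL(2, ℤ)) :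
    NeZero (expo N m g) :=
  ⟨Nat.mul_ne_zero (NeZero.ne _) (Nat.div_pos (Nat.le_of_dvd (NeZero.pos N) (cod_dvd hm g))
    (NeZero.pos _)).ne'⟩

/-- The twisting constant. -/
def tw (N : ℕ) [NeZero N] (m : ℕ) [NeZero m] (g : SL(2, ℤ)) : (Rz N)ˣ :=
  zetaU N ^ (hermB m g * (N / cod m g : ℕ))

theorem qParam_affine {m : ℕ} [NeZero m] (hm : m ∣ N) (g : SL(2, ℤ)) (τ : ℍ) :
    qP ((1 : ℕ) : ℝ) (affine (cls m g) (hermB m g) (cod m g) τ : ℂ) =
      (Units.map (iotaR N : Rz N →* ℂ) (tw N m g) : ℂ) * qP (N : ℝ) τ ^ expo N m g := by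
  obtain ⟨r, hr⟩ := cod_dvd hm g
  have hdiv : N / cod m g = r := by rw [hr, Nat.mul_div_cancel_left _ (NeZero.pos _)]
  rw [Units.coe_map, MonoidHom.coe_coe, tw, iotaR_zetaU_zpow, expo, hdiv]
  simp only [Function.Periodic.qParam, ← Complex.exp_nat_mul, ← Complex.exp_add, coe_affine]
  congr 1
  have hN : (N : ℂ) = (cod m g : ℂ) * r := by exact_mod_cast hr
  have hr0 : (r : ℂ) ≠ 0 := fun h => by
    rw [h, mul_zero] at hN; exact NeZero.ne (N : ℂ) hN
  push_cast
  rw [hN]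
  field_simp
  ring

/-- The expansion of the level-one series `s` at `diag(m,1) g`. -/
def conjSer {m : ℕ} [NeZero m] (hm : m ∣ N) (g : SL(2, ℤ)) (s : LaurentSeries (Rz N)) :
    LaurentSeries (Rz N) :=
  have := neZero_expo hm g
  ModularCurve.qExpand (Rz N) (expo N m g) (twist (tw N m g) s)

theorem mem_conjSer {m : ℕ} [NeZero m] (hm : m ∣ N) (g : SL(2, ℤ)) {f : ℍ → ℂ}
    {s : LaurentSeries (Rz N)} (h : HasExp 1 f (ModularCurve.coeffMap (iotaR N) s)) :
    (f ∘ affine (cls m g) (hermB m g) (cod m g), conjSer hm g s) ∈ QSR N (iotaR N) := by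
  have := neZero_expo hm g
  rw [mem_QSR, conjSer, ModularCurve.coeffMap_qExpand, coeffMap_twist]
  exact h.comp_affine _ _ _ _ _ fun τ => qParam_affine hm g τ

theorem mem_scaleN {f : ℍ → ℂ} {s : LaurentSeries (Rz N)}
    (h : HasExp 1 f (ModularCurve.coeffMap (iotaR N) s)) :
    (f, ModularCurve.qExpand (Rz N) N s) ∈ QSR N (iotaR N) := by
  rw [mem_QSR, ModularCurve.coeffMap_qExpand]
  have h1 := h.comp_affine 1 0 1 (H := N) N 1 fun τ => by
    simp only [Function.Periodic.qParam, Units.val_one, ← Complex.exp_nat_mul, coe_affine,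
      Nat.cast_one, one_mul, Int.cast_zero, add_zero, div_one]
    congr 1
    have : (N : ℂ) ≠ 0 := NeZero.ne _
    push_cast
    field_simp
  rw [show affine 1 0 1 = id from funext fun τ => UpperHalfPlane.ext (by simp),
    Function.comp_id, twist_one_apply] at h1
  exact h1

omit [NeZero N] in
theorem mem_constR (r : Rz N) :
    ((fun _ => iotaR N r : ℍ → ℂ), HahnSeries.C r) ∈ QSR N (iotaR N) := by
  rw [mem_QSR, HahnSeries.C_apply, ModularCurve.coeffMap_single]
  exact hasExp_const N _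

/-- `j(mτ)`. -/
def jMul (m : ℕ) [NeZero m] : ℍ → ℂ := fun τ => jFun (affine m 0 1 τ)

/-- `m¹² Δ(mτ)/Δ(τ)`. -/
def uMul (m : ℕ) [NeZero m] : ℍ → ℂ := fun τ =>
  (m : ℂ) ^ 12 * Δf (affine m 0 1 τ) * (Δf τ)⁻¹

/-- `Δ(τ)/Δ(mτ)`. -/
def wMul (m : ℕ) [NeZero m] : ℍ → ℂ := fun τ => Δf τ * (Δf (affine m 0 1 τ))⁻¹

theorem jMul_smul (m : ℕ) [NeZero m] (g : SL(2, ℤ)) (τ : ℍ) :
    jMul m (g • τ) = jFun (affine (cls m g) (hermB m g) (cod m g) τ) := by
  rw [jMul, affine_smul, jFun_smul]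

theorem uMul_smul (m : ℕ) [NeZero m] (g : SL(2, ℤ)) (τ : ℍ) :
    uMul m (g • τ) = (cls m g : ℂ) ^ 12 *
      Δf (affine (cls m g) (hermB m g) (cod m g) τ) * (Δf τ)⁻¹ := by
  have hden := denom_hermite m g τ
  have hd : (cod m g : ℂ) ≠ 0 := NeZero.ne _
  have hn := denom_ne_zero (hermG m g : GL (Fin 2) ℝ)
    (affine (cls m g) (hermB m g) (cod m g) τ)
  have hm : ((m : ℕ) : ℂ) = (cls m g : ℂ) * (cod m g : ℂ) := by
    exact_mod_cast (cls_mul_cod m g).symm
  rw [uMul, affine_smul, discriminant_smul, discriminant_smul, ← hden, hm]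
  field_simp

theorem wMul_smul (m : ℕ) [NeZero m] (g : SL(2, ℤ)) (τ : ℍ) :
    wMul m (g • τ) = (cod m g : ℂ) ^ 12 * Δf τ *
      (Δf (affine (cls m g) (hermB m g) (cod m g) τ))⁻¹ := by
  have hden := denom_hermite m g τ
  have hn := denom_ne_zero (hermG m g : GL (Fin 2) ℝ)
    (affine (cls m g) (hermB m g) (cod m g) τ)
  rw [wMul, affine_smul, discriminant_smul, discriminant_smul, ← hden]
  field_simp

omit [NeZero N] in
theorem cls_of_mem {m : ℕ} (hm : m ∣ N) {h : SL(2, ℤ)}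
    (hh : h ∈ CongruenceSubgroup.Gamma0 N) : cls m h = m := by
  have h0 : (N : ℤ) ∣ h 1 0 := (ZMod.intCast_zmod_eq_zero_iff_dvd _ N).mp
    (CongruenceSubgroup.Gamma0_mem.mp hh)
  exact Nat.dvd_antisymm (cls_dvd m h)
    (Int.natCast_dvd_natCast.mp (Int.dvd_coe_gcd dvd_rfl
      ((Int.natCast_dvd_natCast.mpr hm).trans h0)))

/-- Translation invariance of `j` and `Δ`. -/
theorem affine_T_zpow (m : ℕ) [NeZero m] (h : SL(2, ℤ)) (hc : cls m h = m) (τ : ℍ) :
    affine (cls m h) (hermB m h) (cod m h) τ = ModularGroup.T ^ hermB m h • affine m 0 1 τ := by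
  have hcod : cod m h = 1 := by rw [cod, hc, Nat.div_self (NeZero.pos m)]
  refine UpperHalfPlane.ext ?_
  rw [UpperHalfPlane.modular_T_zpow_smul, coe_vadd, coe_affine, coe_affine]
  simp [hcod, hc, add_comm]

omit [NeZero N] in
theorem jMul_inv {m : ℕ} [NeZero m] (hm : m ∣ N) {h : SL(2, ℤ)}
    (hh : h ∈ CongruenceSubgroup.Gamma0 N) (τ : ℍ) : jMul m (h • τ) = jMul m τ := by
  rw [jMul_smul, affine_T_zpow m h (cls_of_mem hm hh), jFun_smul]; rfl

theorem discriminant_T_zpow (n : ℤ) (τ : ℍ) : Δf (ModularGroup.T ^ n • τ) = Δf τ := by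
  rw [discriminant_smul, denom_int_apply, ModularGroup.coe_T_zpow]
  simp

omit [NeZero N] in
theorem uMul_inv {m : ℕ} [NeZero m] (hm : m ∣ N) {h : SL(2, ℤ)}
    (hh : h ∈ CongruenceSubgroup.Gamma0 N) (τ : ℍ) : uMul m (h • τ) = uMul m τ := by
  rw [uMul_smul, affine_T_zpow m h (cls_of_mem hm hh), discriminant_T_zpow,
    cls_of_mem hm hh]
  rfl

omit [NeZero N] in
theorem wMul_inv {m : ℕ} [NeZero m] (hm : m ∣ N) {h : SL(2, ℤ)}
    (hh : h ∈ CongruenceSubgroup.Gamma0 N) (τ : ℍ) : wMul m (h • τ) = wMul m τ := by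
  rw [wMul_smul, affine_T_zpow m h (cls_of_mem hm hh), discriminant_T_zpow]
  rw [cod, cls_of_mem hm hh, Nat.div_self (NeZero.pos m), wMul]
  simp

variable (N)

/-- The ring of functions with expansions over `Rz N`. -/
abbrev AQ : Type := ↥(QSR N (iotaR N))

instance instCommRingAQ : CommRing (AQ N) := inferInstance

variable {N}

/-- The function component. -/
def fnHom : AQ N →+* (ℍ → ℂ) :=
  (RingHom.fst (ℍ → ℂ) (LaurentSeries (Rz N))).comp (QSR N (iotaR N)).subtype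

/-- The series component. -/
def serHom : AQ N →+* LaurentSeries (Rz N) :=
  (RingHom.snd (ℍ → ℂ) (LaurentSeries (Rz N))).comp (QSR N (iotaR N)).subtype

omit [NeZero N] in
@[simp]
theorem serHom_mk (f : ℍ → ℂ) (s : LaurentSeries (Rz N)) (h : (f, s) ∈ QSR N (iotaR N)) :
    (serHom (N := N)) (⟨(f, s), h⟩ : AQ N) = s := rfl

/-- Conjugates of `j(mτ)`. -/
def jFam {m : ℕ} [NeZero m] (hm : m ∣ N) (i : Cst N) : AQ N :=
  ⟨(fun τ => jMul m (repg i • τ), conjSer hm (repg i) (ModularCurve.jqModC (Rz N))), by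
    have h := mem_conjSer hm (repg i) (f := jFun) (s := ModularCurve.jqModC (Rz N))
      (by rw [ModularCurve.coeffMap_jqModC]; exact hasExp_jFun)
    rwa [show (fun τ => jMul m (repg i • τ)) =
      jFun ∘ affine (cls m (repg i)) (hermB m (repg i)) (cod m (repg i)) from
      funext fun τ => jMul_smul m (repg i) τ]⟩

/-- Conjugates of `m¹² Δ(mτ)/Δ(τ)`. -/
def uFam {m : ℕ} [NeZero m] (hm : m ∣ N) (i : Cst N) : AQ N :=
  ⟨(fun τ => uMul m (repg i • τ),
    HahnSeries.C ((cls m (repg i) : Rz N) ^ 12) * conjSer hm (repg i) (deltaR (Rz N)) *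
      ModularCurve.qExpand (Rz N) N (deltaInvR (Rz N))), by
    have h1 := mem_conjSer hm (repg i) (f := Δf) (s := deltaR (Rz N))
      (by rw [coeffMap_deltaR]; exact hasExp_delta)
    have h2 := mem_scaleN (N := N) (s := deltaInvR (Rz N)) (f := fun τ => (Δf τ)⁻¹)
      (by rw [coeffMap_deltaInvR]; exact hasExp_deltaInv)
    convert mul_mem (mul_mem (mem_constR ((cls m (repg i) : Rz N) ^ 12)) h1) h2 using 1
    refine Prod.ext (funext fun τ => ?_) rfl
    simp only [uMul_smul]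
    simp⟩

/-- Conjugates of `Δ(τ)/Δ(mτ)`. -/
def wFam {m : ℕ} [NeZero m] (hm : m ∣ N) (i : Cst N) : AQ N :=
  ⟨(fun τ => wMul m (repg i • τ),
    HahnSeries.C ((cod m (repg i) : Rz N) ^ 12) * ModularCurve.qExpand (Rz N) N (deltaR (Rz N)) *
      conjSer hm (repg i) (deltaInvR (Rz N))), by
    have h1 := mem_conjSer hm (repg i) (f := fun τ => (Δf τ)⁻¹) (s := deltaInvR (Rz N))
      (by rw [coeffMap_deltaInvR]; exact hasExp_deltaInv)
    have h2 := mem_scaleN (N := N) (s := deltaR (Rz N)) (f := Δf)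
      (by rw [coeffMap_deltaR]; exact hasExp_delta)
    convert mul_mem (mul_mem (mem_constR ((cod m (repg i) : Rz N) ^ 12)) h2) h1 using 1
    refine Prod.ext (funext fun τ => ?_) rfl
    simp only [wMul_smul]
    simp⟩

/-- Precomposition with `γ`. -/
def compL (γ : SL(2, ℤ)) : (ℍ → ℂ) →+* (ℍ → ℂ) :=
  RingHom.pi fun τ => Pi.evalRingHom (fun _ : ℍ => ℂ) (γ • τ)

@[simp]
theorem compL_apply (γ : SL(2, ℤ)) (f : ℍ → ℂ) (τ : ℍ) : compL γ f τ = f (γ • τ) := rfl

/-- A family indexed by cosets that transforms by permutation. -/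
def Equivariant (x : Cst N → AQ N) : Prop :=
  ∀ (γ : SL(2, ℤ)) (i : Cst N), compL γ ((fnHom (N := N)) (x i)) = (fnHom (N := N)) (x (γ⁻¹ • i))

omit [NeZero N] in
theorem equivariant_of_invariant {f : ℍ → ℂ}
    (hf : ∀ h ∈ CongruenceSubgroup.Gamma0 N, ∀ τ, f (h • τ) = f τ) (x : Cst N → AQ N)
    (hx : ∀ i τ, (fnHom (N := N)) (x i) τ = f (repg i • τ)) : Equivariant x := by
  intro γ i
  funext τ
  rw [compL_apply, hx, hx, ← mul_smul]
  obtain ⟨h, hh⟩ := QuotientGroup.mk_out_eq_mul (CongruenceSubgroup.Gamma0 N)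
    (γ⁻¹ * Quotient.out i)
  have hi : γ⁻¹ • i = ((γ⁻¹ * Quotient.out i : SL(2, ℤ)) : Cst N) := by
    conv_lhs => rw [← QuotientGroup.out_eq' i]
    rfl
  have : repg (γ⁻¹ • i) = (h : SL(2, ℤ))⁻¹ * (repg i * γ) := by
    rw [repg, hi, hh, repg, mul_inv_rev, mul_inv_rev, inv_inv]
  rw [this, mul_smul _ (repg i * γ)]
  exact (hf _ (inv_mem h.2) _).symm

theorem equivariant_jFam {m : ℕ} [NeZero m] (hm : m ∣ N) : Equivariant (jFam (N := N) hm) :=
  equivariant_of_invariant (f := jMul m) (fun _ hh τ => jMul_inv hm hh τ) _ fun _ _ => rfl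

theorem equivariant_uFam {m : ℕ} [NeZero m] (hm : m ∣ N) : Equivariant (uFam (N := N) hm) :=
  equivariant_of_invariant (f := uMul m) (fun _ hh τ => uMul_inv hm hh τ) _ fun _ _ => rfl

theorem equivariant_wFam {m : ℕ} [NeZero m] (hm : m ∣ N) : Equivariant (wFam (N := N) hm) :=
  equivariant_of_invariant (f := wMul m) (fun _ hh τ => wMul_inv hm hh τ) _ fun _ _ => rfl

/-- Evaluation of a polynomial at `j`. -/
def evJ (R : Type*) [CommRing R] (N : ℕ) [NeZero N] : Polynomial R →+* LaurentSeries R :=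
  Polynomial.eval₂RingHom HahnSeries.C (jW R N)

theorem mem_lifts_of_invariant (p : Polynomial (AQ N))
    (hp : ∀ γ : SL(2, ℤ), p.map ((compL γ).comp (fnHom (N := N))) = p.map (fnHom (N := N))) :
    p.map (serHom (N := N)) ∈ Polynomial.lifts (evJ (Rz N) N) := by
  rw [Polynomial.lifts_iff_coeff_lifts]
  intro k
  obtain ⟨P, hP⟩ := exists_aeval_jW (iotaR N) (iotaR_injective N) N
    (f := (fnHom (N := N)) (p.coeff k)) (s := (serHom (N := N)) (p.coeff k))
    (p.coeff k).2 fun γ τ => by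
      have h := congrArg (fun q : Polynomial (ℍ → ℂ) => q.coeff k τ) (hp γ)
      simpa using h
  exact ⟨P, by rw [Polynomial.coeff_map]; exact hP⟩

/-- The polynomial with roots an equivariant family has coefficients in `ℤ[ζ_N][j]`. -/
theorem exists_charPoly (x : Cst N → AQ N) (hx : Equivariant x) :
    ∃ P : Polynomial (Polynomial (Rz N)), P.Monic ∧ P.natDegree = Fintype.card (Cst N) ∧
      P.map (evJ (Rz N) N) = ∏ i, (Polynomial.X - Polynomial.C ((serHom (N := N)) (x i))) := by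
  have hl := mem_lifts_of_invariant (N := N) (∏ i, (Polynomial.X - Polynomial.C (x i))) fun γ => by
    simp only [Polynomial.map_prod, Polynomial.map_sub, Polynomial.map_X, Polynomial.map_C,
      RingHom.comp_apply]
    exact Fintype.prod_equiv (MulAction.toPerm γ⁻¹) _ _ fun i => by
      rw [show compL γ ((fnHom (N := N)) (x i)) = (fnHom (N := N)) (x (γ⁻¹ • i)) from hx γ i]; rfl
  simp only [Polynomial.map_prod, Polynomial.map_sub, Polynomial.map_X, Polynomial.map_C] at hl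
  obtain ⟨P, hP, hdeg, hmon⟩ := Polynomial.lifts_and_natDegree_eq_and_monic hl
    (Polynomial.monic_prod_of_monic _ _ fun i _ => Polynomial.monic_X_sub_C _)
  refine ⟨P, hmon, ?_, hP⟩
  rw [hdeg, Polynomial.natDegree_finsetProd_X_sub_C_eq_card, Finset.card_univ]

open Classical in
/-- The Lagrange numerator interpolating one equivariant family at another has coefficients
in `ℤ[ζ_N][j]`. -/
theorem exists_interp (G x : Cst N → AQ N) (hG : Equivariant G) (hx : Equivariant x) :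
    ∃ P : Polynomial (Polynomial (Rz N)),
      P.map (evJ (Rz N) N) = ∑ i, Polynomial.C ((serHom (N := N)) (x i)) *
        ∏ i' ∈ Finset.univ.erase i, (Polynomial.X - Polynomial.C ((serHom (N := N)) (G i'))) := by
  have hl := mem_lifts_of_invariant (N := N) (∑ i, Polynomial.C (x i) *
      ∏ i' ∈ Finset.univ.erase i, (Polynomial.X - Polynomial.C (G i'))) fun γ => by
    simp only [Polynomial.map_sum, Polynomial.map_mul, Polynomial.map_prod, Polynomial.map_sub,
      Polynomial.map_X, Polynomial.map_C, RingHom.comp_apply]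
    refine Fintype.sum_equiv (MulAction.toPerm γ⁻¹) _ _ fun i => ?_
    rw [show compL γ ((fnHom (N := N)) (x i)) = (fnHom (N := N)) (x (γ⁻¹ • i)) from hx γ i]
    congr 1
    refine Finset.prod_equiv (MulAction.toPerm γ⁻¹) (fun j => ?_) fun j _ => ?_
    · simp only [Finset.mem_erase, Finset.mem_univ, and_true, ne_eq, EmbeddingLike.apply_eq_iff_eq]
    rw [show compL γ ((fnHom (N := N)) (G j)) = (fnHom (N := N)) (G (γ⁻¹ • j)) from hG γ j]; rfl
  simp only [Polynomial.map_sum, Polynomial.map_mul, Polynomial.map_prod, Polynomial.map_sub,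
      Polynomial.map_X, Polynomial.map_C] at hl
  exact hl

end Fermat.Agent.Igusa
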