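import Fermat.Agent.Igusa.Reduction

/-!
# Integrality of the special fibres of the Igusa model
-/

set_option autoImplicit false

noncomputable section

open AlgebraicGeometry CategoryTheory CategoryTheory.Limits ModularCurve ModularCurve.IgusaScheme
open scoped TensorProduct

namespace Fermat.Agent.Igusa

variable {N : ℕ} [NeZero N] {ℓ : ℕ} [Fact ℓ.Prime]
variable (K : Type) [Field K] [CharP K ℓ] [Algebra (ZL ℓ) K]

theorem algebraMap_eq_red0 :
    (algebraMap (ZL ℓ) K) = (ZMod.castHom (dvd_refl ℓ) K).comp (red0 ℓ) := by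
  refine RingHom.ext fun q => ?_
  have hq : q * ((q : ℚ).den : ZL ℓ) = ((q : ℚ).num : ZL ℓ) :=
    Subtype.ext (by push_cast; exact Rat.mul_den_eq_num _)
  have h1 := congrArg (algebraMap (ZL ℓ) K) hq
  have h2 := congrArg ((ZMod.castHom (dvd_refl ℓ) K).comp (red0 ℓ)) hq
  simp only [map_mul, map_natCast, map_intCast] at h1 h2
  refine mul_right_cancel₀ ?_ (h1.trans h2.symm)
  rw [Ne, CharP.cast_eq_zero_iff K ℓ, ← (Fact.out : ℓ.Prime).coprime_iff_not_dvd]
  exact Nat.Coprime.symm q.2

/-- The reduced expansion with coefficients in `K`. -/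
def chartToLaurent (hℓN : ¬ ℓ ∣ N) {S : Set (FN N)} (hS : IntegralGens (ℓ := ℓ) S) :
    chartAlg N ℓ S →+* LaurentSeries K :=
  (coeffMap (ZMod.castHom (dvd_refl ℓ) K)).comp (redHom hℓN hS)

theorem chartToLaurent_comp_algebraMap (hℓN : ¬ ℓ ∣ N) {S : Set (FN N)}
    (hS : IntegralGens (ℓ := ℓ) S) :
    (chartToLaurent K hℓN hS).comp (algebraMap (ZL ℓ) _) =
      (HahnSeries.C : K →+* LaurentSeries K).comp (algebraMap (ZL ℓ) K) := by
  refine RingHom.ext fun c => ?_
  rw [RingHom.comp_apply, RingHom.comp_apply, chartToLaurent, RingHom.comp_apply,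
    redHom_algebraMap, HahnSeries.C_apply, coeffMap_single, HahnSeries.C_apply,
    algebraMap_eq_red0 K, RingHom.comp_apply]

theorem algebraMap_laurent {R : Type} [CommRing R] {K : Type} [Field K] [Algebra R K] (c : R) :
    algebraMap R (LaurentSeries K) c = HahnSeries.C (algebraMap R K c) := by
  rw [HahnSeries.algebraMap_apply', PowerSeries.algebraMap_apply, HahnSeries.ofPowerSeries_C]

/-- A tensor product with a field of characteristic `ℓ` embeds in Laurent series as soon as the
reduction map has kernel `ℓ`. -/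
theorem isDomain_tensor_of_kernel {R A : Type} [CommRing R] [CommRing A] [Algebra R A] (L : Type)
    [Field L] [CharP L ℓ] [Algebra R L] (φ : A →+* LaurentSeries (ZMod ℓ))
    (hφ : ∀ c, coeffMap (ZMod.castHom (dvd_refl ℓ) L) (φ (algebraMap R A c)) =
      HahnSeries.C (algebraMap R L c))
    (hker : ∀ a, φ a = 0 → ∃ z, a = (ℓ : A) * z) : IsDomain (A ⊗[R] L) := by
  classical
  let f : A →ₐ[R] LaurentSeries L :=
    { (coeffMap (ZMod.castHom (dvd_refl ℓ) L)).comp φ with
      commutes' := fun c => (hφ c).trans (algebraMap_laurent c).symm }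
  let g : L →ₐ[R] LaurentSeries L :=
    { (HahnSeries.C : L →+* LaurentSeries L) with
      commutes' := fun c => (algebraMap_laurent c).symm }
  have : @IsScalarTower R R (LaurentSeries L) Algebra.toSMul Algebra.toSMul Algebra.toSMul :=
    IsScalarTower.of_algebraMap_eq fun _ => rfl
  let Φ := Algebra.TensorProduct.lift f g fun _ _ => Commute.all _ _
  suffices hinj : Function.Injective Φ from hinj.isDomain
  let : Algebra (ZMod ℓ) L := ZMod.algebra L ℓ
  let bas := Module.Basis.ofVectorSpace (ZMod ℓ) L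
  have hdecomp : ∀ x : A ⊗[R] L, ∃ c : _ →₀ A, x = c.sum fun i a => a ⊗ₜ[R] bas i := by
    intro x
    induction x using TensorProduct.induction_on with
    | zero => exact ⟨0, by simp⟩
    | tmul a e =>
      refine ⟨(bas.repr e).mapRange (fun m => ((m.val : ℕ) : R) • a) (by simp), ?_⟩
      rw [Finsupp.sum_mapRange_index (h := fun i a => a ⊗ₜ[R] bas i)
        (fun i => TensorProduct.zero_tmul _ _)]
      conv_lhs => rw [← bas.linearCombination_repr e, Finsupp.linearCombination_apply]
      rw [Finsupp.sum, Finsupp.sum, TensorProduct.tmul_sum]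
      refine Finset.sum_congr rfl fun i _ => ?_
      rw [TensorProduct.smul_tmul, Algebra.smul_def, Algebra.smul_def, map_natCast]
      congr 2
      rw [← ZMod.natCast_zmod_val (bas.repr e i), map_natCast, ZMod.natCast_zmod_val]
    | add x y hx hy =>
      obtain ⟨c, rfl⟩ := hx
      obtain ⟨d, rfl⟩ := hy
      exact ⟨c + d, (Finsupp.sum_add_index' (h := fun i a => a ⊗ₜ[R] bas i)
        (fun i => TensorProduct.zero_tmul _ _)
        fun i a b => TensorProduct.add_tmul _ _ _).symm⟩
  refine (injective_iff_map_eq_zero _).mpr fun x hx => ?_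
  obtain ⟨c, rfl⟩ := hdecomp x
  rw [Finsupp.sum] at hx ⊢
  refine Finset.sum_eq_zero fun i hi => ?_
  have hcoeff : ∀ n : ℤ, ∑ k ∈ c.support, ((φ (c k)).coeff n) • bas k = 0 := by
    intro n
    have h := congrArg (fun t : LaurentSeries L => t.coeff n) hx
    simp only [map_sum, HahnSeries.coeff_sum, HahnSeries.coeff_zero] at h
    rw [← h]
    refine Finset.sum_congr rfl fun k _ => ?_
    simp only [Φ, Algebra.TensorProduct.lift_tmul]
    show _ = (coeffMap (ZMod.castHom (dvd_refl ℓ) L) (φ (c k)) * HahnSeries.C (bas k)).coeff n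
    rw [mul_comm, HahnSeries.C_apply, HahnSeries.coeff_single_mul, sub_zero, coeffMap_coeff,
      Algebra.smul_def, mul_comm]
    rfl
  have hzero : φ (c i) = 0 :=
    HahnSeries.ext (funext fun n => linearIndependent_iff'.mp bas.linearIndependent _ _
      (hcoeff n) i hi)
  obtain ⟨z, hz⟩ := hker (c i) hzero
  have hL : ((ℓ : R) • bas i : L) = 0 := by
    rw [Algebra.smul_def, map_natCast, CharP.cast_eq_zero, zero_mul]
  rw [hz, ← map_natCast (algebraMap R A), ← Algebra.smul_def, TensorProduct.smul_tmul, hL,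
    TensorProduct.tmul_zero]

theorem isIntegral_pullback_of_isDomain (R A L : Type) [CommRing R] [CommRing A] [CommRing L]
    [Algebra R A] [Algebra R L] [IsDomain (A ⊗[R] L)] :
    IsIntegral (pullback (Spec.map (CommRingCat.ofHom (algebraMap R A)))
      (Spec.map (CommRingCat.ofHom (algebraMap R L)))) := by
  have e := pullbackSpecIso R A L
  have : Nonempty ↥(pullback (Spec.map (CommRingCat.ofHom (algebraMap R A)))
      (Spec.map (CommRingCat.ofHom (algebraMap R L)))) := ⟨e.inv.base (Classical.arbitrary _)⟩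
  exact isIntegral_of_isOpenImmersion e.hom

/-- A chart of the base change. -/
theorem isIntegral_chart (hℓN : ¬ ℓ ∣ N) {s : FN N} (hs : s = jFull N ∨ s = (jFull N)⁻¹)
    (hS : IntegralGens (ℓ := ℓ) ({s} : Set (FN N))) :
    IsIntegral (pullback (Spec.map (CommRingCat.ofHom (algebraMap (ZL ℓ) (chartAlg N ℓ {s}))))
      (Spec.map (CommRingCat.ofHom (algebraMap (ZL ℓ) K)))) :=
  @isIntegral_pullback_of_isDomain (ZL ℓ) (chartAlg N ℓ {s}) K _ _ _ _ _
    (isDomain_tensor_of_kernel (ℓ := ℓ) K (redHom hℓN hS)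
      (RingHom.congr_fun (chartToLaurent_comp_algebraMap K hℓN hS))
      fun a ha => exists_mul_of_redHom_eq_zero hℓN hs hS a ha)

/-- A base change covered by two integral pieces with a common point is integral. -/
theorem isIntegral_pullback_of_two {X S Y U V T : Scheme.{0}} (f : X ⟶ S) (g : Y ⟶ S)
    (i : U ⟶ X) (j : V ⟶ X) [IsOpenImmersion i] [IsOpenImmersion j]
    (hcov : ∀ x, x ∈ Set.range i.base ∨ x ∈ Set.range j.base) {a : U ⟶ S} {b : V ⟶ S}
    (ha : i ≫ f = a) (hb : j ≫ f = b) (hU : IsIntegral (pullback a g))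
    (hV : IsIntegral (pullback b g)) (p : T) (u : T ⟶ U) (v : T ⟶ V) (y : T ⟶ Y)
    (huv : u ≫ i = v ≫ j) (hu : u ≫ a = y ≫ g) : IsIntegral (pullback f g) := by
  subst ha hb
  let 𝒰 : X.OpenCover := Scheme.Cover.mkOfCovers Bool (fun c => cond c U V)
    (fun c => match c with
      | true => i
      | false => j)
    (fun x => (hcov x).elim (fun ⟨z, hz⟩ => ⟨true, z, hz⟩) fun ⟨z, hz⟩ => ⟨false, z, hz⟩)
    (fun c => match c with
      | true => ‹IsOpenImmersion i›
      | false => ‹IsOpenImmersion j›)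
  let 𝒱 := Scheme.Pullback.openCoverOfLeft 𝒰 f g
  have hint : ∀ c, IsIntegral (𝒱.X c) := fun c => by
    cases c
    · exact hV
    · exact hU
  have : IsReduced (pullback f g) := IsReduced.of_openCover (𝒰 := 𝒱)
  have hu' : (u ≫ i) ≫ f = y ≫ g := by rw [Category.assoc]; exact hu
  let z : T ⟶ pullback f g := pullback.lift (u ≫ i) y hu'
  have hmem : ∀ c, z.base p ∈ (𝒱.f c).opensRange := by
    rintro (_ | _)
    · have hv : v ≫ j ≫ f = y ≫ g := by rw [← Category.assoc, ← huv]; exact hu'
      have h : pullback.lift v y hv ≫ pullback.map (j ≫ f) g f g j (𝟙 Y) (𝟙 S) (by simp) (by simp)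
          = z := by
        apply pullback.hom_ext <;>
          simp only [z, huv, pullback.map, Category.assoc, pullback.lift_fst, pullback.lift_snd,
            pullback.lift_fst_assoc, Category.comp_id]
      exact ⟨(pullback.lift v y hv).base p, by rw [← h]; rfl⟩
    · have h : pullback.lift u y hu ≫ pullback.map (i ≫ f) g f g i (𝟙 Y) (𝟙 S) (by simp) (by simp)
          = z := by
        apply pullback.hom_ext <;>
          simp only [z, pullback.map, Category.assoc, pullback.lift_fst, pullback.lift_snd,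
            pullback.lift_fst_assoc, Category.comp_id]
      exact ⟨(pullback.lift u y hu).base p, by rw [← h]; rfl⟩
  have : Nonempty ↥(pullback f g) := ⟨z.base p⟩
  have : PreirreducibleSpace ↥(pullback f g) := by
    refine PreirreducibleSpace.of_isOpenCover (U := fun c => (𝒱.f c).opensRange) ?_
      𝒱.isOpenCover_opensRange fun c => ?_
    · intro c d _ hdis
      exact Set.disjoint_left.mp (TopologicalSpace.Opens.coe_disjoint.mpr hdis) (hmem c) (hmem d)
    · have := hint c
      refine Subtype.preirreducibleSpace ?_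
      have h := (PreirreducibleSpace.isPreirreducible_univ (X := ↥(𝒱.X c))).image _
        (𝒱.f c).continuous.continuousOn
      rwa [Set.image_univ] at h
  have : IrreducibleSpace ↥(pullback f g) := { toNonempty := inferInstance }
  exact isIntegral_of_irreducibleSpace_of_isReduced _

/-- For `ℓ ∤ N` the base change of the Igusa model to a field `K` of characteristic `ℓ` is
integral. -/
theorem isIntegral_fibre (hℓN : ¬ ℓ ∣ N) :
    IsIntegral (pullback (igusaTo N ℓ)
      (Spec.map (CommRingCat.ofHom (algebraMap (ZL ℓ) K)))) := by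
  set φ := chartToLaurent K hℓN (integralGens_pair (N := N) (ℓ := ℓ))
  refine isIntegral_pullback_of_two (igusaTo N ℓ) _ (ιFin N ℓ) (ιInf N ℓ)
    (mem_range_ιFin_or_mem_range_ιInf N ℓ) (ιFin_igusaTo N ℓ) (ιInf_igusaTo N ℓ)
    (isIntegral_chart K hℓN (Or.inl rfl) integralGens_jFull)
    (isIntegral_chart K hℓN (Or.inr rfl) integralGens_jInv)
    (Classical.arbitrary ↥(Spec (CommRingCat.of (LaurentSeries K))))
    (Spec.map (CommRingCat.ofHom φ) ≫ fFin N ℓ) (Spec.map (CommRingCat.ofHom φ) ≫ fInf N ℓ)
    (Spec.map (CommRingCat.ofHom (HahnSeries.C : K →+* LaurentSeries K))) ?_ ?_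
  · rw [Category.assoc, Category.assoc, glue_condition]
  · rw [← Spec.map_comp, ← Spec.map_comp, ← Spec.map_comp, ← CommRingCat.ofHom_comp,
      ← CommRingCat.ofHom_comp, ← CommRingCat.ofHom_comp]
    refine congrArg (fun r => Spec.map (CommRingCat.ofHom r)) ?_
    rw [← chartToLaurent_comp_algebraMap K hℓN (integralGens_pair (N := N) (ℓ := ℓ)),
      RingHom.comp_assoc,
      show ((inclFin N ℓ).toRingHom).comp (algebraMap (ZL ℓ) (chartAlgFin N ℓ)) =
        algebraMap (ZL ℓ) (chartAlgMid N ℓ) from RingHom.ext (inclFin N ℓ).commutes]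

end Fermat.Agent.Igusa
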