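import Fermat.Agent.Igusa.Irreducible

/-!
# The level `N` modular equation in the variable `q`

Translation of the irreducibility to `jqModC`, `jqNModC`, the finite dimension of the function
field over `ℚ(j)`, and integrality of `j(Nτ)` over `ℤ[j]`.
-/

set_option autoImplicit false

noncomputable section

open scoped MatrixGroups
open Polynomial

namespace Fermat.Agent.Igusa

/-- Evaluation of a polynomial at the `q`-series of `j`. -/
def evq (R : Type*) [CommRing R] : R[X] →+* LaurentSeries R :=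
  Polynomial.eval₂RingHom HahnSeries.C (ModularCurve.jqModC R)

theorem qExpand_evq {R : Type*} [CommRing R] (N : ℕ) [NeZero N] (p : R[X]) :
    ModularCurve.qExpand R N (evq R p) = evJ R N p := by
  simp only [evq, evJ, Polynomial.coe_eval₂RingHom, Polynomial.hom_eval₂, jW]
  congr 1
  ext a : 1
  simp [HahnSeries.C_apply]

theorem coeffMap_evq {R S : Type*} [CommRing R] [CommRing S] (f : R →+* S) (p : R[X]) :
    ModularCurve.coeffMap f (evq R p) = evq S (p.map f) := by
  simp only [evq, Polynomial.coe_eval₂RingHom, Polynomial.eval₂_map, Polynomial.hom_eval₂,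
    ModularCurve.coeffMap_jqModC]
  congr 1
  ext a : 1
  simp [HahnSeries.C_apply]

theorem evq_injective (k : Type*) [Field k] : Function.Injective (evq k) := fun p q h =>
  evJ_injective (k := k) 1 (by rw [← qExpand_evq, ← qExpand_evq, h])

variable (N : ℕ) [NeZero N]

/-- The number of cosets of `Γ₀(N)`. -/
abbrev idx : ℕ := Fintype.card (Cst N)

theorem qExpand_jqNModC (R : Type*) [CommRing R] :
    ModularCurve.qExpand R N (ModularCurve.jqNModC R N) =
      ModularCurve.qExpand R (N * N) (ModularCurve.jqModC R) := by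
  rw [ModularCurve.jqNModC, ModularCurve.qExpand_qExpand]

/-- A primitive `N`-th root of unity gives a map out of `ℤ[ζ_N]`. -/
theorem exists_hom_of_primitiveRoot {k : Type*} [Field k] {y : k} (hy : IsPrimitiveRoot y N) :
    ∃ π : Rz N →+* k, π (zetaR N) = y := by
  have hζ := zetaC_isPrimitiveRoot N
  have hint : IsIntegral ℤ (zetaC N) := hζ.isIntegral (NeZero.pos N)
  let pb := Algebra.adjoin.powerBasis' hint
  have hgen : pb.gen = zetaR N := Algebra.adjoin.powerBasis'_gen hint
  have hroot : aeval y (minpoly ℤ pb.gen) = 0 := by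
    rw [hgen, ← minpoly.algHom_eq (Algebra.adjoin ℤ ({zetaC N} : Set ℂ)).val
      Subtype.val_injective (zetaR N)]
    show aeval y (minpoly ℤ (zetaC N)) = 0
    rw [← Polynomial.cyclotomic_eq_minpoly hζ (NeZero.pos N), aeval_def, ← eval_map,
      Polynomial.map_cyclotomic]
    have : NeZero (N : k) := hy.neZero'
    exact (Polynomial.isRoot_cyclotomic_iff.mpr hy)
  refine ⟨(pb.lift y hroot).toRingHom, ?_⟩
  rw [← hgen]
  exact pb.lift_gen y hroot

/-- Independence of the powers of `j(Nτ)` over `k[j]`, in characteristic prime to `N`. -/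
theorem q_independent {k : Type*} [Field k] {y : k} (hy : IsPrimitiveRoot y N)
    (a : Fin (idx N) → k[X])
    (ha : ∑ l, evq k (a l) * ModularCurve.jqNModC k N ^ (l : ℕ) = 0) : a = 0 := by
  obtain ⟨π, hπ⟩ := exists_hom_of_primitiveRoot N hy
  refine pow_independent π (hπ ▸ hy) a ?_
  have h := congrArg (ModularCurve.qExpand k N) ha
  simp only [map_sum, map_mul, map_pow, map_zero, qExpand_evq, qExpand_jqNModC] at h
  rwa [Gk_cst0]

theorem primitive_iotaR : IsPrimitiveRoot (iotaR N (zetaR N)) N := zetaC_isPrimitiveRoot N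

/-- The `q^(1/N)` embedding of rational series. -/
def embN : LaurentSeries ℚ →+* LaurentSeries ℂ :=
  (ModularCurve.qExpand ℂ N).comp (ModularCurve.coeffMap (algebraMap ℚ ℂ))

theorem embN_injective : Function.Injective (embN N) :=
  (ModularCurve.qExpand_injective N).comp
    (Function.Injective.comp (g := fun s : LaurentSeries ℂ => s)
      Function.injective_id fun x y h => by
        ext n
        exact (algebraMap ℚ ℂ).injective (congrArg (fun s : LaurentSeries ℂ => s.coeff n) h))

theorem embN_qExpand_jq {d : ℕ} [NeZero d] (hd : d ∣ N) :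
    embN N (ModularCurve.qExpand ℚ d ModularCurve.jq) = Gk (iotaR N) hd cst0 := by
  rw [Gk_cst0, embN, RingHom.comp_apply, ModularCurve.coeffMap_qExpand, ← ModularCurve.jqModC_rat,
    ModularCurve.coeffMap_jqModC, ModularCurve.qExpand_qExpand]
  exact ModularCurve.qExpand_congr (mul_comm N d) _

theorem embN_evq (p : ℚ[X]) : embN N (evq ℚ p) = evJ ℂ N (p.map (algebraMap ℚ ℂ)) := by
  rw [embN, RingHom.comp_apply, coeffMap_evq, qExpand_evq]

theorem embN_jqN : embN N (ModularCurve.jqN N) = Gk (iotaR N) (dvd_refl N) cst0 :=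
  embN_qExpand_jq N dvd_rfl

/-- Descent of linear relations over `ℂ[j]` to `ℚ[j]`. -/
theorem exists_rat_relation {ι : Type*} [Fintype ι] (v : ι → LaurentSeries ℚ) (g : ι → ℂ[X])
    (hg : ∑ l, evJ ℂ N (g l) * embN N (v l) = 0) (hne : g ≠ 0) :
    ∃ a : ι → ℚ[X], a ≠ 0 ∧ ∑ l, evq ℚ (a l) * v l = 0 := by
  obtain ⟨l₀, hl₀⟩ := Function.ne_iff.mp hne
  obtain ⟨i₀, hi₀⟩ : ∃ i, (g l₀).coeff i ≠ 0 := by
    by_contra h
    push Not at h
    exact hl₀ (Polynomial.ext fun i => by simpa using h i)
  obtain ⟨φ, hφ⟩ := Module.Projective.exists_dual_ne_zero ℚ hi₀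
  set D := Finset.univ.sup (fun l => (g l).natDegree) + 1 with hD
  let a : ι → ℚ[X] := fun l => ∑ i ∈ Finset.range D, Polynomial.C (φ ((g l).coeff i)) * X ^ i
  have hDl : ∀ l, (g l).natDegree < D := fun l =>
    Nat.lt_succ_of_le (Finset.le_sup (f := fun l => (g l).natDegree) (Finset.mem_univ l))
  have hcoeff : ∀ l, ∀ i < D, (a l).coeff i = φ ((g l).coeff i) := fun l i hi => by
    simp [a, Polynomial.finsetSum_coeff, Polynomial.coeff_X_pow, hi]
  refine ⟨a, fun h0 => hφ ?_, ?_⟩
  · rcases lt_or_ge i₀ D with hi | hi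
    · rw [← hcoeff l₀ i₀ hi, h0]; simp
    · exact absurd (Polynomial.coeff_eq_zero_of_natDegree_lt ((hDl l₀).trans_le hi)) hi₀
  · have h1 : ∑ l, evq ℂ (g l) * ModularCurve.coeffMap (algebraMap ℚ ℂ) (v l) = 0 := by
      refine ModularCurve.qExpand_injective (R := ℂ) N ?_
      rw [map_zero, ← hg, map_sum]
      simp only [map_mul, qExpand_evq]
      rfl
    ext n
    have h2 := congrArg (fun s : LaurentSeries ℂ => φ (s.coeff n)) h1
    simp only [HahnSeries.coeff_zero, map_zero] at h2
    rw [HahnSeries.coeff_zero, ← h2, HahnSeries.coeff_sum, HahnSeries.coeff_sum, map_sum]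
    refine Finset.sum_congr rfl fun l _ => ?_
    have hq : evq ℚ (a l) = ∑ i ∈ Finset.range D,
        HahnSeries.C (φ ((g l).coeff i)) * ModularCurve.jqModC ℚ ^ i := by
      simp [a, evq]
    rw [hq, evq, Polynomial.coe_eval₂RingHom, Polynomial.eval₂_eq_sum_range' _ (hDl l),
      Finset.sum_mul, Finset.sum_mul, HahnSeries.coeff_sum, HahnSeries.coeff_sum, map_sum]
    refine Finset.sum_congr rfl fun i _ => ?_
    rw [mul_assoc, mul_assoc, HahnSeries.C_apply, HahnSeries.C_apply,
      HahnSeries.coeff_single_mul, HahnSeries.coeff_single_mul, sub_zero,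
      ← ModularCurve.coeffMap_jqModC (algebraMap ℚ ℂ), ← map_pow, ← map_mul,
      ModularCurve.coeffMap_coeff, mul_comm ((g l).coeff i), ← Algebra.smul_def, map_smul,
      smul_eq_mul, mul_comm]

/-- Every element of the function field is a `ℚ(j)`-combination of powers of `j(Nτ)`. -/
theorem exists_combination {y : LaurentSeries ℚ}
    (hy : y ∈ ModularCurve.modularFunctionFieldFull N) :
    ∃ b : ℚ[X], b ≠ 0 ∧ ∃ a : Fin (idx N) → ℚ[X],
      evq ℚ b * y = ∑ l, evq ℚ (a l) * ModularCurve.jqN N ^ (l : ℕ) := by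
  classical
  let : Algebra (Kj ℂ) (LaurentSeries ℂ) := (phiJ N ℂ).toAlgebra
  set θ := Gk (iotaR N) (dvd_refl N) (cst0 : Cst N) with hθ
  obtain ⟨P, hPm, hPd, hP⟩ := exists_charPoly_red (iotaR N) (jFam (N := N) dvd_rfl)
    (equivariant_jFam _)
  have hroot : aeval θ (P.map (algebraMap ℂ[X] (Kj ℂ))) = 0 := by
    rw [Polynomial.aeval_def, RingHom.algebraMap_toAlgebra, ← Polynomial.eval_map, hP,
      Polynomial.eval_prod]
    exact Finset.prod_eq_zero (Finset.mem_univ cst0) (by simp [hθ, Gk])
  have hint : IsIntegral (Kj ℂ) θ := ⟨_, hPm.map _, hroot⟩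
  set E : IntermediateField (Kj ℂ) (LaurentSeries ℂ) := IntermediateField.adjoin (Kj ℂ) {θ}
  have hmem : ∀ z ∈ ModularCurve.modularFunctionFieldFull N, embN N z ∈ E := by
    intro z hz
    have hle : (ModularCurve.modularFunctionFieldFull N).toSubfield ≤
        E.toSubfield.comap (embN N) := by
      rw [ModularCurve.modularFunctionFieldFull, IntermediateField.adjoin_toSubfield,
        Subfield.closure_le]
      rintro x (⟨c, rfl⟩ | ⟨d, hd0, hd, rfl⟩)
      · rw [eq_ratCast]
        exact SubfieldClass.ratCast_mem _ c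
      · have := hd0
        show embN N (ModularCurve.qExpand ℚ d ModularCurve.jq) ∈ E
        obtain ⟨H, hH⟩ := exists_eval_eq (iotaR N) (primitive_iotaR N) _ (equivariant_jFam hd)
        rw [embN_qExpand_jq N hd, Gk, ← hH, ← hθ]
        exact IntermediateField.algebra_adjoin_le_adjoin _ _
          (Polynomial.aeval_mem_adjoin_singleton (Kj ℂ) θ (p := H))
    exact hle hz
  have hfr : Module.finrank (Kj ℂ) E ≤ idx N := by
    rw [IntermediateField.adjoin.finrank hint, idx, ← hPd,
      ← hPm.natDegree_map (algebraMap ℂ[X] (Kj ℂ))]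
    exact Polynomial.natDegree_le_of_dvd (minpoly.dvd _ _ hroot) (hPm.map _).ne_zero
  let v : Option (Fin (idx N)) → LaurentSeries ℚ := fun o =>
    o.elim y fun l => ModularCurve.jqN N ^ (l : ℕ)
  have hv : ∀ o, embN N (v o) ∈ E := by
    rintro (_ | l)
    · exact hmem y hy
    · show embN N (ModularCurve.jqN N ^ (l : ℕ)) ∈ E
      rw [map_pow, embN_jqN]
      exact pow_mem (IntermediateField.mem_adjoin_simple_self _ θ) _
  have : FiniteDimensional (Kj ℂ) E := IntermediateField.adjoin.finiteDimensional hint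
  have hdep : ¬ LinearIndependent (Kj ℂ) fun o => (⟨embN N (v o), hv o⟩ : E) := fun h => by
    have := h.fintype_card_le_finrank
    rw [Fintype.card_option, Fintype.card_fin] at this
    omega
  obtain ⟨g, hg, o₁, ho₁⟩ := Fintype.not_linearIndependent_iff.mp hdep
  obtain ⟨B, hB⟩ := IsLocalization.exist_integer_multiples (nonZeroDivisors ℂ[X])
    (Finset.univ : Finset (Option (Fin (idx N)))) g
  choose c hc using fun o => hB o (Finset.mem_univ o)
  have hB0 : (B : ℂ[X]) ≠ 0 := nonZeroDivisors.ne_zero B.2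
  have hrel : ∑ o, evJ ℂ N (c o) * embN N (v o) = 0 := by
    have hgv : ∑ o, phiJ N ℂ (g o) * embN N (v o) = 0 := by
      have := congrArg (Subtype.val : E → LaurentSeries ℂ) hg
      simp only [AddSubmonoidClass.coe_finsetSum, ZeroMemClass.coe_zero] at this
      simpa [Algebra.smul_def, RingHom.algebraMap_toAlgebra] using this
    calc ∑ o, evJ ℂ N (c o) * embN N (v o)
        = evJ ℂ N B * ∑ o, phiJ N ℂ (g o) * embN N (v o) := by
          rw [Finset.mul_sum]
          refine Finset.sum_congr rfl fun o _ => ?_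
          rw [← phiJ_algebraMap, hc o, Algebra.smul_def, map_mul, phiJ_algebraMap, mul_assoc]
      _ = 0 := by rw [hgv, mul_zero]
  have hcne : c ≠ 0 := fun h => by
    have := hc o₁
    rw [h, Pi.zero_apply, map_zero, Algebra.smul_def, eq_comm, mul_eq_zero] at this
    exact this.elim (fun h1 => hB0 ((IsFractionRing.to_map_eq_zero_iff).mp h1)) ho₁
  obtain ⟨a, ha, hsum⟩ := exists_rat_relation N v c hrel hcne
  rw [Fintype.sum_option] at hsum
  refine ⟨a none, fun h0 => ha ?_, fun l => -a (some l), ?_⟩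
  · have hz : ∑ l, evJ ℂ N ((a (some l)).map (algebraMap ℚ ℂ)) * θ ^ (l : ℕ) = 0 := by
      have h1 := congrArg (embN N) hsum
      rw [h0, map_zero, zero_mul, zero_add, map_sum, map_zero] at h1
      simp only [v, Option.elim_some, map_mul, map_pow, embN_evq, embN_jqN] at h1
      exact h1
    have h2 := pow_independent (iotaR N) (primitive_iotaR N) _ hz
    funext o
    rcases o with _ | l
    · exact h0
    · exact Polynomial.map_injective _ (algebraMap ℚ ℂ).injective
        (by simpa using congrFun h2 l)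
  · rw [eq_neg_of_add_eq_zero_left (a := evq ℚ (a none) * y) hsum, ← Finset.sum_neg_distrib]
    exact Finset.sum_congr rfl fun l _ => by simp [v]

/-- `j(Nτ)` is integral over `ℤ[j]`. -/
theorem exists_monic_int_root :
    ∃ P : ℤ[X][X], P.Monic ∧
      (P.map ((evq ℚ).comp (Polynomial.mapRingHom (Int.castRingHom ℚ)))).IsRoot
        (ModularCurve.jqN N) := by
  set g : ℤ[X] →+* LaurentSeries ℂ := (evJ ℂ N).comp (Polynomial.mapRingHom (Int.castRingHom ℂ))
  let : Algebra ℤ[X] (LaurentSeries ℂ) := g.toAlgebra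
  obtain ⟨P, hPm, -, hP⟩ := exists_charPoly (jFam (N := N) dvd_rfl) (equivariant_jFam _)
  set Cl := integralClosure ℤ[X] (LaurentSeries ℂ)
  have hJ : ∀ p : Polynomial (Rz N), ModularCurve.coeffMap (iotaR N) (evJ (Rz N) N p) ∈ Cl := by
    intro p
    rw [← evJ_map, evJ, Polynomial.coe_eval₂RingHom, Polynomial.eval₂_eq_sum_range]
    refine Subalgebra.sum_mem _ fun i _ => mul_mem ?_ (pow_mem ?_ i)
    · rw [Polynomial.coeff_map]
      obtain ⟨Q, hQm, hQ⟩ : IsIntegral ℤ (iotaR N (p.coeff i)) :=
        adjoin_le_integralClosure ((zetaC_isPrimitiveRoot N).isIntegral (NeZero.pos N))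
          (p.coeff i).2
      refine ⟨Q.map Polynomial.C, hQm.map _, ?_⟩
      rw [Polynomial.eval₂_map]
      have h := congrArg (fun z : ℂ => HahnSeries.C (Γ := ℤ) z) hQ
      simp only [map_zero, Polynomial.hom_eval₂] at h
      rw [RingHom.ext_int ((algebraMap ℤ[X] (LaurentSeries ℂ)).comp Polynomial.C)
        ((HahnSeries.C : ℂ →+* LaurentSeries ℂ).comp (algebraMap ℤ ℂ))]
      exact h
    · rw [show jW ℂ N = algebraMap ℤ[X] (LaurentSeries ℂ) X by
        simp [RingHom.algebraMap_toAlgebra, g, evJ]]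
      exact Subalgebra.algebraMap_mem _ _
  have hθ : IsIntegral ℤ[X] (Gk (iotaR N) (dvd_refl N) (cst0 : Cst N)) := by
    set Ψ := (P.map (evJ (Rz N) N)).map (ModularCurve.coeffMap (iotaR N))
    have hlift : Ψ ∈ Polynomial.lifts (algebraMap Cl (LaurentSeries ℂ)) := by
      rw [Polynomial.lifts_iff_coeff_lifts]
      intro i
      simp only [Ψ, Polynomial.coeff_map]
      exact ⟨⟨_, hJ _⟩, rfl⟩
    obtain ⟨Q, hQ, -, hQm⟩ := Polynomial.lifts_and_natDegree_eq_and_monic hlift
      ((hPm.map _).map _)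
    refine isIntegral_trans (R := ℤ[X]) (A := Cl) _ ⟨Q, hQm, ?_⟩
    rw [← Polynomial.eval_map, hQ]
    simp only [Ψ, hP, Polynomial.map_prod, Polynomial.eval_prod]
    exact Finset.prod_eq_zero (Finset.mem_univ cst0) (by simp [Gk, red])
  obtain ⟨Q, hQm, hQ⟩ := hθ
  refine ⟨Q, hQm, embN_injective N ?_⟩
  rw [map_zero, ← Polynomial.eval₂_eq_eval_map, Polynomial.hom_eval₂, embN_jqN]
  rw [show (embN N).comp ((evq ℚ).comp (Polynomial.mapRingHom (Int.castRingHom ℚ))) = g from
    RingHom.ext fun p => by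
      simp only [RingHom.comp_apply, g, embN_evq, Polynomial.coe_mapRingHom, Polynomial.map_map]
      congr 2]
  exact hQ

end Fermat.Agent.Igusa
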