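import Mathlib
import Fermat.Prelude.Def_ModularCurve_X0ModL

/-!
# Functions on the upper half plane given by Laurent series in `q^(1/h)`

`QS h` is the ring of pairs `(f, s)`: a holomorphic function `f` on `ℍ` and a Laurent series `s`
such that `f τ = ∑ sₙ exp (2πiτn/h)` (unconditionally convergent at every `τ`).
-/

set_option autoImplicit false

noncomputable section

open Complex
open scoped UpperHalfPlane Manifold

namespace Fermat.Agent.Igusa

local notation "qP" => Function.Periodic.qParam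

/-- `c`-twist of a Laurent series: multiplies the `n`-th coefficient by `c ^ n`. -/
def twist {R : Type*} [CommRing R] (c : Rˣ) : LaurentSeries R →+* LaurentSeries R where
  toFun s :=
    { coeff := fun n => ((c ^ n : Rˣ) : R) * s.coeff n
      isPWO_support' := s.isPWO_support.mono fun n hn h0 => hn (by simp [h0]) }
  map_zero' := by ext n; simp
  map_one' := by
    ext n
    rcases eq_or_ne n 0 with rfl | hn <;> simp [HahnSeries.coeff_one, *]
  map_add' x y := by ext n; simp [mul_add]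
  map_mul' x y := by
    classical
    ext n
    simp only [HahnSeries.coeff_mul, Finset.mul_sum]
    refine Finset.sum_congr_of_eq_on_inter ?_ ?_ ?_
    · intro p hp hp'
      simp only [Finset.mem_antidiagonal, HahnSeries.mem_support] at hp hp'
      by_cases hx : ((c ^ p.1 : Rˣ) : R) * x.coeff p.1 = 0
      · rw [(Units.mul_right_eq_zero _).mp hx, zero_mul, mul_zero]
      by_cases hy : ((c ^ p.2 : Rˣ) : R) * y.coeff p.2 = 0
      · rw [(Units.mul_right_eq_zero _).mp hy, mul_zero, mul_zero]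
      exact absurd ⟨hx, hy, hp.2.2⟩ hp'
    · intro p hp hp'
      simp only [Finset.mem_antidiagonal, HahnSeries.mem_support] at hp hp'
      exact absurd ⟨fun h => hp.1 (by simp [h]), fun h => hp.2.1 (by simp [h]), hp.2.2⟩ hp'
    · intro p hp _
      simp only [Finset.mem_antidiagonal] at hp
      rw [← hp.2.2, zpow_add, Units.val_mul]
      ring

@[simp]
theorem twist_coeff {R : Type*} [CommRing R] (c : Rˣ) (s : LaurentSeries R) (n : ℤ) :
    (twist c s).coeff n = ((c ^ n : Rˣ) : R) * s.coeff n := rfl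

theorem coeffMap_twist {R S : Type*} [CommRing R] [CommRing S] (φ : R →+* S) (c : Rˣ)
    (s : LaurentSeries R) :
    ModularCurve.coeffMap φ (twist c s) =
      twist (Units.map (φ : R →* S) c) (ModularCurve.coeffMap φ s) := by
  ext n
  rw [ModularCurve.coeffMap_coeff, twist_coeff, twist_coeff, ModularCurve.coeffMap_coeff,
    map_mul, ← map_zpow]
  rfl

@[simp]
theorem twist_one_apply {R : Type*} [CommRing R] (s : LaurentSeries R) : twist 1 s = s := by
  ext n; simp

/-- `f` is holomorphic on `ℍ` and is the sum of the Laurent series `s` in `exp (2πiτ/h)`. -/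
def HasExp (h : ℕ) (f : ℍ → ℂ) (s : LaurentSeries ℂ) : Prop :=
  MDifferentiable 𝓘(ℂ) 𝓘(ℂ) f ∧
    ∀ τ : ℍ, HasSum (fun n : ℤ => s.coeff n * qP (h : ℝ) τ ^ n) (f τ)

theorem hasExp_const (h : ℕ) (c : ℂ) :
    HasExp h (fun _ => c) (HahnSeries.single (0 : ℤ) c) := by
  refine ⟨mdifferentiable_const, fun τ => ?_⟩
  have := hasSum_single (f := fun n : ℤ =>
    (HahnSeries.single (0 : ℤ) c).coeff n * qP (h : ℝ) τ ^ n) 0 fun n hn => by
      rw [HahnSeries.coeff_single_of_ne hn, zero_mul]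
  simpa using this

theorem HasExp.add {h : ℕ} {f g : ℍ → ℂ} {s t : LaurentSeries ℂ} (hf : HasExp h f s)
    (hg : HasExp h g t) : HasExp h (f + g) (s + t) :=
  ⟨hf.1.add hg.1, fun τ => by simpa [add_mul] using (hf.2 τ).add (hg.2 τ)⟩

theorem HasExp.neg {h : ℕ} {f : ℍ → ℂ} {s : LaurentSeries ℂ} (hf : HasExp h f s) :
    HasExp h (-f) (-s) :=
  ⟨hf.1.neg, fun τ => by simpa [neg_mul] using (hf.2 τ).neg⟩

theorem HasExp.mul {h : ℕ} {f g : ℍ → ℂ} {s t : LaurentSeries ℂ} (hf : HasExp h f s)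
    (hg : HasExp h g t) : HasExp h (f * g) (s * t) := by
  refine ⟨hf.1.mul hg.1, fun τ => ?_⟩
  classical
  set q := qP (h : ℝ) (τ : ℂ)
  have hq : q ≠ 0 := Function.Periodic.qParam_ne_zero _
  have hS := summable_mul_of_summable_norm (hf.2 τ).summable.norm (hg.2 τ).summable.norm
  have hprod := (hf.2 τ).mul (hg.2 τ) hS
  let e : ℤ × ℤ ≃ ℤ × ℤ :=
    { toFun := fun p => (p.2, p.1 - p.2)
      invFun := fun p => (p.1 + p.2, p.1)
      left_inv := fun p => by simp
      right_inv := fun p => by simp }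
  refine (e.hasSum_iff.mpr hprod).prod_fiberwise fun n => ?_
  simp only [Function.comp_apply, Equiv.coe_fn_mk, e]
  set A := Finset.antidiagonal s.isPWO_support t.isPWO_support n
  have hkey : ∀ i, s.coeff i * q ^ i * (t.coeff (n - i) * q ^ (n - i))
      = s.coeff i * t.coeff (n - i) * q ^ n := fun i => by
    rw [mul_mul_mul_comm, ← zpow_add₀ hq, add_sub_cancel]
  have hval : (s * t).coeff n * q ^ n =
      ∑ i ∈ A.image Prod.fst, s.coeff i * q ^ i * (t.coeff (n - i) * q ^ (n - i)) := by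
    simp only [hkey]
    rw [Finset.sum_image, HahnSeries.coeff_mul, Finset.sum_mul]
    · refine Finset.sum_congr rfl fun p hp => ?_
      rw [show n - p.1 = p.2 by have := (Finset.mem_antidiagonal.mp hp).2.2; omega]
    · intro p hp p' hp' hpp
      have h1 := (Finset.mem_antidiagonal.mp hp).2.2
      have h2 := (Finset.mem_antidiagonal.mp hp').2.2
      ext <;> simp_all; omega
  rw [hval]
  refine hasSum_sum_of_ne_finset_zero fun i hi => ?_
  rw [hkey]
  by_contra hne
  refine hi (Finset.mem_image.mpr ⟨(i, n - i), Finset.mem_antidiagonal.mpr ⟨?_, ?_, ?_⟩, rfl⟩)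
  · exact left_ne_zero_of_mul (left_ne_zero_of_mul hne)
  · exact right_ne_zero_of_mul (left_ne_zero_of_mul hne)
  · exact add_sub_cancel _ _

/-- The ring of pairs (function, expansion). -/
def QS (h : ℕ) : Subring ((ℍ → ℂ) × LaurentSeries ℂ) where
  carrier := {p | HasExp h p.1 p.2}
  mul_mem' hp hp' := hp.mul hp'
  one_mem' := hasExp_const h 1
  add_mem' hp hp' := hp.add hp'
  zero_mem' := by
    show HasExp h 0 0
    have := hasExp_const h 0
    rwa [HahnSeries.single_eq_zero] at this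
  neg_mem' hp := hp.neg

@[simp]
theorem mem_QS {h : ℕ} {p : (ℍ → ℂ) × LaurentSeries ℂ} : p ∈ QS h ↔ HasExp h p.1 p.2 := Iff.rfl

/-- Pairs whose expansion has coefficients in `R` (through `ι : R →+* ℂ`). -/
def QSR {R : Type*} [CommRing R] (h : ℕ) (ι : R →+* ℂ) :
    Subring ((ℍ → ℂ) × LaurentSeries R) :=
  (QS h).comap ((RingHom.id (ℍ → ℂ)).prodMap (ModularCurve.coeffMap ι))

@[simp]
theorem mem_QSR {R : Type*} [CommRing R] {h : ℕ} {ι : R →+* ℂ}
    {p : (ℍ → ℂ) × LaurentSeries R} :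
    p ∈ QSR h ι ↔ HasExp h p.1 (ModularCurve.coeffMap ι p.2) := Iff.rfl

/-- The zero function has only the zero expansion. -/
theorem HasExp.eq_zero {h : ℕ} [NeZero h] {s : LaurentSeries ℂ} (hs : HasExp h 0 s) : s = 0 := by
  by_contra hne
  set m := s.order
  have hc : s.coeff m ≠ 0 := mt HahnSeries.coeff_order_eq_zero.mp hne
  have hh : (0 : ℝ) < h := by exact_mod_cast NeZero.pos h
  have key : ∀ τ : ℍ, HasSum (fun k : ℕ => s.coeff (m + k) * qP (h : ℝ) τ ^ k) 0 := by
    intro τ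
    have hq : qP (h : ℝ) (τ : ℂ) ≠ 0 := Function.Periodic.qParam_ne_zero _
    have hinj : Function.Injective fun k : ℕ => m + (k : ℤ) := fun a b hab => by simpa using hab
    have h1 := (hinj.hasSum_iff fun n hn => ?_).mpr (hs.2 τ)
    · have h2 := h1.mul_right ((qP (h : ℝ) τ ^ m)⁻¹)
      simp only [Pi.zero_apply, zero_mul, Function.comp_apply] at h2
      refine h2.congr_fun fun k => ?_
      rw [zpow_add₀ hq, zpow_natCast]
      field_simp
    · have : n < m := by
        by_contra hnm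
        exact hn ⟨(n - m).toNat, by simp only; omega⟩
      rw [HahnSeries.coeff_eq_zero_of_lt_order this, zero_mul]
  -- a bound on the tail at height `1`
  set r := Real.exp (-2 * Real.pi * 1 / h)
  have hr : ∀ τ : ℍ, 1 ≤ τ.im → ‖qP (h : ℝ) (τ : ℂ)‖ ≤ r := fun τ hτ => by
    rw [Function.Periodic.norm_qParam]
    refine Real.exp_le_exp.mpr (div_le_div_of_nonneg_right ?_ hh.le)
    change -2 * Real.pi * τ.im ≤ _
    nlinarith [Real.pi_pos]
  have hsum : Summable fun k : ℕ => ‖s.coeff (m + (k + 1 : ℕ))‖ * r ^ k := by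
    have h1 := ((summable_nat_add_iff 1).mpr (key UpperHalfPlane.I).summable.norm)
    have hI : ‖qP (h : ℝ) (UpperHalfPlane.I : ℂ)‖ = r := by
      rw [Function.Periodic.norm_qParam]; simp [r]
    have h2 := h1.mul_right r⁻¹
    refine h2.congr fun k => ?_
    have hr0 : r ≠ 0 := (Real.exp_pos _).ne'
    rw [norm_mul, norm_pow, hI, pow_succ]
    field_simp
  set M := ∑' k : ℕ, ‖s.coeff (m + (k + 1 : ℕ))‖ * r ^ k
  have bound : ∀ τ : ℍ, 1 ≤ τ.im → ‖s.coeff m‖ ≤ ‖qP (h : ℝ) (τ : ℂ)‖ * M := by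
    intro τ hτ
    have h1 := (hasSum_nat_add_iff' 1).mpr (key τ)
    simp only [zero_sub, Finset.range_one, Finset.sum_singleton, Nat.cast_zero, add_zero,
      pow_zero, mul_one] at h1
    rw [← norm_neg, ← h1.tsum_eq, ← tsum_mul_left]
    refine (norm_tsum_le_tsum_norm h1.summable.norm).trans
      (Summable.tsum_le_tsum (fun k => ?_) h1.summable.norm (hsum.mul_left _))
    rw [norm_mul, norm_pow, pow_succ]
    have h2 := pow_le_pow_left₀ (norm_nonneg _) (hr τ hτ) k
    have h3 : (0 : ℝ) ≤ ‖s.coeff (m + ((k + 1 : ℕ) : ℤ))‖ * ‖qP (h : ℝ) (τ : ℂ)‖ := by positivity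
    nlinarith [mul_le_mul_of_nonneg_left h2 h3]
  have hc' : 0 < ‖s.coeff m‖ := norm_pos_iff.mpr hc
  set y : ℝ := 1 + h * M / ‖s.coeff m‖
  have hy : 1 ≤ y := le_add_of_nonneg_right (by positivity)
  let τ : ℍ := UpperHalfPlane.mk ⟨0, y⟩ (lt_of_lt_of_le one_pos hy)
  have hb := bound τ hy
  rw [Function.Periodic.norm_qParam] at hb
  have hx : M / ‖s.coeff m‖ < Real.exp (2 * Real.pi * y / h) := by
    refine lt_of_lt_of_le ?_ (Real.add_one_le_exp _)
    have h2 : M / ‖s.coeff m‖ ≤ 2 * Real.pi * y / h := by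
      rw [le_div_iff₀ hh]
      nlinarith [Real.two_le_pi, show M / ‖s.coeff m‖ * h = y - 1 by simp [y]; ring]
    linarith
  rw [show (-2 * Real.pi * (τ : ℂ).im / h) = -(2 * Real.pi * y / h) by simp [τ]; ring,
    Real.exp_neg, ← div_eq_inv_mul, le_div_iff₀ (Real.exp_pos _)] at hb
  rw [div_lt_iff₀ hc'] at hx
  linarith

/-- Expansions are unique. -/
theorem HasExp.unique {h : ℕ} [NeZero h] {f : ℍ → ℂ} {s t : LaurentSeries ℂ}
    (hs : HasExp h f s) (ht : HasExp h f t) : s = t := by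
  have := hs.add ht.neg
  rw [add_neg_cancel] at this
  exact sub_eq_zero.mp (by rw [sub_eq_add_neg]; exact this.eq_zero)

theorem HasExp.isBoundedAtImInfty {h : ℕ} [NeZero h] {f : ℍ → ℂ} {s : LaurentSeries ℂ}
    (hs : HasExp h f s) (hpos : ∀ n < (0 : ℤ), s.coeff n = 0) :
    UpperHalfPlane.IsBoundedAtImInfty f := by
  refine UpperHalfPlane.isBoundedAtImInfty_of_hasSum_qExpansion (h := (h : ℝ))
    (c := fun n : ℕ => s.coeff n) (by exact_mod_cast NeZero.pos h) fun τ => ?_
  have := (Nat.cast_injective (R := ℤ)).hasSum_iff (fun n hn => ?_) |>.mpr (hs.2 τ)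
  · simpa [Function.comp_def] using this
  · rw [hpos n (by by_contra hn'; exact hn ⟨n.toNat, by simp; omega⟩), zero_mul]

/-- The affine map `τ ↦ (a τ + b) / d` of `ℍ`. -/
def affine (a : ℕ) (b : ℤ) (d : ℕ) [NeZero a] [NeZero d] (τ : ℍ) : ℍ :=
  UpperHalfPlane.mk (((a : ℂ) * τ + b) / d) (by
    have ha : (0 : ℝ) < a := by exact_mod_cast NeZero.pos a
    have hd : (0 : ℝ) < d := by exact_mod_cast NeZero.pos d
    simp only [Complex.div_natCast_im, Complex.add_im, Complex.mul_im, Complex.natCast_re,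
      Complex.natCast_im, Complex.intCast_im, zero_mul, add_zero]
    exact div_pos (mul_pos ha τ.im_pos) hd)

@[simp]
theorem coe_affine (a : ℕ) (b : ℤ) (d : ℕ) [NeZero a] [NeZero d] (τ : ℍ) :
    (affine a b d τ : ℂ) = ((a : ℂ) * τ + b) / d := rfl

theorem mdifferentiable_comp_affine {f : ℍ → ℂ} (hf : MDifferentiable 𝓘(ℂ) 𝓘(ℂ) f) (a : ℕ)
    (b : ℤ) (d : ℕ) [NeZero a] [NeZero d] :
    MDifferentiable 𝓘(ℂ) 𝓘(ℂ) (f ∘ affine a b d) := by
  rw [UpperHalfPlane.mdifferentiable_iff] at hf ⊢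
  have him : ∀ z ∈ UpperHalfPlane.upperHalfPlaneSet,
      ((a : ℂ) * z + b) / d ∈ UpperHalfPlane.upperHalfPlaneSet := fun z hz =>
    (affine a b d ⟨z, hz⟩).im_pos
  refine (hf.comp (g := f ∘ UpperHalfPlane.ofComplex)
    (f := fun z => ((a : ℂ) * z + b) / d) (by fun_prop) him).congr fun z hz => ?_
  simp only [Function.comp_apply]
  rw [UpperHalfPlane.ofComplex_apply_of_im_pos hz,
    UpperHalfPlane.ofComplex_apply_of_im_pos (him z hz)]
  congr 1

/-- The expansion of `f ((a τ + b) / d)`. -/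
theorem HasExp.comp_affine {h H : ℕ} {f : ℍ → ℂ} {s : LaurentSeries ℂ} (hf : HasExp h f s)
    (a : ℕ) (b : ℤ) (d : ℕ) [NeZero a] [NeZero d] (k : ℕ) [NeZero k] (c : ℂˣ)
    (hq : ∀ τ : ℍ, qP (h : ℝ) (affine a b d τ : ℂ) = c * qP (H : ℝ) τ ^ k) :
    HasExp H (f ∘ affine a b d) (ModularCurve.qExpand ℂ k (twist c s)) := by
  refine ⟨mdifferentiable_comp_affine hf.1 a b d, fun τ => ?_⟩
  have hk : Function.Injective fun n : ℤ => (k : ℤ) * n :=
    mul_right_injective₀ (by exact_mod_cast NeZero.ne k)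
  refine (hk.hasSum_iff fun n hn => ?_).mp ?_
  · rw [ModularCurve.qExpand_coeff_of_not_dvd, zero_mul]
    rintro ⟨m, rfl⟩
    exact hn ⟨m, rfl⟩
  · show HasSum _ (f (affine a b d τ))
    refine (hf.2 (affine a b d τ)).congr_fun fun n => ?_
    rw [Function.comp_apply, ModularCurve.qExpand_coeff_mul, twist_coeff, hq τ, mul_zpow,
      zpow_mul, zpow_natCast]
    push_cast
    ring

end Fermat.Agent.Igusa
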