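import Fermat.Agent.Igusa.QLevel
import Fermat.Prelude.Def_ModularCurve_IgusaScheme

/-!
# Reduction mod `ℓ` of the chart algebras of the Igusa model

For `ℓ ∤ N` every element of a chart algebra has a reduced `q`-expansion, and the kernel of this
reduction on the two affine charts is generated by `ℓ`.
-/

set_option autoImplicit false

noncomputable section

open scoped MatrixGroups
open Polynomial ModularCurve ModularCurve.IgusaScheme

namespace Fermat.Agent.Igusa

variable (N : ℕ) [NeZero N] (ℓ : ℕ) [Fact ℓ.Prime]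

/-- `ℤ_(ℓ)`. -/
abbrev ZL : Type := ↥(GaloisRep.ratLocalizedAt ℓ)

/-- The function field. -/
abbrev FN : Type := ↥(modularFunctionFieldFull N)

omit [Fact (Nat.Prime ℓ)] in
theorem mem_ZL_iff {q : ℚ} : q ∈ GaloisRep.ratLocalizedAt ℓ ↔ q.den.Coprime ℓ := Iff.rfl

theorem den_ne_zero (q : ZL ℓ) : (((q : ℚ).den : ℕ) : ZMod ℓ) ≠ 0 := by
  rw [Ne, ZMod.natCast_eq_zero_iff, ← (Fact.out : ℓ.Prime).coprime_iff_not_dvd]
  exact Nat.Coprime.symm q.2

/-- Reduction `ℤ_(ℓ) → 𝔽_ℓ`. -/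
def red0 : ZL ℓ →+* ZMod ℓ where
  toFun q := ((q : ℚ) : ZMod ℓ)
  map_one' := by simp
  map_zero' := by simp
  map_add' a b := by
    simpa using Rat.cast_add_of_ne_zero (α := ZMod ℓ) (den_ne_zero ℓ a) (den_ne_zero ℓ b)
  map_mul' a b := by
    simpa using Rat.cast_mul_of_ne_zero (α := ZMod ℓ) (den_ne_zero ℓ a) (den_ne_zero ℓ b)

theorem red0_eq_zero_iff {q : ZL ℓ} : red0 ℓ q = 0 ↔ (ℓ : ZL ℓ) ∣ q := by
  constructor
  · intro h
    have h' : (((q : ℚ).num : ℤ) : ZMod ℓ) = 0 := by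
      have h1 : ((q : ℚ) : ZMod ℓ) = 0 := h
      rw [Rat.cast_def, div_eq_zero_iff] at h1
      exact h1.resolve_right (den_ne_zero ℓ q)
    obtain ⟨c, hc⟩ := (ZMod.intCast_zmod_eq_zero_iff_dvd _ ℓ).mp h'
    have hq : ((c : ℚ) / (q : ℚ).den) ∈ GaloisRep.ratLocalizedAt ℓ := by
      rw [mem_ZL_iff, ← Rat.intCast_natCast, ← Rat.divInt_eq_div]
      exact Nat.Coprime.coprime_dvd_left
        (Int.natCast_dvd_natCast.mp (Rat.den_dvd c ((q : ℚ).den : ℤ))) q.2
    refine ⟨⟨_, hq⟩, Subtype.ext ?_⟩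
    push_cast
    rw [← mul_div_assoc]
    conv_lhs => rw [← Rat.num_div_den (q : ℚ), hc]
    push_cast
    rfl
  · rintro ⟨r, rfl⟩
    rw [map_mul, map_natCast, ZMod.natCast_self, zero_mul]

theorem natCast_prime_ZL : Prime (ℓ : ZL ℓ) := by
  have hℓ : (ℓ : ℚ) ≠ 0 := by exact_mod_cast (Fact.out : ℓ.Prime).ne_zero
  refine ⟨fun h => hℓ (by simpa using congrArg Subtype.val h), fun h => ?_, fun a b hab => ?_⟩
  · have := h.map (red0 ℓ)
    rw [map_natCast, ZMod.natCast_self] at this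
    exact not_isUnit_zero this
  · rw [← red0_eq_zero_iff, map_mul, mul_eq_zero, red0_eq_zero_iff, red0_eq_zero_iff] at hab
    exact hab

instance valuationRingZL : ValuationRing (ZL ℓ) := by
  rw [ValuationRing.iff_dvd_total]
  refine ⟨fun a b => ?_⟩
  rcases eq_or_ne (a : ℚ) 0 with ha | ha
  · exact Or.inr (by rw [show a = 0 from Subtype.ext ha]; exact dvd_zero _)
  rcases eq_or_ne (b : ℚ) 0 with hb | hb
  · exact Or.inl (by rw [show b = 0 from Subtype.ext hb]; exact dvd_zero _)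
  have hprime : ℓ.Prime := Fact.out
  have key : ((b : ℚ) / a).den.Coprime ℓ ∨ ((a : ℚ) / b).den.Coprime ℓ := by
    rw [← inv_div (b : ℚ) a, Rat.den_inv, if_neg (Rat.num_ne_zero.mpr (div_ne_zero hb ha))]
    set r := (b : ℚ) / a
    by_contra h
    rw [not_or] at h
    obtain ⟨h1, h2⟩ := h
    rw [Nat.coprime_comm, hprime.coprime_iff_not_dvd, not_not] at h1 h2
    exact hprime.not_dvd_one (r.reduced ▸ Nat.dvd_gcd h2 h1)
  rcases key with h | h
  · exact Or.inl ⟨⟨(b : ℚ) / a, h⟩, Subtype.ext (mul_div_cancel₀ _ ha).symm⟩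
  · exact Or.inr ⟨⟨(a : ℚ) / b, h⟩, Subtype.ext (mul_div_cancel₀ _ hb).symm⟩

instance isIntegrallyClosedPolyZL : IsIntegrallyClosed (ZL ℓ)[X] := inferInstance

/-- Series over `ℤ_(ℓ)` inside rational series. -/
def toQ : LaurentSeries (ZL ℓ) →+* LaurentSeries ℚ :=
  coeffMap (GaloisRep.ratLocalizedAt ℓ).subtype

omit [Fact (Nat.Prime ℓ)] in
theorem toQ_injective : Function.Injective (toQ ℓ) := fun x y h => by
  ext n
  exact congrArg (fun s : LaurentSeries ℚ => s.coeff n) h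

/-- Reduction of series. -/
def redS : LaurentSeries (ZL ℓ) →+* LaurentSeries (ZMod ℓ) := coeffMap (red0 ℓ)

theorem natCast_laurent_ne_zero : (ℓ : LaurentSeries ℚ) ≠ 0 := by
  rw [← map_natCast (algebraMap ℚ (LaurentSeries ℚ)), _root_.map_ne_zero]
  exact_mod_cast (Fact.out : ℓ.Prime).ne_zero

omit [NeZero N] in
theorem natCast_FN_ne_zero : (ℓ : FN N) ≠ 0 := fun h =>
  natCast_laurent_ne_zero ℓ (by simpa using congrArg Subtype.val h)

omit [NeZero N] [Fact (Nat.Prime ℓ)] in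
theorem coe_algebraMap_ZL (c : ZL ℓ) :
    ((algebraMap (ZL ℓ) (FN N) c : FN N) : LaurentSeries ℚ) = toQ ℓ (HahnSeries.C c) := by
  rw [HahnSeries.C_apply, toQ, coeffMap_single]
  show ((algebraMap ℚ (FN N) (c : ℚ) : FN N) : LaurentSeries ℚ) = _
  rw [eq_ratCast, SubfieldClass.coe_ratCast, Subring.coe_subtype, ← algebraMap_apply_eq_single,
    eq_ratCast]

/-- The inclusion in rational series. -/
def incl : FN N →+* LaurentSeries ℚ := SubringClass.subtype (modularFunctionFieldFull N)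

/-- Evaluation at `j` in the function field. -/
def evF : (ZL ℓ)[X] →+* FN N := eval₂RingHom (algebraMap (ZL ℓ) (FN N)) (jFull N)

omit [Fact (Nat.Prime ℓ)] in
theorem coe_evF (p : (ZL ℓ)[X]) :
    ((evF N ℓ p : FN N) : LaurentSeries ℚ) = toQ ℓ (evq (ZL ℓ) p) := by
  have h : (incl N).comp (evF N ℓ) =
      (toQ ℓ).comp (evq (ZL ℓ)) := by
    refine Polynomial.ringHom_ext (fun c => ?_) ?_
    · simp only [RingHom.comp_apply, evF, evq, coe_eval₂RingHom, eval₂_C]
      exact coe_algebraMap_ZL N ℓ c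
    · simp only [RingHom.comp_apply, evF, evq, coe_eval₂RingHom, eval₂_X, toQ, coeffMap_jqModC]
      exact (jqModC_rat).symm
  exact RingHom.congr_fun h p

/-- `j(Nτ)` in the function field. -/
def GF : FN N := ⟨jqN N, modularFunctionField_le_full N (jqN_mem N)⟩

omit [Fact (Nat.Prime ℓ)] in
theorem coe_GF : ((GF N : FN N) : LaurentSeries ℚ) = toQ ℓ (jqNModC (ZL ℓ) N) := by
  rw [toQ, coeffMap_jqNModC, jqNModC_rat]
  rfl

/-- A combination of powers of `j(Nτ)`. -/
def valF (a : Fin (idx N) → (ZL ℓ)[X]) : FN N := ∑ l, evF N ℓ (a l) * GF N ^ (l : ℕ)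

/-- Its series. -/
def valS (a : Fin (idx N) → (ZL ℓ)[X]) : LaurentSeries (ZL ℓ) :=
  ∑ l, evq (ZL ℓ) (a l) * jqNModC (ZL ℓ) N ^ (l : ℕ)

omit [Fact (Nat.Prime ℓ)] in
theorem coe_valF (a : Fin (idx N) → (ZL ℓ)[X]) :
    ((valF N ℓ a : FN N) : LaurentSeries ℚ) = toQ ℓ (valS N ℓ a) := by
  simp [valF, valS, map_sum, coe_evF, coe_GF N ℓ]

variable {N ℓ}

theorem eq_zero_of_redS_valS (hℓN : ¬ ℓ ∣ N) {a : Fin (idx N) → (ZL ℓ)[X]}
    (h : redS ℓ (valS N ℓ a) = 0) : ∀ l, (a l).map (red0 ℓ) = 0 := by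
  set k := AlgebraicClosure (ZMod ℓ)
  set σ := algebraMap (ZMod ℓ) k
  have : NeZero (N : k) := ⟨fun h0 => hℓN ((CharP.cast_eq_zero_iff k ℓ N).mp h0)⟩
  obtain ⟨y, hy⟩ := HasEnoughRootsOfUnity.exists_primitiveRoot k N
  have h1 := congrArg (coeffMap σ) h
  simp only [redS, valS, map_sum, map_mul, map_pow, map_zero, coeffMap_evq,
    coeffMap_jqNModC] at h1
  intro l
  exact Polynomial.map_injective σ σ.injective
    (by simpa using congrFun (q_independent N hy _ h1) l)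

theorem exists_eq_C_mul {p : (ZL ℓ)[X]} (h : p.map (red0 ℓ) = 0) :
    ∃ p', p = C (ℓ : ZL ℓ) * p' :=
  (Polynomial.C_dvd_iff_dvd_coeff _ _).mpr fun i => (red0_eq_zero_iff ℓ).mp (by
    rw [← Polynomial.coeff_map, h, coeff_zero])

theorem map_red0_C_natCast : (C (ℓ : ZL ℓ)).map (red0 ℓ) = 0 := by
  rw [Polynomial.map_C, map_natCast, ZMod.natCast_self, map_zero]

omit [Fact (Nat.Prime ℓ)] in
theorem evF_C_natCast : evF N ℓ (C (ℓ : ZL ℓ)) = (ℓ : FN N) := by
  rw [Polynomial.C_eq_natCast, map_natCast]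

theorem redS_evq_ne_zero {b : (ZL ℓ)[X]} (h : b.map (red0 ℓ) ≠ 0) :
    redS ℓ (evq (ZL ℓ) b) ≠ 0 := by
  rw [redS, coeffMap_evq, (evq_injective (ZMod ℓ)).ne_iff' (map_zero _)]
  exact h

omit [Fact (Nat.Prime ℓ)] in
theorem isIntegral_GF : IsIntegral (Algebra.adjoin (ZL ℓ) ({jFull N} : Set (FN N))) (GF N) := by
  obtain ⟨P, hPm, hP⟩ := exists_monic_int_root N
  set A := Algebra.adjoin (ZL ℓ) ({jFull N} : Set (FN N))
  let ψ : ℤ[X] →+* A := eval₂RingHom (Int.castRingHom A)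
    ⟨jFull N, Algebra.subset_adjoin (Set.mem_singleton _)⟩
  refine ⟨P.map ψ, hPm.map _, Subtype.ext ?_⟩
  have hψ : (incl N).comp
      ((algebraMap A (FN N)).comp ψ) =
      (evq ℚ).comp (Polynomial.mapRingHom (Int.castRingHom ℚ)) := by
    refine Polynomial.ringHom_ext (fun c => ?_) ?_
    · simp [ψ, evq]
    · simp only [RingHom.comp_apply, ψ, evq, coe_eval₂RingHom, eval₂_X, Polynomial.coe_mapRingHom,
        Polynomial.map_X, jqModC_rat]
      rfl
  rw [Polynomial.eval₂_map]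
  show (incl N) (eval₂ _ _ P) = _
  rw [Polynomial.hom_eval₂, hψ, Polynomial.eval₂_eq_eval_map]
  exact hP

omit [Fact (Nat.Prime ℓ)] in
theorem evF_mem_adjoin (p : (ZL ℓ)[X]) :
    evF N ℓ p ∈ Algebra.adjoin (ZL ℓ) ({jFull N} : Set (FN N)) :=
  Polynomial.aeval_mem_adjoin_singleton (ZL ℓ) (jFull N) (p := p)

theorem valF_mem_chartAlgFin (a : Fin (idx N) → (ZL ℓ)[X]) :
    valF N ℓ a ∈ chartAlgFin N ℓ :=
  sum_mem fun l _ => mul_mem (adjoin_le_chartAlg N ℓ _ (evF_mem_adjoin (a l)))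
    (pow_mem ((mem_chartAlg_iff N ℓ).mpr isIntegral_GF) _)

omit [Fact (Nat.Prime ℓ)] in
theorem exists_relation (y : FN N) :
    ∃ b : (ZL ℓ)[X], b ≠ 0 ∧ ∃ a, evF N ℓ b * y = valF N ℓ a := by
  classical
  obtain ⟨b, hb, a, hab⟩ := exists_combination N y.2
  let f : Option (Fin (idx N)) → ℚ[X] := fun o => o.elim b a
  -- a common denominator
  have hden : ∀ s : Finset (Option (Fin (idx N))), ∃ D : ℤ, D ≠ 0 ∧
      ∀ o ∈ s, ∃ q : ℤ[X], q.map (Int.castRingHom ℚ) = C (D : ℚ) * f o := by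
    intro s
    induction s using Finset.induction with
    | empty => exact ⟨1, one_ne_zero, by simp⟩
    | insert o s ho ih =>
      obtain ⟨D, hD, hs⟩ := ih
      obtain ⟨d, hd, hd'⟩ :=
        IsLocalization.integerNormalization_spec (nonZeroDivisors ℤ) (f o)
      refine ⟨d * D, mul_ne_zero (nonZeroDivisors.ne_zero hd) hD, fun o' ho' => ?_⟩
      rcases Finset.mem_insert.mp ho' with rfl | ho'
      · refine ⟨C D * IsLocalization.integerNormalization (nonZeroDivisors ℤ) (f o'), ?_⟩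
        rw [Polynomial.map_mul, Polynomial.map_C, show Int.castRingHom ℚ = algebraMap ℤ ℚ from rfl,
          hd', Algebra.smul_def, Polynomial.algebraMap_apply]
        push_cast
        simp
        ring
      · obtain ⟨q, hq⟩ := hs o' ho'
        refine ⟨C d * q, ?_⟩
        rw [Polynomial.map_mul, Polynomial.map_C, hq]
        simp
        ring
  obtain ⟨D, hD, hq⟩ := hden Finset.univ
  choose q hq using fun o => hq o (Finset.mem_univ o)
  let p : Option (Fin (idx N)) → (ZL ℓ)[X] := fun o => (q o).map (Int.castRingHom _)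
  have hp : ∀ o, toQ ℓ (evq (ZL ℓ) (p o)) = (D : LaurentSeries ℚ) * evq ℚ (f o) := fun o => by
    rw [toQ, coeffMap_evq, Polynomial.map_map,
      RingHom.ext_int ((GaloisRep.ratLocalizedAt ℓ).subtype.comp (Int.castRingHom _))
        (Int.castRingHom ℚ), hq o, map_mul, Polynomial.C_eq_intCast, map_intCast]
  refine ⟨p none, ?_, fun l => p (some l), Subtype.ext ?_⟩
  · intro h0
    have := hp none
    rw [h0, map_zero, map_zero, eq_comm, mul_eq_zero] at this
    rcases this with h | h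
    · exact hD (by
        rw [← map_intCast (algebraMap ℚ (LaurentSeries ℚ)), map_eq_zero] at h
        exact_mod_cast h)
    · exact hb (evq_injective ℚ (h.trans (map_zero _).symm))
  · rw [MulMemClass.coe_mul, coe_evF, hp none, coe_valF, valS, map_sum]
    simp only [f, Option.elim_none]
    rw [mul_assoc, hab, Finset.mul_sum]
    refine Finset.sum_congr rfl fun l _ => ?_
    rw [map_mul, map_pow, hp, ← coe_GF N ℓ, mul_assoc]
    rfl

/-- The elements of `S` have `ℓ`-integral series. -/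
def IntegralGens (S : Set (FN N)) : Prop := ∀ s ∈ S, ∃ t, toQ ℓ t = (s : LaurentSeries ℚ)

omit [NeZero N] [Fact (Nat.Prime ℓ)] in
theorem exists_series_of_mem_adjoin {S : Set (FN N)} (hS : IntegralGens (ℓ := ℓ) S) {x : FN N}
    (hx : x ∈ Algebra.adjoin (ZL ℓ) S) : ∃ t, toQ ℓ t = (x : LaurentSeries ℚ) := by
  induction hx using Algebra.adjoin_induction with
  | mem y hy => exact hS y hy
  | algebraMap c => exact ⟨_, (coe_algebraMap_ZL N ℓ c).symm⟩
  | add y z _ _ hy hz =>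
    obtain ⟨t, ht⟩ := hy; obtain ⟨u, hu⟩ := hz
    exact ⟨t + u, by rw [map_add, ht, hu]; rfl⟩
  | mul y z _ _ hy hz =>
    obtain ⟨t, ht⟩ := hy; obtain ⟨u, hu⟩ := hz
    exact ⟨t * u, by rw [map_mul, ht, hu]; rfl⟩

/-- An integral element times `ℓ T` cannot reduce to a nonzero series. -/
theorem redS_eq_zero_of_integral {S : Set (FN N)} (hS : IntegralGens (ℓ := ℓ) S) {y : FN N}
    (hy : y ∈ chartAlg N ℓ S) {r T : LaurentSeries (ZL ℓ)} (hT : redS ℓ T = 0)
    (hr : toQ ℓ T * (y : LaurentSeries ℚ) = toQ ℓ r) : redS ℓ r = 0 := by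
  set A := Algebra.adjoin (ZL ℓ) S
  obtain ⟨P, hPm, hP⟩ : IsIntegral A y := (mem_chartAlg_iff N ℓ).mp hy
  set v := incl N
  set Ψ := (P.map (algebraMap A (FN N))).map v
  have hlift : Ψ ∈ Polynomial.lifts (toQ ℓ) := by
    rw [Polynomial.lifts_iff_coeff_lifts]
    intro i
    obtain ⟨t, ht⟩ := exists_series_of_mem_adjoin hS (P.coeff i).2
    exact ⟨t, by rw [ht, Polynomial.coeff_map, Polynomial.coeff_map]; rfl⟩
  obtain ⟨Q, hQ, -, hQm⟩ :=
    Polynomial.lifts_and_natDegree_eq_and_monic hlift ((hPm.map _).map _)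
  have hroot : eval₂ (toQ ℓ) (y : LaurentSeries ℚ) Q = 0 := by
    rw [Polynomial.eval₂_eq_eval_map, hQ, Polynomial.eval_map]
    show eval₂ v (v y) _ = 0
    rw [Polynomial.eval₂_at_apply, Polynomial.eval_map, hP, map_zero]
  have h0 : (Q.scaleRoots T).eval r = 0 := by
    refine toQ_injective ℓ ?_
    rw [map_zero, ← Polynomial.eval₂_at_apply, ← hr, Polynomial.scaleRoots_eval₂_mul, hroot,
      mul_zero]
  have h1 : redS ℓ ((Q.scaleRoots T).eval r) = 0 := by rw [h0, map_zero]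
  rw [← Polynomial.eval_map_apply, Polynomial.map_scaleRoots _ _ _ (by
      rw [hQm.leadingCoeff, map_one]; exact one_ne_zero),
    hT, Polynomial.scaleRoots_zero, (hQm.map _).leadingCoeff, one_smul, eval_pow, eval_X] at h1
  exact eq_zero_of_pow_eq_zero h1

theorem exists_strip (hℓN : ¬ ℓ ∣ N) {S : Set (FN N)} (hS : IntegralGens (ℓ := ℓ) S) {y : FN N}
    (hy : y ∈ chartAlg N ℓ S) :
    ∃ b : (ZL ℓ)[X], b.map (red0 ℓ) ≠ 0 ∧ ∃ a, evF N ℓ b * y = valF N ℓ a := by
  suffices H : ∀ M : ℕ, ∀ b : (ZL ℓ)[X], b ≠ 0 → ((b.leadingCoeff : ℚ).num).natAbs = M →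
      (∃ a, evF N ℓ b * y = valF N ℓ a) →
      ∃ b : (ZL ℓ)[X], b.map (red0 ℓ) ≠ 0 ∧ ∃ a, evF N ℓ b * y = valF N ℓ a by
    obtain ⟨b, hb, hab⟩ := exists_relation (ℓ := ℓ) y
    exact H _ b hb rfl hab
  intro M
  induction M using Nat.strong_induction_on with
  | _ M ih =>
  intro b hb hM hab
  by_cases hbar : b.map (red0 ℓ) = 0
  · obtain ⟨a, ha⟩ := hab
    obtain ⟨b', rfl⟩ := exists_eq_C_mul hbar
    have hr : toQ ℓ (evq (ZL ℓ) (C (ℓ : ZL ℓ) * b')) * (y : LaurentSeries ℚ) =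
        toQ ℓ (valS N ℓ a) := by
      rw [← coe_evF N ℓ, ← coe_valF N ℓ, ← ha]; rfl
    have ha0 := eq_zero_of_redS_valS hℓN (redS_eq_zero_of_integral hS hy (by
      rw [redS, coeffMap_evq, hbar, map_zero]) hr)
    choose a' ha' using fun l => exists_eq_C_mul (ha0 l)
    have hb' : b' ≠ 0 := right_ne_zero_of_mul hb
    have hlead : ((b'.leadingCoeff : ℚ).num).natAbs < M := by
      rw [← hM, Polynomial.leadingCoeff_mul, Polynomial.leadingCoeff_C]
      push_cast
      rw [Rat.mul_num, Rat.num_natCast, Rat.den_natCast, one_mul,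
        show Nat.gcd ((ℓ : ℤ) * (b'.leadingCoeff : ℚ).num).natAbs (b'.leadingCoeff : ℚ).den = 1 by
          rw [Int.natAbs_mul, Int.natAbs_natCast]
          exact Nat.Coprime.mul_left (Nat.Coprime.symm b'.leadingCoeff.2)
            (b'.leadingCoeff : ℚ).reduced,
        Nat.cast_one, Int.ediv_one, Int.natAbs_mul, Int.natAbs_natCast]
      refine lt_mul_left (Int.natAbs_pos.mpr (Rat.num_ne_zero.mpr ?_))
        (Fact.out : ℓ.Prime).one_lt
      exact fun h => hb' (Polynomial.leadingCoeff_eq_zero.mp (Subtype.ext h))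
    refine ih _ hlead b' hb' rfl ⟨a', mul_left_cancel₀ (natCast_FN_ne_zero N ℓ) ?_⟩
    rw [← mul_assoc, ← evF_C_natCast (ℓ := ℓ), ← map_mul, ha, valF, valF, Finset.mul_sum]
    exact Finset.sum_congr rfl fun l _ => by rw [ha' l, map_mul, mul_assoc]
  · exact ⟨b, hbar, hab⟩

/-- `w` is a reduction of the series of `y`. -/
def IsRed (y : FN N) (w : LaurentSeries (ZMod ℓ)) : Prop :=
  ∃ b : (ZL ℓ)[X], b.map (red0 ℓ) ≠ 0 ∧ ∃ r : LaurentSeries (ZL ℓ),
    toQ ℓ (evq (ZL ℓ) b) * (y : LaurentSeries ℚ) = toQ ℓ r ∧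
      redS ℓ r = w * redS ℓ (evq (ZL ℓ) b)

omit [NeZero N] in
theorem IsRed.unique {y : FN N} {w w' : LaurentSeries (ZMod ℓ)} (h : IsRed y w)
    (h' : IsRed y w') : w = w' := by
  obtain ⟨b, hb, r, hr, hw⟩ := h
  obtain ⟨b', hb', r', hr', hw'⟩ := h'
  have h1 : evq (ZL ℓ) b' * r = evq (ZL ℓ) b * r' := toQ_injective ℓ (by
    rw [map_mul, map_mul, ← hr, ← hr']; ring)
  have h2 := congrArg (redS ℓ) h1
  rw [map_mul, map_mul, hw, hw'] at h2
  exact mul_right_cancel₀ (mul_ne_zero (redS_evq_ne_zero hb) (redS_evq_ne_zero hb'))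
    (by linear_combination h2)

omit [NeZero N] in
theorem IsRed.add {y z : FN N} {w v : LaurentSeries (ZMod ℓ)} (h : IsRed y w) (h' : IsRed z v) :
    IsRed (y + z) (w + v) := by
  obtain ⟨b, hb, r, hr, hw⟩ := h
  obtain ⟨c, hc, s, hs, hv⟩ := h'
  refine ⟨b * c, by rw [Polynomial.map_mul]; exact mul_ne_zero hb hc,
    r * evq (ZL ℓ) c + s * evq (ZL ℓ) b, ?_, ?_⟩
  · simp only [map_mul, map_add, AddMemClass.coe_add, ← hr, ← hs]; ring
  · simp only [map_mul, map_add, hw, hv]; ring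

omit [NeZero N] in
theorem IsRed.mul {y z : FN N} {w v : LaurentSeries (ZMod ℓ)} (h : IsRed y w) (h' : IsRed z v) :
    IsRed (y * z) (w * v) := by
  obtain ⟨b, hb, r, hr, hw⟩ := h
  obtain ⟨c, hc, s, hs, hv⟩ := h'
  refine ⟨b * c, by rw [Polynomial.map_mul]; exact mul_ne_zero hb hc, r * s, ?_, ?_⟩
  · simp only [map_mul, MulMemClass.coe_mul, ← hr, ← hs]; ring
  · simp only [map_mul, hw, hv]; ring

omit [NeZero N] in
theorem isRed_algebraMap (c : ZL ℓ) :
    IsRed (N := N) (algebraMap (ZL ℓ) (FN N) c) (HahnSeries.C (red0 ℓ c)) := by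
  refine ⟨1, by rw [Polynomial.map_one]; exact one_ne_zero, HahnSeries.C c, ?_, ?_⟩
  · rw [map_one, map_one, one_mul, coe_algebraMap_ZL]
  · rw [map_one, map_one, mul_one, redS, HahnSeries.C_apply, coeffMap_single, HahnSeries.C_apply]

/-- Every element of a chart algebra has a reduction. -/
theorem exists_isRed (hℓN : ¬ ℓ ∣ N) {S : Set (FN N)} (hS : IntegralGens (ℓ := ℓ) S)
    (y : chartAlg N ℓ S) : ∃ w, IsRed (ℓ := ℓ) (y : FN N) w := by
  obtain ⟨b, hb, a, ha⟩ := exists_strip hℓN hS y.2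
  refine ⟨redS ℓ (valS N ℓ a) / redS ℓ (evq (ZL ℓ) b), b, hb, valS N ℓ a, ?_,
    (div_mul_cancel₀ _ (redS_evq_ne_zero hb)).symm⟩
  rw [← coe_evF N ℓ, ← coe_valF N ℓ, ← ha]; rfl

/-- The reduction map of a chart algebra. -/
def redHom (hℓN : ¬ ℓ ∣ N) {S : Set (FN N)} (hS : IntegralGens (ℓ := ℓ) S) :
    chartAlg N ℓ S →+* LaurentSeries (ZMod ℓ) where
  toFun y := (exists_isRed hℓN hS y).choose
  map_one' := (exists_isRed hℓN hS 1).choose_spec.unique (by
    simpa using isRed_algebraMap (N := N) (1 : ZL ℓ))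
  map_zero' := (exists_isRed hℓN hS 0).choose_spec.unique (by
    simpa using isRed_algebraMap (N := N) (0 : ZL ℓ))
  map_add' x y := (exists_isRed hℓN hS (x + y)).choose_spec.unique
    ((exists_isRed hℓN hS x).choose_spec.add (exists_isRed hℓN hS y).choose_spec)
  map_mul' x y := (exists_isRed hℓN hS (x * y)).choose_spec.unique
    ((exists_isRed hℓN hS x).choose_spec.mul (exists_isRed hℓN hS y).choose_spec)

/-- `redHom` is a reduction. -/
theorem redHom_spec (hℓN : ¬ ℓ ∣ N) {S : Set (FN N)} (hS : IntegralGens (ℓ := ℓ) S)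
    (y : chartAlg N ℓ S) : IsRed (y : FN N) (redHom hℓN hS y) :=
  (exists_isRed hℓN hS y).choose_spec

theorem redHom_algebraMap (hℓN : ¬ ℓ ∣ N) {S : Set (FN N)} (hS : IntegralGens (ℓ := ℓ) S)
    (c : ZL ℓ) : redHom hℓN hS (algebraMap (ZL ℓ) _ c) = HahnSeries.C (red0 ℓ c) :=
  (redHom_spec hℓN hS _).unique (isRed_algebraMap c)

theorem mem_of_mul_mem (s : FN N)
    (hinj : Function.Injective (aeval s : (ZL ℓ)[X] →ₐ[ZL ℓ] FN N))
    {y : FN N} {b : (ZL ℓ)[X]} (hb : b.map (red0 ℓ) ≠ 0)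
    (h1 : (ℓ : FN N) * y ∈ chartAlg N ℓ {s}) (h2 : aeval s b * y ∈ chartAlg N ℓ {s}) :
    y ∈ chartAlg N ℓ {s} := by
  classical
  let algR : Algebra (ZL ℓ)[X] (FN N) := (aeval s).toRingHom.toAlgebra
  have hR : ∀ p : (ZL ℓ)[X], algebraMap (ZL ℓ)[X] (FN N) p = aeval s p := fun _ => rfl
  let K := FractionRing (ZL ℓ)[X]
  let algK : Algebra K (FN N) := (IsFractionRing.lift (A := (ZL ℓ)[X])
    (g := (aeval s).toRingHom) hinj).toAlgebra
  have : IsScalarTower (ZL ℓ)[X] K (FN N) := IsScalarTower.of_algebraMap_eq fun p => by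
    rw [RingHom.algebraMap_toAlgebra (R := K), IsFractionRing.lift_algebraMap]
    rfl
  set A := Algebra.adjoin (ZL ℓ) ({s} : Set (FN N))
  let ψ : (ZL ℓ)[X] →+* A :=
    ((aeval s).codRestrict A fun p => Polynomial.aeval_mem_adjoin_singleton _ s).toRingHom
  have hψ : (algebraMap A (FN N)).comp ψ = algebraMap (ZL ℓ)[X] (FN N) := RingHom.ext fun _ => rfl
  have hψs : Function.Surjective ψ := by
    rintro ⟨x, hx⟩
    have hx' := hx
    simp only [A, Algebra.adjoin_singleton_eq_range_aeval] at hx'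
    obtain ⟨p, hp⟩ := hx'
    exact ⟨p, Subtype.ext hp⟩
  have hint : ∀ {z : FN N}, z ∈ chartAlg N ℓ {s} → IsIntegral (ZL ℓ)[X] z := by
    intro z hz
    obtain ⟨P, hPm, hP⟩ := (mem_chartAlg_iff N ℓ).mp hz
    obtain ⟨Q, hQ, -, hQm⟩ := Polynomial.lifts_and_natDegree_eq_and_monic
      (Polynomial.map_surjective ψ hψs P : P ∈ Polynomial.lifts ψ) hPm
    refine ⟨Q, hQm, ?_⟩
    rw [← hψ, ← Polynomial.eval₂_map, hQ]
    exact hP
  have hb0 : aeval s b ≠ 0 := fun h => hb (by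
    rw [show b = 0 from hinj (h.trans (map_zero _).symm), Polynomial.map_zero])
  have halg : IsIntegral K y := by
    have h := (IsIntegral.tower_top (A := K) (hint h2)).smul (algebraMap (ZL ℓ)[X] K b)⁻¹
    rwa [Algebra.smul_def, map_inv₀, ← IsScalarTower.algebraMap_apply, hR, ← mul_assoc,
      inv_mul_cancel₀ hb0, one_mul] at h
  set m := minpoly K y
  have hm := minpoly.monic halg
  have key : ∀ c : (ZL ℓ)[X], c ≠ 0 → IsIntegral (ZL ℓ)[X] (algebraMap (ZL ℓ)[X] (FN N) c * y) →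
      ∀ i, ∃ u : (ZL ℓ)[X],
        algebraMap (ZL ℓ)[X] K u = algebraMap (ZL ℓ)[X] K c ^ (m.natDegree - i) * m.coeff i := by
    intro c hc hci i
    set e := algebraMap (ZL ℓ)[X] K c with he_def
    have he : e ≠ 0 := fun h => hc ((IsFractionRing.to_map_eq_zero_iff).mp h)
    have hce : algebraMap (ZL ℓ)[X] (FN N) c = algebraMap K (FN N) e :=
      IsScalarTower.algebraMap_apply _ _ _ c
    rw [hce] at hci
    have hcy : IsIntegral K (algebraMap K (FN N) e * y) := IsIntegral.tower_top hci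
    have hd1 : minpoly K (algebraMap K (FN N) e * y) ∣ m.scaleRoots e := minpoly.dvd _ _
      (by rw [aeval_def, Polynomial.scaleRoots_eval₂_mul, ← aeval_def, minpoly.aeval, mul_zero])
    have hd2 : m ∣ (minpoly K (algebraMap K (FN N) e * y)).scaleRoots e⁻¹ := minpoly.dvd _ _ (by
      have h := Polynomial.scaleRoots_eval₂_mul (p := minpoly K (algebraMap K (FN N) e * y))
        (algebraMap K (FN N)) (algebraMap K (FN N) e * y) e⁻¹
      rw [← mul_assoc, ← map_mul, inv_mul_cancel₀ he, map_one, one_mul,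
        ← aeval_def, ← aeval_def, minpoly.aeval, mul_zero] at h
      exact h)
    have hms : (m.scaleRoots e).Monic := (Polynomial.monic_scaleRoots_iff _).mpr hm
    have heq : minpoly K (algebraMap K (FN N) e * y) = m.scaleRoots e := by
      refine (Polynomial.eq_of_monic_of_dvd_of_natDegree_le (minpoly.monic hcy) hms hd1 ?_).symm
      have := Polynomial.natDegree_le_of_dvd hd2
        ((Polynomial.monic_scaleRoots_iff _).mpr (minpoly.monic hcy)).ne_zero
      rw [Polynomial.natDegree_scaleRoots] at this ⊢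
      exact this
    refine ⟨(minpoly (ZL ℓ)[X] (algebraMap K (FN N) e * y)).coeff i, ?_⟩
    rw [← Polynomial.coeff_map, ← minpoly.isIntegrallyClosed_eq_field_fractions' K hci, heq,
      Polynomial.coeff_scaleRoots, mul_comm]
  have hℓ : Prime (C (ℓ : ZL ℓ)) := Polynomial.prime_C_iff.mpr (natCast_prime_ZL ℓ)
  have hℓint : IsIntegral (ZL ℓ)[X] (algebraMap (ZL ℓ)[X] (FN N) (C (ℓ : ZL ℓ)) * y) := by
    rw [hR, aeval_C, map_natCast]
    exact hint h1
  have hbint : IsIntegral (ZL ℓ)[X] (algebraMap (ZL ℓ)[X] (FN N) b * y) := by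
    rw [hR]
    exact hint h2
  have hb00 : b ≠ 0 := fun h => hb (by rw [h, Polynomial.map_zero])
  have hlift : m ∈ Polynomial.lifts (algebraMap (ZL ℓ)[X] K) := by
    rw [Polynomial.lifts_iff_coeff_lifts]
    intro i
    obtain ⟨u, hu⟩ := key _ hℓ.ne_zero hℓint i
    obtain ⟨w, hw⟩ := key b hb00 hbint i
    set e := m.natDegree - i
    have h : b ^ e * u = C (ℓ : ZL ℓ) ^ e * w := IsFractionRing.injective (ZL ℓ)[X] K (by
      rw [map_mul, map_mul, map_pow, map_pow, hu, hw]; ring)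
    obtain ⟨v, hv⟩ := hℓ.pow_dvd_of_dvd_mul_left e (a := b ^ e) (b := u)
      (fun hd => hb (by
        obtain ⟨d, hd'⟩ := hℓ.dvd_of_dvd_pow hd
        rw [hd', Polynomial.map_mul, map_red0_C_natCast, zero_mul])) ⟨w, h⟩
    refine ⟨v, mul_left_cancel₀ (pow_ne_zero e fun h0 => hℓ.ne_zero
      ((IsFractionRing.to_map_eq_zero_iff (R := (ZL ℓ)[X]) (K := K)).mp h0)) ?_⟩
    rw [← hu, hv, map_mul, map_pow]
  obtain ⟨Q, hQ, -, hQm⟩ := Polynomial.lifts_and_natDegree_eq_and_monic hlift hm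
  refine (mem_chartAlg_iff N ℓ).mpr ⟨Q.map ψ, hQm.map _, ?_⟩
  rw [Polynomial.eval₂_map, hψ, IsScalarTower.algebraMap_eq (ZL ℓ)[X] K (FN N),
    ← Polynomial.eval₂_map, hQ, ← aeval_def, minpoly.aeval]

omit [Fact (Nat.Prime ℓ)] in
theorem evF_injective : Function.Injective (evF N ℓ) := by
  refine (injective_iff_map_eq_zero _).mpr fun p hp => ?_
  have h := congrArg Subtype.val hp
  rw [coe_evF, ZeroMemClass.coe_zero, toQ, coeffMap_evq] at h
  exact Polynomial.map_injective _ Subtype.val_injective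
    ((evq_injective ℚ (h.trans (map_zero _).symm)).trans (Polynomial.map_zero _).symm)

omit [Fact (Nat.Prime ℓ)] in
theorem jInv_injective :
    Function.Injective (aeval (jFull N)⁻¹ : (ZL ℓ)[X] →ₐ[ZL ℓ] FN N) := by
  refine (injective_iff_map_eq_zero _).mpr fun p hp => ?_
  have := invertibleOfNonzero (inv_ne_zero (jFull_ne_zero N))
  have h := (Polynomial.eval₂_reverse_eq_zero_iff (algebraMap (ZL ℓ) (FN N)) (jFull N)⁻¹ p).mpr hp
  rw [invOf_eq_inv, inv_inv] at h
  exact Polynomial.reverse_eq_zero.mp (evF_injective (h.trans (map_zero _).symm))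

omit [Fact (Nat.Prime ℓ)] in
theorem integralGens_jFull : IntegralGens (N := N) (ℓ := ℓ) {jFull N} := by
  rintro s rfl
  exact ⟨evq (ZL ℓ) X, by rw [← coe_evF N ℓ]; simp [evF]⟩

omit [Fact (Nat.Prime ℓ)] in
theorem integralGens_jInv : IntegralGens (N := N) (ℓ := ℓ) {(jFull N)⁻¹} := by
  rintro s rfl
  refine ⟨HahnSeries.single (1 : ℤ) 1 * HahnSeries.ofPowerSeries ℤ (ZL ℓ)
    ((jNum.map (Int.castRingHom (ZL ℓ))).invOfUnit 1), ?_⟩
  rw [IntermediateField.coe_inv, coe_jFull, ← sub_eq_zero, sub_eq_zero,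
    ← mul_eq_one_iff_eq_inv₀ jq_ne_zero,
    ← jqModC_rat, ← coeffMap_jqModC (GaloisRep.ratLocalizedAt ℓ).subtype, ← toQ, ← map_mul]
  rw [jqModC, mul_mul_mul_comm, HahnSeries.single_mul_single, ← map_mul,
    mul_comm ((jNum.map _).invOfUnit 1), PowerSeries.mul_invOfUnit _ _ (by
      rw [← PowerSeries.coeff_zero_eq_constantCoeff_apply, PowerSeries.coeff_map,
        PowerSeries.coeff_zero_eq_constantCoeff_apply, constantCoeff_jNum, map_one]; rfl)]
  simp

omit [Fact (Nat.Prime ℓ)] in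
theorem integralGens_pair : IntegralGens (N := N) (ℓ := ℓ) {jFull N, (jFull N)⁻¹} := by
  rintro s (rfl | rfl)
  · exact integralGens_jFull _ rfl
  · exact integralGens_jInv _ rfl

/-- The kernel of reduction is `ℓ` times the chart. -/
theorem exists_mul_of_redHom_eq_zero (hℓN : ¬ ℓ ∣ N) {s : FN N}
    (hs : s = jFull N ∨ s = (jFull N)⁻¹) (hS : IntegralGens (ℓ := ℓ) ({s} : Set (FN N)))
    (y : chartAlg N ℓ {s}) (h0 : redHom hℓN hS y = 0) :
    ∃ z : chartAlg N ℓ {s}, y = (ℓ : chartAlg N ℓ {s}) * z := by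
  obtain ⟨b, hb, a, ha⟩ := exists_strip hℓN hS y.2
  have hr : toQ ℓ (evq (ZL ℓ) b) * ((y : FN N) : LaurentSeries ℚ) = toQ ℓ (valS N ℓ a) := by
    rw [← coe_evF N ℓ, ← coe_valF N ℓ, ← ha]; rfl
  have hred : IsRed (y : FN N) (redS ℓ (valS N ℓ a) / redS ℓ (evq (ZL ℓ) b)) :=
    ⟨b, hb, _, hr, (div_mul_cancel₀ _ (redS_evq_ne_zero hb)).symm⟩
  have hzero := hred.unique (redHom_spec hℓN hS y)
  rw [h0, div_eq_zero_iff] at hzero
  have ha0 := eq_zero_of_redS_valS hℓN (hzero.resolve_right (redS_evq_ne_zero hb))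
  choose a' ha' using fun l => exists_eq_C_mul (ha0 l)
  have hℓ := natCast_FN_ne_zero N ℓ
  set z : FN N := (y : FN N) / (ℓ : FN N)
  have hz : (ℓ : FN N) * z = y := mul_div_cancel₀ _ hℓ
  have hbz : evF N ℓ b * z = valF N ℓ a' := by
    refine mul_left_cancel₀ hℓ ?_
    rw [mul_left_comm, hz, ha, valF, valF, Finset.mul_sum]
    exact Finset.sum_congr rfl fun l _ => by
      rw [ha' l, map_mul, evF_C_natCast, mul_assoc]
  have hz1 : (ℓ : FN N) * z ∈ chartAlg N ℓ {s} := hz ▸ y.2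
  suffices hmem : z ∈ chartAlg N ℓ {s} from ⟨⟨z, hmem⟩, Subtype.ext (by simpa using hz.symm)⟩
  rcases hs with rfl | rfl
  · exact mem_of_mul_mem (jFull N) evF_injective hb hz1 (hbz ▸ valF_mem_chartAlgFin a')
  · set s := (jFull N)⁻¹ with hs_def
    have hs0 : s ≠ 0 := inv_ne_zero (jFull_ne_zero N)
    obtain ⟨t, ht⟩ := exists_pow_mul_mem_chartAlg (N := N) (ℓ := ℓ) (Set.mem_singleton s) hs0
      (chartAlg_mono N ℓ (S' := insert s⁻¹ {s})
        (by rw [hs_def, inv_inv]; exact Set.singleton_subset_iff.mpr (Set.mem_insert _ _))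
        (hbz ▸ valF_mem_chartAlgFin (ℓ := ℓ) a'))
    have := invertibleOfNonzero (jFull_ne_zero N)
    have hrev := Polynomial.eval₂_reverse_mul_pow (algebraMap (ZL ℓ) (FN N)) (jFull N) b
    rw [invOf_eq_inv, ← hs_def] at hrev
    refine mem_of_mul_mem s jInv_injective (b := X ^ t * b.reverse) ?_ hz1 ?_
    · rw [Polynomial.map_mul, Polynomial.map_pow, Polynomial.map_X]
      refine mul_ne_zero (pow_ne_zero _ Polynomial.X_ne_zero)
        fun h => hb (Polynomial.ext fun i => ?_)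
      have := congrArg (fun p : (ZMod ℓ)[X] => p.coeff (Polynomial.revAt b.natDegree i)) h
      simpa [Polynomial.coeff_reverse, Polynomial.revAt_invol] using this
    · have hkey : aeval s (X ^ t * b.reverse) * z =
          s ^ b.natDegree * (s ^ t * (evF N ℓ b * z)) := by
        rw [evF, coe_eval₂RingHom, ← hrev, map_mul, map_pow, aeval_X, ← aeval_def]
        have : s ^ b.natDegree * jFull N ^ b.natDegree = 1 := by
          rw [← mul_pow, hs_def, inv_mul_cancel₀ (jFull_ne_zero N), one_pow]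
        linear_combination (-(s ^ t * aeval s b.reverse * z)) * this
      rw [hkey]
      exact mul_mem (pow_mem (subset_chartAlg N ℓ _ (Set.mem_singleton s)) _) ht

end Fermat.Agent.Igusa
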